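import Mathlib
import Fermat.Agent.CAR.Ell.InstJ
import Fermat.Agent.CAR.Ell.FrickeRed
import Fermat.Agent.Lib.Red.BranchInst

/-!
# S15 / (G2), (K1) for `j`: zeros of `j - c` reduce to zeros of `j̄ - c̄`

For every level `N`, every prime `ℓ ∤ N`, every valuation subring `A` of `ℚ̄` over `ℓ` and EVERY
place reduction `r` (`IsPlaceReductionAlong`):

* `finrank_jBar_eq` : `[F_N : ℚ̄(j)] = [F̄_N : k(j̄)]` (char-`0` degree `= [SL₂(ℤ) : Γ₀(N)]`
  `= [F_N : ℚ̄(j_N)] = [F̄_N : k(j̄_N)]` by the base-function data of `J(q^N)`, `= [F̄_N : k(j̄)]`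
  by the Fricke involution modulo `ℓ`);
* `ord_Jbar_sub_pos` : `0 < ord_P (j - c)`, `c ∈ A` ⟹ `0 < ord_{r P} (j̄ - c̄)`;
* `ord_Jbar_nonneg` : a place with `0 < ord_P j` does not reduce to a pole of `j̄`.
-/

set_option autoImplicit false
set_option linter.unusedSectionVars false
set_option linter.style.haveILetI false

namespace Fermat.Agent.S15P.G2.ZeroJ85

open ModularCurve AlgebraicCurve Fermat.Agent.S28 Fermat.Agent.S24 Fermat.Agent.Lib.Red
open Fermat.Agent.ESJ Fermat.Agent.Lib.FF.ModL Fermat.Agent.CAR.Ell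
open Fermat.Agent.CAR.Ell.FrickeRed
open scoped IntermediateField

noncomputable section

/-- Transport of the degree along an automorphism. -/
theorem finrank_adjoin_algEquiv {K F : Type*} [Field K] [Field F] [Algebra K F] (σ : F ≃ₐ[K] F)
    (x : F) : Module.finrank K⟮σ x⟯ F = Module.finrank K⟮x⟯ F := by
  symm
  have hmap : (K⟮x⟯).map (σ : F →ₐ[K] F) = K⟮σ x⟯ := by
    rw [IntermediateField.adjoin_map, Set.image_singleton]
    rfl
  let e1 : K⟮x⟯ ≃ₐ[K] (K⟮x⟯).map (σ : F →ₐ[K] F) := IntermediateField.equivMap _ _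
  let e2 : (K⟮x⟯).map (σ : F →ₐ[K] F) ≃ₐ[K] K⟮σ x⟯ := IntermediateField.equivOfEq hmap
  refine Algebra.finrank_eq_of_equiv_equiv ((e1.trans e2 : _ ≃ₐ[K] _) : _ ≃+* _)
    ((σ : F ≃ₐ[K] F) : F ≃+* F) ?_
  ext y
  rfl

variable (A : ValuationSubring (AlgebraicClosure ℚ))

set_option synthInstance.maxHeartbeats 400000 in
set_option maxHeartbeats 1000000 in
/-- **The degree of `j` is the same in characteristic `0` and modulo `ℓ ∤ N`.** -/
theorem finrank_jBar_eq (N ℓ : ℕ) [NeZero N] (hℓ : ℓ.Prime) (hℓN : ¬ ℓ ∣ N)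
    (hA : A.LiesOverPrime ℓ) :
    Module.finrank KQ⟮jBar N⟯ (FN N) =
      Module.finrank (IsLocalRing.ResidueField A)⟮Jbar (IsLocalRing.ResidueField A) N⟯
        ↥(modularFunctionFieldFullC (IsLocalRing.ResidueField A) N) := by
  have : IsAlgClosed (IsLocalRing.ResidueField A) :=
    Fermat.Agent.Lib.FF.CharP.isAlgClosed_residueField A
  have hNk : (N : IsLocalRing.ResidueField A) ≠ 0 := natCast_residue_ne_zero' A hℓ hA N hℓN
  have hπ := residue_eq_zero_of_not_isUnit' A
  have hsurj : Function.Surjective (IsLocalRing.residue A) := IsLocalRing.residue_surjective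
  have h1 := (BaseFn.Data.ofJ A (IsLocalRing.residue A) N).finrank_eq hπ hsurj hNk
  rw [BaseFn.Data.ofJ_x, BaseFn.Data.ofJ_xt] at h1
  have h2 := finrank_adjoin_algEquiv (frickeBar hπ hsurj hNk)
    (xk (IsLocalRing.ResidueField A) N)
  rw [frickeBar_xk] at h2
  rw [h2, ← h1, Fermat.Agent.Lib.Red.BranchInst.finrank_xL N]
  exact Fermat.Agent.S24.finrank_jBar N

set_option synthInstance.maxHeartbeats 400000 in
set_option maxHeartbeats 1000000 in
/-- **Zeros of `j - c` reduce to zeros of `j̄ - c̄`**, `c ∈ A`, for every place reduction. -/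
theorem ord_Jbar_sub_pos (N ℓ : ℕ) [NeZero N] (hℓ : ℓ.Prime) (hℓN : ¬ ℓ ∣ N)
    (hA : A.LiesOverPrime ℓ)
    {r : Place KQ (FN N) → Place (IsLocalRing.ResidueField A)
      ↥(modularFunctionFieldFullC (IsLocalRing.ResidueField A) N)}
    (hr : IsPlaceReductionAlong A (IsLocalRing.residue A) N r) (c : A)
    (P : Place KQ (FN N)) (hP : 0 < P.ord (jBar N - algebraMap KQ (FN N) (c : KQ))) :
    0 < (r P).ord (Jbar (IsLocalRing.ResidueField A) N -
      algebraMap (IsLocalRing.ResidueField A) _ (IsLocalRing.residue A c)) := by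
  classical
  have : IsAlgClosed (IsLocalRing.ResidueField A) :=
    Fermat.Agent.Lib.FF.CharP.isAlgClosed_residueField A
  haveI := Fermat.Agent.S24.finiteDimensional_jBar N
  haveI := finiteDimensional_Jbar (IsLocalRing.ResidueField A) N
  have htrL := Fermat.Agent.S24.transcendental_jBar N
  have htrk := transcendental_Jbar (IsLocalRing.ResidueField A) N
  -- the integral series
  set y : LaurentSeries A := TD.Jd A 1 - HahnSeries.C c with hydef
  have hyL : coeffMap A.subtype y =
      ((jBar N - algebraMap KQ (FN N) (c : KQ) : FN N) : LaurentSeries KQ) := by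
    show incl A y = _
    rw [hydef, map_sub, incl_Jd, incl_C]
    show _ = ((jBar N : FN N) : LaurentSeries KQ) -
      ((algebraMap KQ ↥(laurentBaseChange KQ (modularFunctionFieldFull N)) (c : KQ) :
        ↥(laurentBaseChange KQ (modularFunctionFieldFull N))) : LaurentSeries KQ)
    rw [coe_jBar_eq_Jd, coe_algebraMap_laurentBaseChange]
  have hy : coeffMap A.subtype y ∈ laurentBaseChange KQ (modularFunctionFieldFull N) := by
    rw [hyL]
    exact (jBar N - algebraMap KQ (FN N) (c : KQ) : FN N).2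
  have hyk' : coeffMap (IsLocalRing.residue A) y =
      ((Jbar (IsLocalRing.ResidueField A) N -
        algebraMap (IsLocalRing.ResidueField A) _ (IsLocalRing.residue A c) :
        ↥(modularFunctionFieldFullC (IsLocalRing.ResidueField A) N)) :
        LaurentSeries (IsLocalRing.ResidueField A)) := by
    show rbar A (IsLocalRing.residue A) y = _
    rw [hydef, map_sub, rbar_Jd, rbar_C]
    show _ = ((Jbar (IsLocalRing.ResidueField A) N :
      ↥(modularFunctionFieldFullC (IsLocalRing.ResidueField A) N)) :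
        LaurentSeries (IsLocalRing.ResidueField A)) -
      ((algebraMap (IsLocalRing.ResidueField A)
        ↥(modularFunctionFieldFullC (IsLocalRing.ResidueField A) N) (IsLocalRing.residue A c) :
        ↥(modularFunctionFieldFullC (IsLocalRing.ResidueField A) N)) :
        LaurentSeries (IsLocalRing.ResidueField A))
    rw [coe_Jbar, TD.Jd_one, coe_algebraMap_fullC]
  have hyk : coeffMap (IsLocalRing.residue A) y ∈
      modularFunctionFieldFullC (IsLocalRing.ResidueField A) N := by
    rw [hyk']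
    exact (Jbar (IsLocalRing.ResidueField A) N -
        algebraMap (IsLocalRing.ResidueField A) _ (IsLocalRing.residue A c) :
        ↥(modularFunctionFieldFullC (IsLocalRing.ResidueField A) N)).2
  have hne : coeffMap (IsLocalRing.residue A) y ≠ 0 := by
    rw [hyk']
    intro h0
    have h1 : Jbar (IsLocalRing.ResidueField A) N -
        algebraMap (IsLocalRing.ResidueField A) _ (IsLocalRing.residue A c) = 0 :=
      Subtype.ext h0
    apply htrk
    rw [sub_eq_zero.mp h1]
    exact isAlgebraic_algebraMap _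
  have hfL : (⟨coeffMap A.subtype y, hy⟩ : FN N) =
      jBar N - algebraMap KQ (FN N) (c : KQ) := Subtype.ext hyL
  have hfk : (⟨coeffMap (IsLocalRing.residue A) y, hyk⟩ :
      ↥(modularFunctionFieldFullC (IsLocalRing.ResidueField A) N)) =
      Jbar (IsLocalRing.ResidueField A) N -
        algebraMap (IsLocalRing.ResidueField A) _ (IsLocalRing.residue A c) := Subtype.ext hyk'
  have hfin : {P : Place KQ (FN N) |
      P.ord (jBar N - algebraMap KQ (FN N) (c : KQ)) ≠ 0}.Finite :=
    Fermat.Agent.Lib.FF.CharP.finite_ord_ne_zero (jBar N) _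
  set D : Divisor KQ (FN N) := Finsupp.ofSupportFinite
    (fun P => P.ord (jBar N - algebraMap KQ (FN N) (c : KQ))) hfin with hD
  have hDa : ∀ P, D P = P.ord (jBar N - algebraMap KQ (FN N) (c : KQ)) := fun P => rfl
  have hpush : ∀ Q, Finsupp.mapDomain r D Q = Q.ord (Jbar (IsLocalRing.ResidueField A) N -
      algebraMap (IsLocalRing.ResidueField A) _ (IsLocalRing.residue A c)) := by
    intro Q
    have h := hr.2 y hy hyk hne D (fun P => by rw [hDa, hfL]) Q
    rw [hfk] at h
    exact h
  obtain ⟨hZL, hsumL⟩ := Fermat.Agent.Lib.FF.CharP.placesOver_finite_sum (jBar N) htrL (c : KQ)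
  obtain ⟨hZk, hsumk⟩ := Fermat.Agent.Lib.FF.CharP.placesOver_finite_sum
    (Jbar (IsLocalRing.ResidueField A) N) htrk (IsLocalRing.residue A c)
  have hZ : ∀ P', P' ∈ hZL.toFinset ↔ 0 < D P' := by
    intro P'
    rw [Set.Finite.mem_toFinset, hDa]
    rfl
  have hsum : ∑ P' ∈ hZL.toFinset, D P' ≤ ∑ Q ∈ hZk.toFinset,
      Q.ord (Jbar (IsLocalRing.ResidueField A) N -
        algebraMap (IsLocalRing.ResidueField A) _ (IsLocalRing.residue A c)) := by
    rw [hsumk, ← finrank_jBar_eq A N ℓ hℓ hℓN hA, ← hsumL]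
    exact le_of_eq (Finset.sum_congr rfl fun P' _ => hDa P')
  have hmem := mapsTo_of_mapDomain r D _ hpush hZL.toFinset hZ hZk.toFinset hsum P
    ((hZ P).mpr (by rw [hDa]; exact hP))
  rw [Set.Finite.mem_toFinset] at hmem
  exact hmem

set_option synthInstance.maxHeartbeats 400000 in
set_option maxHeartbeats 1000000 in
/-- A zero of `j` does not reduce to a pole of `j̄`. -/
theorem ord_Jbar_pos (N ℓ : ℕ) [NeZero N] (hℓ : ℓ.Prime) (hℓN : ¬ ℓ ∣ N)
    (hA : A.LiesOverPrime ℓ)
    {r : Place KQ (FN N) → Place (IsLocalRing.ResidueField A)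
      ↥(modularFunctionFieldFullC (IsLocalRing.ResidueField A) N)}
    (hr : IsPlaceReductionAlong A (IsLocalRing.residue A) N r)
    (P : Place KQ (FN N)) (hP : 0 < P.ord (jBar N)) :
    0 < (r P).ord (Jbar (IsLocalRing.ResidueField A) N) := by
  have h := ord_Jbar_sub_pos A N ℓ hℓ hℓN hA hr 0 P (by
    rw [ZeroMemClass.coe_zero, map_zero, sub_zero]; exact hP)
  rwa [map_zero, map_zero, sub_zero] at h

end

end Fermat.Agent.S15P.G2.ZeroJ85
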