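import Mathlib
import Fermat.Agent.S15P.G2.ZeroJ85
import Fermat.Agent.Lib.FF.CanonicalFF1

/-!
# S15 / (G2), (COLL): places with an `A`-integral `j_d`-value never reduce onto a cusp

* `compRing P A` : the composite valuation ring `{f : ∃ c ∈ A, f ≡ c mod 𝔪_P}` of a place `P`
  (with residue field `K`) and a valuation subring `A` of the constant field;
* `exists_value_jBar` : at level `M`, `d ∣ M`: if `j_d(P) = c ∈ A` then `j(P) = c' ∈ A`
  (main's `CAR.Ell.Jd_mem_valuationSubring_iff` — the modular equations — in the composite ring);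
* `ord_Jbar_nonneg_of_integral`, `red_ne_of_integral` : such a place does not reduce to a pole of
  `j̄`, hence never shares its reduction with a cusp (any place reduction, good pairs).
-/

set_option autoImplicit false
set_option linter.unusedSectionVars false
set_option linter.style.haveILetI false

namespace Fermat.Agent.S15P.G2.Coll85

open ModularCurve AlgebraicCurve Fermat.Agent.S28 Fermat.Agent.S24 Fermat.Agent.Lib.Red
open Fermat.Agent.ESJ Fermat.Agent.Lib.FF.ModL Fermat.Agent.CAR.Ell
open Fermat.Agent.S24.Counting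
open scoped IntermediateField

noncomputable section

section Abstract

variable {K F : Type*} [Field K] [Field F] [Algebra K F]

/-- `v_P(g) < 1` iff `g = 0` or `0 < ord_P g`. -/
theorem val_lt_one_iff (P : Place K F) (g : F) :
    P.toValuationSubring.valuation g < 1 ↔ g = 0 ∨ 0 < P.ord g := by
  rcases eq_or_ne g 0 with rfl | hg
  · simp
  · have hv0 : P.toValuationSubring.valuation g ≠ 0 := (Valuation.ne_zero_iff _).mpr hg
    rw [ord_pos_iff P hg]
    constructor
    · intro h
      right
      intro hmem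
      have h1 : P.toValuationSubring.valuation g⁻¹ ≤ 1 :=
        (ValuationSubring.valuation_le_one_iff _ _).mpr hmem
      rw [map_inv₀, inv_le_one₀ (zero_lt_iff.mpr hv0)] at h1
      exact absurd h (not_lt.mpr h1)
    · rintro (h | h)
      · exact absurd h hg
      · by_contra hcon
        push Not at hcon
        apply h
        rw [← ValuationSubring.valuation_le_one_iff, map_inv₀]
        exact (inv_le_one₀ (zero_lt_iff.mpr hv0)).mpr hcon

theorem val_const_le_one (P : Place K F) (c : K) :
    P.toValuationSubring.valuation (algebraMap K F c) ≤ 1 :=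
  (ValuationSubring.valuation_le_one_iff _ _).mpr (P.algebraMap_mem' c)

theorem val_const_eq_one (P : Place K F) {c : K} (hc : c ≠ 0) :
    P.toValuationSubring.valuation (algebraMap K F c) = 1 := by
  refine le_antisymm (val_const_le_one P c) ?_
  have h := val_const_le_one P c⁻¹
  have hv0 : P.toValuationSubring.valuation (algebraMap K F c) ≠ 0 :=
    (Valuation.ne_zero_iff _).mpr ((map_ne_zero _).mpr hc)
  rwa [map_inv₀, map_inv₀, inv_le_one₀ (zero_lt_iff.mpr hv0)] at h

/-- The composite valuation ring of a place `P` with residue field `K` and a valuation subring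
`A` of `K`: the functions regular at `P` whose value lies in `A`. -/
def compRing (P : Place K F) (A : ValuationSubring K)
    (hres : ∀ f : F, P.toValuationSubring.valuation f ≤ 1 →
      ∃ c : K, P.toValuationSubring.valuation (f - algebraMap K F c) < 1) :
    ValuationSubring F where
  carrier := {f | ∃ c ∈ A, P.toValuationSubring.valuation (f - algebraMap K F c) < 1}
  mul_mem' := by
    rintro f f' ⟨c, hc, h⟩ ⟨c', hc', h'⟩
    refine ⟨c * c', A.mul_mem _ _ hc hc', ?_⟩
    have hf' : P.toValuationSubring.valuation f' ≤ 1 := by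
      have h1 : f' = (f' - algebraMap K F c') + algebraMap K F c' := by ring
      rw [h1]
      exact le_trans (Valuation.map_add _ _ _) (max_le h'.le (val_const_le_one P c'))
    have hEq : f * f' - algebraMap K F (c * c') =
        (f - algebraMap K F c) * f' + algebraMap K F c * (f' - algebraMap K F c') := by
      rw [map_mul]; ring
    rw [hEq]
    refine Valuation.map_add_lt _ ?_ ?_
    · rw [map_mul]
      exact lt_of_le_of_lt (by simpa using mul_le_mul' (le_refl
        (P.toValuationSubring.valuation (f - algebraMap K F c))) hf') h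
    · rw [map_mul, mul_comm]
      exact lt_of_le_of_lt (by simpa using mul_le_mul' (le_refl
        (P.toValuationSubring.valuation (f' - algebraMap K F c'))) (val_const_le_one P c)) h'
  one_mem' := ⟨1, A.one_mem, by simp⟩
  add_mem' := by
    rintro f f' ⟨c, hc, h⟩ ⟨c', hc', h'⟩
    refine ⟨c + c', A.add_mem _ _ hc hc', ?_⟩
    have hEq : f + f' - algebraMap K F (c + c') =
        (f - algebraMap K F c) + (f' - algebraMap K F c') := by
      rw [map_add]; ring
    rw [hEq]
    exact Valuation.map_add_lt _ h h'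
  zero_mem' := ⟨0, A.zero_mem, by simp⟩
  neg_mem' := by
    rintro f ⟨c, hc, h⟩
    refine ⟨-c, A.neg_mem _ hc, ?_⟩
    have hEq : -f - algebraMap K F (-c) = -(f - algebraMap K F c) := by
      rw [map_neg]; ring
    rw [hEq, Valuation.map_neg]
    exact h
  mem_or_inv_mem' := by
    intro f
    rcases lt_trichotomy (P.toValuationSubring.valuation f) 1 with h | h | h
    · exact Or.inl ⟨0, A.zero_mem, by simpa using h⟩
    · obtain ⟨c, hc⟩ := hres f h.le
      have hf0 : f ≠ 0 := by
        rintro rfl
        rw [map_zero] at h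
        exact zero_ne_one h
      have hc0 : c ≠ 0 := by
        rintro rfl
        rw [map_zero, sub_zero, h] at hc
        exact lt_irrefl _ hc
      rcases A.mem_or_inv_mem c with hcA | hcA
      · exact Or.inl ⟨c, hcA, hc⟩
      · refine Or.inr ⟨c⁻¹, hcA, ?_⟩
        have hEq : f⁻¹ - algebraMap K F c⁻¹ =
            -(f - algebraMap K F c) * (f⁻¹ * algebraMap K F c⁻¹) := by
          have hc' : algebraMap K F c ≠ 0 := (map_ne_zero _).mpr hc0
          rw [map_inv₀]
          field_simp
          ring
        rw [hEq, map_mul, Valuation.map_neg, map_mul, map_inv₀, h, inv_one, one_mul,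
          val_const_eq_one P (inv_ne_zero hc0), mul_one]
        exact hc
    · refine Or.inr ⟨0, A.zero_mem, ?_⟩
      rw [map_zero, sub_zero, map_inv₀]
      exact inv_lt_one_of_one_lt₀ h

theorem mem_compRing_iff (P : Place K F) (A : ValuationSubring K)
    (hres : ∀ f : F, P.toValuationSubring.valuation f ≤ 1 →
      ∃ c : K, P.toValuationSubring.valuation (f - algebraMap K F c) < 1) (f : F) :
    f ∈ compRing P A hres ↔
      ∃ c ∈ A, P.toValuationSubring.valuation (f - algebraMap K F c) < 1 := Iff.rfl

/-- At a pole of `y`, `ord (y - c) = ord y`. -/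
theorem ord_sub_const_of_neg (v : Place K F) {y : F} (hy : v.ord y < 0) (c : K) :
    v.ord (y - algebraMap K F c) = v.ord y := by
  have hy0 : y ≠ 0 := fun h => by rw [h, Place.ord_zero] at hy; exact lt_irrefl _ hy
  rcases eq_or_ne c 0 with rfl | hc
  · rw [map_zero, sub_zero]
  · have hc' : algebraMap K F c ≠ 0 := (map_ne_zero _).mpr hc
    rw [sub_eq_add_neg]
    refine (isRawVal_ord v).map_add_of_lt hy0 (neg_ne_zero.mpr hc') ?_
    rw [(isRawVal_ord v).map_neg hc', (isRawVal_ord v).map_algebraMap c hc]
    exact hy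

/-- `ResK` in valuation form. -/
theorem hres_of_resK (P : Place K F) (hP : Fermat.Agent.Lib.FF.RR.ResK P) :
    ∀ f : F, P.toValuationSubring.valuation f ≤ 1 →
      ∃ c : K, P.toValuationSubring.valuation (f - algebraMap K F c) < 1 := by
  intro f hf
  have hfm : f ∈ P.toValuationSubring := (ValuationSubring.valuation_le_one_iff _ _).mp hf
  obtain ⟨c, hc⟩ := hP ⟨f, hfm⟩
  refine ⟨c, ?_⟩
  have h := (ValuationSubring.valuation_lt_one_iff P.toValuationSubring _).mp hc
  have hcoe : (((⟨f, hfm⟩ : P.toValuationSubring) - algebraMap K P.toValuationSubring c :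
      P.toValuationSubring) : F) = f - algebraMap K F c := by
    show f - ((algebraMap K P.toValuationSubring c : P.toValuationSubring) : F) = _
    rw [P.coe_algebraMap]
  rw [hcoe] at h
  exact h

end Abstract

/-- The series of `j_d`. -/
theorem coe_jFormal (M : ℕ) [NeZero M] (d : Dv M) :
    ((jFormal M d : FN M) : LaurentSeries KQ) = TD.Jd KQ d.1 := by
  haveI : NeZero d.1 := ⟨fun h0 => NeZero.ne M (by
    have := d.2; rw [h0] at this; exact zero_dvd_iff.mp this)⟩
  show coeffEmb KQ (qExpand ℚ d.1 jq) = TD.Jd KQ d.1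
  rw [← TD.Jd_rat d.1, coeffEmb, TD.coeffMap_Jd]

/-- **Integral `j_d`-value ⟹ integral `j`-value.** -/
theorem exists_value_jBar (M : ℕ) [NeZero M] (d : Dv M) (A : ValuationSubring KQ)
    (P : Place KQ (FN M)) (c : KQ) (hc : c ∈ A)
    (hP : 0 < P.ord (jFormal M d - algebraMap KQ (FN M) c)) :
    ∃ c' : KQ, c' ∈ A ∧ 0 < P.ord (jBar M - algebraMap KQ (FN M) c') := by
  have hres := hres_of_resK P ((Fermat.Agent.Lib.FF.Res.isFF1_modular M).resK P)
  have hd0 : d.1 ≠ 0 := fun h0 => NeZero.ne M (by
    have := d.2; rw [h0] at this; exact zero_dvd_iff.mp this)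
  have hmem : jFormal M d ∈ compRing P A hres :=
    ⟨c, hc, (val_lt_one_iff P _).mpr (Or.inr hP)⟩
  have hiff := Jd_mem_valuationSubring_iff (laurentBaseChange KQ (modularFunctionFieldFull M))
    (compRing P A hres) d.1 hd0 (jBar M) (jFormal M d) (coe_jBar_eq_Jd M) (coe_jFormal M d)
  obtain ⟨c', hc', h⟩ := hiff.mpr hmem
  refine ⟨c', hc', ?_⟩
  rcases (val_lt_one_iff P _).mp h with h0 | h0
  · exfalso
    apply Fermat.Agent.S24.transcendental_jBar M
    rw [sub_eq_zero.mp h0]
    exact isAlgebraic_algebraMap _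
  · exact h0

variable (A : ValuationSubring (AlgebraicClosure ℚ))

set_option synthInstance.maxHeartbeats 400000 in
set_option maxHeartbeats 1000000 in
/-- A place with an `A`-integral `j_d`-value does not reduce to a pole of `j̄`. -/
theorem ord_Jbar_nonneg_of_integral (M ℓ : ℕ) [NeZero M] (hℓ : ℓ.Prime) (hℓM : ¬ ℓ ∣ M)
    (hA : A.LiesOverPrime ℓ)
    {r : Place KQ (FN M) → Place (IsLocalRing.ResidueField A)
      ↥(modularFunctionFieldFullC (IsLocalRing.ResidueField A) M)}
    (hr : IsPlaceReductionAlong A (IsLocalRing.residue A) M r) (d : Dv M) (c : KQ) (hc : c ∈ A)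
    (P : Place KQ (FN M)) (hP : 0 < P.ord (jFormal M d - algebraMap KQ (FN M) c)) :
    0 ≤ (r P).ord (Jbar (IsLocalRing.ResidueField A) M) := by
  obtain ⟨c', hc', h⟩ := exists_value_jBar M d A P c hc hP
  have h1 := Fermat.Agent.S15P.G2.ZeroJ85.ord_Jbar_sub_pos A M ℓ hℓ hℓM hA hr ⟨c', hc'⟩ P h
  by_contra hneg
  push Not at hneg
  have h2 := ord_sub_const_of_neg (r P) hneg
    (IsLocalRing.residue A ⟨c', hc'⟩)
  rw [h2] at h1
  exact absurd hneg (not_lt.mpr h1.le)

set_option synthInstance.maxHeartbeats 400000 in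
set_option maxHeartbeats 1000000 in
/-- **(COLL)**: a place with an `A`-integral `j_d`-value never shares its reduction with a
cusp. -/
theorem red_ne_of_integral (M ℓ : ℕ) [NeZero M] (hℓ : ℓ.Prime) (hℓM : ¬ ℓ ∣ M)
    (hgood : 5 ≤ ℓ ∨ (ℓ = 3 ∧ 2 ∣ M) ∨ (ℓ = 2 ∧ 3 ∣ M)) (hA : A.LiesOverPrime ℓ)
    {r : Place KQ (FN M) → Place (IsLocalRing.ResidueField A)
      ↥(modularFunctionFieldFullC (IsLocalRing.ResidueField A) M)}
    (hr : IsPlaceReductionAlong A (IsLocalRing.residue A) M r) (d : Dv M) (c : KQ) (hc : c ∈ A)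
    (P : Place KQ (FN M)) (hP : 0 < P.ord (jFormal M d - algebraMap KQ (FN M) c))
    (P' : Place KQ (FN M)) (hP' : P'.ord (jBar M) < 0) : r P ≠ r P' := by
  intro heq
  have h1 := ord_Jbar_nonneg_of_integral A M ℓ hℓ hℓM hA hr d c hc P hP
  have h2 := cusp_of_cusp A M ℓ hℓ hℓM hgood hA hr P' hP'
  rw [heq] at h1
  exact absurd h2 (not_lt.mpr h1)

end

end Fermat.Agent.S15P.G2.Coll85
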