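/-
S15 / (G2) — helper41.  ABSTRACT CORE (Mathlib + the Prelude's `AlgebraicCurve` API only).

`F ⊆ F'` function fields over `K` (think `F = F_p`, `F' = F_{p·s}`), `Fb` a function field over
`k` (the reduced curve of level `p·s`), `r` a map from the places of `F'` to the places of `Fb`
(a place reduction).  `RedDiv r f g` says `r_* div(f) = div(g)`.

For a place `x` of `F` with values `J(x) = b`, `J_p(x) = a` of type `0` (the clause for
`J_p − (a/b^p) J^p` has reduction `ḡ_p`) we prove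

  `r_* π^*(x) = r_* π^*(P0)`                                   (`mapDomain_pullback_eq_zero_type`)

and for type `∞` (`J/b`, reduction of `J_p − (a/b^p) J^p` is `ḡ_p − γ ḡ^p`, `γ ≠ 0`)

  `r_* π^*(x) = r_* π^*(P∞)`                                   (`mapDomain_pullback_eq_inf_type`).

Inputs: the two cusps `P∞`, `P0` of `F` with the orders of `J`, `J_p`, the clause `RedDiv` for a
handful of functions of `F` pulled back to `F'`, and (COLL): a zero of `J` or `J_p` never has
the same image under `r` as a pole of `J`.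
-/
import Mathlib
import Fermat.Prelude.Def_AlgebraicCurve_DivisorPushPull

set_option autoImplicit false

namespace Fermat.Agent.S15P.G2.Fibre41

open AlgebraicCurve

noncomputable section

/-! ### Orders at one place -/

section Ord

variable {K F : Type*} [Field K] [Field F] [Algebra K F] (v : Place K F)

theorem ord_lt_ord_iff {f g : F} (hf : f ≠ 0) (hg : g ≠ 0) :
    v.ord f < v.ord g ↔ v.adicValuation g < v.adicValuation f := by
  unfold Place.ord
  rw [neg_lt_neg_iff,
    WithZero.log_lt_log (v.adicValuation_ne_zero hg) (v.adicValuation_ne_zero hf)]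

theorem ord_le_ord_iff {f g : F} (hf : f ≠ 0) (hg : g ≠ 0) :
    v.ord f ≤ v.ord g ↔ v.adicValuation g ≤ v.adicValuation f := by
  unfold Place.ord
  rw [neg_le_neg_iff,
    WithZero.log_le_log (v.adicValuation_ne_zero hg) (v.adicValuation_ne_zero hf)]

theorem ord_add_eq_of_lt {f g : F} (hf : f ≠ 0) (hg : g ≠ 0) (h : v.ord f < v.ord g) :
    v.ord (f + g) = v.ord f := by
  have h' := (ord_lt_ord_iff v hf hg).mp h
  unfold Place.ord
  rw [v.adicValuation.map_add_eq_of_lt_left h']

theorem add_ne_zero_of_ord_lt {f g : F} (h : v.ord f < v.ord g) :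
    f + g ≠ 0 := by
  intro h0
  have : g = -f := by rw [← sub_eq_zero, sub_neg_eq_add, add_comm]; exact h0
  rw [this] at h
  have h2 : v.ord (-f) = v.ord f := by
    unfold Place.ord
    rw [Valuation.map_neg]
  rw [h2] at h
  exact lt_irrefl _ h

theorem ord_neg (f : F) : v.ord (-f) = v.ord f := by
  unfold Place.ord
  rw [Valuation.map_neg]

theorem min_le_ord_add {f g : F} (hf : f ≠ 0) (hg : g ≠ 0) (hfg : f + g ≠ 0) :
    min (v.ord f) (v.ord g) ≤ v.ord (f + g) := by
  have h := v.adicValuation.map_add f g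
  rcases le_total (v.adicValuation f) (v.adicValuation g) with h1 | h1
  · rw [max_eq_right h1] at h
    exact (min_le_right _ _).trans ((ord_le_ord_iff v hg hfg).mpr h)
  · rw [max_eq_left h1] at h
    exact (min_le_left _ _).trans ((ord_le_ord_iff v hf hfg).mpr h)

theorem val_le_one_of_mem {f : F} (hf : f ∈ v.toValuationSubring) : v.adicValuation f ≤ 1 := by
  have h := v.adicValuation_coe ⟨f, hf⟩
  rw [show ((⟨f, hf⟩ : v.toValuationSubring) : F) = f from rfl] at h
  rw [h]
  exact IsDedekindDomain.HeightOneSpectrum.intValuation_le_one _ _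

theorem ord_nonneg_of_mem {f : F} (hf : f ∈ v.toValuationSubring) : 0 ≤ v.ord f := by
  rcases eq_or_ne f 0 with rfl | hf0
  · simp
  have h := val_le_one_of_mem v hf
  have h1 : v.ord (1 : F) ≤ v.ord f := (ord_le_ord_iff v one_ne_zero hf0).mpr (by simpa using h)
  simpa using h1

theorem mem_of_ord_nonneg {f : F} (h : 0 ≤ v.ord f) : f ∈ v.toValuationSubring := by
  rcases eq_or_ne f 0 with rfl | hf
  · exact zero_mem _
  obtain ⟨π, hπ⟩ := IsDiscreteValuationRing.exists_irreducible v.toValuationSubring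
  obtain ⟨u, hu⟩ := v.exists_unit_mul_zpow hf hπ
  rw [hu, show v.ord f = (((v.ord f).toNat : ℕ) : ℤ) from (Int.toNat_of_nonneg h).symm,
    zpow_natCast]
  exact mul_mem (u : v.toValuationSubring).2 (pow_mem (π : v.toValuationSubring).2 _)

theorem ord_algebraMap (c : K) : v.ord (algebraMap K F c) = 0 := by
  have h1 := ord_nonneg_of_mem v (v.algebraMap_mem' c)
  have h2 := ord_nonneg_of_mem v (v.algebraMap_mem' c⁻¹)
  rw [map_inv₀, v.ord_inv] at h2
  omega

theorem ord_pow (f : F) (n : ℕ) : v.ord (f ^ n) = n * v.ord f := by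
  rw [← zpow_natCast, v.ord_zpow]

/-- a function congruent to a nonzero constant is a unit. -/
theorem ord_eq_zero_of_sub_pos {f : F} {c : K} (hc : c ≠ 0)
    (h : 0 < v.ord (f - algebraMap K F c)) : v.ord f = 0 := by
  have hne : f - algebraMap K F c ≠ 0 := by
    intro h0
    rw [h0, v.ord_zero] at h
    exact lt_irrefl _ h
  have hc' : algebraMap K F c ≠ 0 := by
    simpa using hc
  have h1 : v.ord (algebraMap K F c) < v.ord (f - algebraMap K F c) := by
    rw [ord_algebraMap v c]; exact h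
  have h2 := ord_add_eq_of_lt v hc' hne h1
  rw [add_sub_cancel, ord_algebraMap v c] at h2
  exact h2


theorem ord_pos_iff_val_lt_one {f : F} (hf : f ≠ 0) : 0 < v.ord f ↔ v.adicValuation f < 1 := by
  have h := ord_lt_ord_iff v (one_ne_zero (α := F)) hf
  rw [v.ord_one, map_one] at h
  exact h

theorem val_lt_one_of_ord_pos {f : F} (h : 0 < v.ord f) : v.adicValuation f < 1 := by
  have hf : f ≠ 0 := by
    rintro rfl
    rw [v.ord_zero] at h
    exact lt_irrefl _ h
  exact (ord_pos_iff_val_lt_one v hf).mp h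

theorem val_le_one_of_ord_nonneg {f : F} (h : 0 ≤ v.ord f) : v.adicValuation f ≤ 1 :=
  val_le_one_of_mem v (mem_of_ord_nonneg v h)

theorem val_mul_lt_one {f g : F} (hf : v.adicValuation f < 1) (hg : v.adicValuation g ≤ 1) :
    v.adicValuation (f * g) < 1 := by
  rw [map_mul]
  exact mul_lt_one_of_lt_of_le hf hg

end Ord

/-! ### `Finsupp.mapDomain` at one point -/

section MapDomain

variable {α β : Type*} (r : α → β)

theorem mapDomain_nonneg_at (D : α →₀ ℤ) (Q : β) (h : ∀ P, r P = Q → 0 ≤ D P) :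
    0 ≤ Finsupp.mapDomain r D Q := by
  classical
  rw [Finsupp.mapDomain, Finsupp.sum_apply, Finsupp.sum]
  refine Finset.sum_nonneg fun P _ => ?_
  rw [Finsupp.single_apply]
  split_ifs with hP
  · exact h P hP
  · exact le_rfl

theorem mapDomain_pos_at (D : α →₀ ℤ) (Q : β) (h : ∀ P, r P = Q → 0 ≤ D P) (z : α)
    (hz : r z = Q) (hzp : 0 < D z) : 0 < Finsupp.mapDomain r D Q := by
  classical
  rw [Finsupp.mapDomain, Finsupp.sum_apply, Finsupp.sum]
  refine Finset.sum_pos' (fun P _ => ?_) ⟨z, ?_, ?_⟩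
  · rw [Finsupp.single_apply]
    split_ifs with hP
    · exact h P hP
    · exact le_rfl
  · rw [Finsupp.mem_support_iff]
    exact hzp.ne'
  · rw [Finsupp.single_apply, if_pos hz]
    exact hzp

theorem mapDomain_eq_zero_at (D : α →₀ ℤ) (Q : β) (h : ∀ P, r P = Q → D P = 0) :
    Finsupp.mapDomain r D Q = 0 := by
  classical
  rw [Finsupp.mapDomain, Finsupp.sum_apply, Finsupp.sum]
  refine Finset.sum_eq_zero fun P _ => ?_
  rw [Finsupp.single_apply]
  split_ifs with hP
  · exact h P hP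
  · rfl

end MapDomain

/-! ### Degrees -/

section Degree

variable {K k : Type*} [Field K] [Field k] {F Fb : Type*} [Field F] [Field Fb] [Algebra K F]
  [Algebra k Fb]

theorem degree_mapDomain (r : Place K F → Place k Fb) (hdeg : ∀ P, (r P).deg = P.deg)
    (D : Divisor K F) : Divisor.degree (Finsupp.mapDomain r D) = Divisor.degree D := by
  induction D using Finsupp.induction with
  | zero => simp
  | single_add P n D _ _ ih =>
    rw [Finsupp.mapDomain_add, map_add, map_add, ih, Finsupp.mapDomain_single,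
      Divisor.degree_single, Divisor.degree_single, hdeg]

theorem eq_zero_of_nonneg_of_degree_eq_zero (E : Divisor k Fb)
    (hpos : ∀ Q : Place k Fb, 0 < Q.deg) (hE : ∀ Q, 0 ≤ E Q) (hdeg : Divisor.degree E = 0) :
    E = 0 := by
  by_contra hne
  obtain ⟨Q₀, hQ₀⟩ := Finsupp.support_nonempty_iff.mpr hne
  have hd : Divisor.degree E = ∑ Q ∈ E.support, E Q * (Q.deg : ℤ) := by
    conv_lhs => rw [← Finsupp.sum_single E]
    rw [Finsupp.sum, map_sum]
    exact Finset.sum_congr rfl fun Q _ => Divisor.degree_single Q (E Q)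
  have hlt : 0 < Divisor.degree E := by
    rw [hd]
    refine Finset.sum_pos' (fun Q _ => mul_nonneg (hE Q) (Int.natCast_nonneg _)) ⟨Q₀, hQ₀, ?_⟩
    exact mul_pos (lt_of_le_of_ne (hE Q₀) (Ne.symm (Finsupp.mem_support_iff.mp hQ₀)))
      (by exact_mod_cast hpos Q₀)
  omega

end Degree

/-! ### The two cusps at the lower level -/

section Cusp

variable {K F : Type*} [Field K] [Field F] [Algebra K F]

/-- The two cusps `P∞`, `P0` of `F` (think `F = F_p`) and the orders of `J`, `J_p` there. -/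
structure CuspData (p : ℕ) (J Jp : F) (Pinf P0 : Place K F) : Prop where
  two_le : 2 ≤ p
  poleJ : ∀ P : Place K F, P.ord J < 0 → P = Pinf ∨ P = P0
  poleJp : ∀ P : Place K F, P.ord Jp < 0 → P = Pinf ∨ P = P0
  infJ : Pinf.ord J = -1
  infJp : Pinf.ord Jp = -(p : ℤ)
  zeroJ : P0.ord J = -(p : ℤ)
  zeroJp : P0.ord Jp = -1
  infU : -(p : ℤ) < Pinf.ord (Jp - J ^ p)

namespace CuspData

variable {p : ℕ} {J Jp : F} {Pinf P0 : Place K F}

theorem J_ne_zero (h : CuspData p J Jp Pinf P0) : J ≠ 0 := by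
  rintro rfl
  have := h.infJ
  rw [Place.ord_zero] at this
  omega

theorem Jp_ne_zero (h : CuspData p J Jp Pinf P0) : Jp ≠ 0 := by
  rintro rfl
  have := h.zeroJp
  rw [Place.ord_zero] at this
  omega

theorem inf_ne_zero (h : CuspData p J Jp Pinf P0) : Pinf ≠ P0 := by
  rintro rfl
  have h1 := h.infJ
  have h2 := h.zeroJ
  have h3 := h.two_le
  omega

theorem ord_nonneg_J (h : CuspData p J Jp Pinf P0) {P : Place K F} (h1 : P ≠ Pinf)
    (h2 : P ≠ P0) : 0 ≤ P.ord J := by
  by_contra hlt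
  rcases h.poleJ P (not_le.mp hlt) with rfl | rfl
  · exact h1 rfl
  · exact h2 rfl

theorem ord_nonneg_Jp (h : CuspData p J Jp Pinf P0) {P : Place K F} (h1 : P ≠ Pinf)
    (h2 : P ≠ P0) : 0 ≤ P.ord Jp := by
  by_contra hlt
  rcases h.poleJp P (not_le.mp hlt) with rfl | rfl
  · exact h1 rfl
  · exact h2 rfl

theorem sq_gt (h : CuspData p J Jp Pinf P0) : (1 : ℤ) < (p : ℤ) ^ 2 := by
  have h3 : (2 : ℤ) ≤ (p : ℤ) := by exact_mod_cast h.two_le
  nlinarith

/-- `ord_{P0}(J_p − c J^p) = −p²` for `c ≠ 0`. -/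
theorem ord_zero_y (h : CuspData p J Jp Pinf P0) {c : K} (hc : c ≠ 0) :
    P0.ord (Jp - algebraMap K F c * J ^ p) = -((p : ℤ) ^ 2) := by
  have hc' : algebraMap K F c ≠ 0 := by simpa using hc
  have hJp : J ^ p ≠ 0 := pow_ne_zero _ h.J_ne_zero
  have h1 : P0.ord (-(algebraMap K F c * J ^ p)) = -((p : ℤ) ^ 2) := by
    rw [ord_neg, P0.ord_mul hc' hJp, ord_algebraMap, ord_pow, h.zeroJ]
    ring
  have h2 : Jp - algebraMap K F c * J ^ p = -(algebraMap K F c * J ^ p) + Jp := by ring
  rw [h2, ord_add_eq_of_lt P0 (neg_ne_zero.mpr (mul_ne_zero hc' hJp)) h.Jp_ne_zero, h1]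
  rw [h1, h.zeroJp]
  have := h.sq_gt
  omega

theorem y_ne_zero (h : CuspData p J Jp Pinf P0) {c : K} (hc : c ≠ 0) :
    Jp - algebraMap K F c * J ^ p ≠ 0 := by
  intro h0
  have h1 := h.ord_zero_y hc
  rw [h0, Place.ord_zero] at h1
  have := h.sq_gt
  omega

/-- `ord_{P∞}(J_p − c J^p) ≥ −p`. -/
theorem ord_inf_y_ge (h : CuspData p J Jp Pinf P0) (c : K) :
    -(p : ℤ) ≤ Pinf.ord (Jp - algebraMap K F c * J ^ p) := by
  rcases eq_or_ne c 0 with rfl | hc
  · rw [map_zero, zero_mul, sub_zero, h.infJp]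
  have hc' : algebraMap K F c ≠ 0 := by simpa using hc
  have hJp : J ^ p ≠ 0 := pow_ne_zero _ h.J_ne_zero
  have h1 : Pinf.ord (-(algebraMap K F c * J ^ p)) = -(p : ℤ) := by
    rw [ord_neg, Pinf.ord_mul hc' hJp, ord_algebraMap, ord_pow, h.infJ]
    ring
  have h2 : Jp - algebraMap K F c * J ^ p = Jp + -(algebraMap K F c * J ^ p) := by ring
  have h3 := min_le_ord_add Pinf h.Jp_ne_zero (neg_ne_zero.mpr (mul_ne_zero hc' hJp))
    (by rw [← h2]; exact h.y_ne_zero hc)
  rw [← h2, h1, h.infJp, min_self] at h3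
  exact h3

/-- `J_p − c J^p` is regular away from the cusps. -/
theorem ord_nonneg_y (h : CuspData p J Jp Pinf P0) (c : K) {P : Place K F} (h1 : P ≠ Pinf)
    (h2 : P ≠ P0) : 0 ≤ P.ord (Jp - algebraMap K F c * J ^ p) :=
  ord_nonneg_of_mem P (sub_mem (mem_of_ord_nonneg P (h.ord_nonneg_Jp h1 h2))
    (mul_mem (P.algebraMap_mem' c) (pow_mem (mem_of_ord_nonneg P (h.ord_nonneg_J h1 h2)) p)))

/-- a place where `J_p` takes a nonzero value is not a cusp. -/
theorem ne_of_value (h : CuspData p J Jp Pinf P0) {x : Place K F} {a : K} (ha : a ≠ 0)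
    (hxJp : 0 < x.ord (Jp - algebraMap K F a)) : x ≠ Pinf ∧ x ≠ P0 := by
  have h0 := ord_eq_zero_of_sub_pos x ha hxJp
  have h3 := h.two_le
  constructor
  · rintro rfl
    have := h.infJp
    omega
  · rintro rfl
    have := h.zeroJp
    omega

/-- `J_p − c J^p` vanishes at a place with values `(b, a)`, `a = c b^p`. -/
theorem ord_pos_y_of_values (h : CuspData p J Jp Pinf P0) {x : Place K F} {a b c : K}
    (hc : c ≠ 0) (hac : a = c * b ^ p)
    (hxJ : 0 < x.ord (J - algebraMap K F b)) (hxJp : 0 < x.ord (Jp - algebraMap K F a)) :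
    0 < x.ord (Jp - algebraMap K F c * J ^ p) := by
  rw [ord_pos_iff_val_lt_one x (h.y_ne_zero hc)]
  have hJb := val_lt_one_of_ord_pos x hxJ
  have hJpa := val_lt_one_of_ord_pos x hxJp
  have hbmem : algebraMap K F b ∈ x.toValuationSubring := x.algebraMap_mem' b
  have hJmem : J ∈ x.toValuationSubring := by
    have h1 : J = (J - algebraMap K F b) + algebraMap K F b := by ring
    rw [h1]
    exact add_mem (mem_of_ord_nonneg x hxJ.le) hbmem
  have hg : (∑ i ∈ Finset.range p, J ^ i * algebraMap K F b ^ (p - 1 - i)) ∈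
      x.toValuationSubring :=
    sum_mem fun i _ => mul_mem (pow_mem hJmem i) (pow_mem hbmem _)
  have hgeo := geom_sum₂_mul J (algebraMap K F b) p
  have h2 : Jp - algebraMap K F c * J ^ p = (Jp - algebraMap K F a) +
      -((J - algebraMap K F b) * (algebraMap K F c *
        ∑ i ∈ Finset.range p, J ^ i * algebraMap K F b ^ (p - 1 - i))) := by
    rw [hac, map_mul, map_pow]
    linear_combination (algebraMap K F c) * hgeo
  rw [h2]
  refine Valuation.map_add_lt _ hJpa ?_
  rw [Valuation.map_neg]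
  exact val_mul_lt_one x hJb (val_le_one_of_mem x (mul_mem (x.algebraMap_mem' c) hg))

end CuspData

/-- `ord_P(1 − c G) = ord_P(G)` at a pole of `G` (`c ≠ 0`). -/
theorem ord_one_sub_mul_of_neg (P : Place K F) {G : F} {c : K} (hc : c ≠ 0)
    (hG : P.ord G < 0) : P.ord (1 - algebraMap K F c * G) = P.ord G := by
  have hc' : algebraMap K F c ≠ 0 := by simpa using hc
  have hG0 : G ≠ 0 := by
    rintro rfl
    rw [Place.ord_zero] at hG
    exact lt_irrefl _ hG
  have h1 : P.ord (-(algebraMap K F c * G)) = P.ord G := by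
    rw [ord_neg, P.ord_mul hc' hG0, ord_algebraMap, zero_add]
  have h2 : 1 - algebraMap K F c * G = -(algebraMap K F c * G) + 1 := by ring
  rw [h2, ord_add_eq_of_lt P (neg_ne_zero.mpr (mul_ne_zero hc' hG0)) one_ne_zero, h1]
  rw [h1, P.ord_one]
  exact hG

theorem ord_one_sub_mul_nonneg (P : Place K F) {G : F} (c : K) (hG : 0 ≤ P.ord G) :
    0 ≤ P.ord (1 - algebraMap K F c * G) :=
  ord_nonneg_of_mem P (sub_mem (one_mem _) (mul_mem (P.algebraMap_mem' c) (mem_of_ord_nonneg P hG)))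

/-- `1 − G/a` vanishes where `G` takes the value `a`. -/
theorem ord_one_sub_pos (x : Place K F) {G : F} {a : K} (ha : a ≠ 0)
    (hx : 0 < x.ord (G - algebraMap K F a)) : 0 < x.ord (1 - algebraMap K F a⁻¹ * G) := by
  have hne : G - algebraMap K F a ≠ 0 := by
    intro h0
    rw [h0, Place.ord_zero] at hx
    exact lt_irrefl _ hx
  have ha' : algebraMap K F a ≠ 0 := by simpa using ha
  have hc' : algebraMap K F (-a⁻¹) ≠ 0 := by simpa using ha
  have h2 : 1 - algebraMap K F a⁻¹ * G = algebraMap K F (-a⁻¹) * (G - algebraMap K F a) := by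
    rw [map_neg, map_inv₀]
    field_simp
    ring
  rw [h2, x.ord_mul hc' hne, ord_algebraMap, zero_add]
  exact hx

end Cusp

/-! ### The upper level: fibres of `r` -/

section Up

variable {K F F' : Type*} [Field K] [Field F] [Field F']
  [Algebra K F] [Algebra K F'] [Algebra F F'] [IsScalarTower K F F']
  [Algebra.IsIntegral F F'] [HasPrincipalDivisors K F']
  {k Fb : Type*} [Field k] [Field Fb] [Algebra k Fb]

/-- `r_* div(f) = div(g)`. -/
def RedDiv (r : Place K F' → Place k Fb) (f : F') (g : Fb) : Prop :=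
  ∀ D : Divisor K F', (∀ P, D P = P.ord f) → ∀ Q, Finsupp.mapDomain r D Q = Q.ord g

/-- The multiplicity of `r_* π^*(v)` at `Q`. -/
def mult (r : Place K F' → Place k Fb) (v : Place K F) (Q : Place k Fb) : ℤ :=
  Finsupp.mapDomain r (Divisor.pullback F' (Finsupp.single v (1 : ℤ))) Q

open Classical in
/-- Weights at three marked places. -/
def wt (x Pinf P0 : Place K F) (l m n : ℤ) (v : Place K F) : ℤ :=
  (if v = x then l else 0) + (if v = Pinf then m else 0) + (if v = P0 then n else 0)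

theorem wt_x {x Pinf P0 : Place K F} (l m n : ℤ) (h1 : x ≠ Pinf) (h2 : x ≠ P0) :
    wt x Pinf P0 l m n x = l := by
  simp [wt, h1, h2]

theorem wt_inf {x Pinf P0 : Place K F} (l m n : ℤ) (h1 : x ≠ Pinf) (h3 : Pinf ≠ P0) :
    wt x Pinf P0 l m n Pinf = m := by
  simp [wt, Ne.symm h1, h3]

theorem wt_zero {x Pinf P0 : Place K F} (l m n : ℤ) (h2 : x ≠ P0) (h3 : Pinf ≠ P0) :
    wt x Pinf P0 l m n P0 = n := by
  simp [wt, Ne.symm h2, Ne.symm h3]

theorem wt_other {x Pinf P0 : Place K F} (l m n : ℤ) {v : Place K F} (h1 : v ≠ x)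
    (h2 : v ≠ Pinf) (h3 : v ≠ P0) : wt x Pinf P0 l m n v = 0 := by
  simp [wt, h1, h2, h3]

open Classical in
theorem pullback_single_one_apply (v : Place K F) (P : Place K F') :
    Divisor.pullback F' (Finsupp.single v (1 : ℤ)) P
      = if P.restrict F = v then (P.ramificationIndex F : ℤ) else 0 := by
  split_ifs with h
  · rw [Divisor.pullback_single_apply_of_restrict_eq h, one_mul]
  · rw [Divisor.pullback_single_apply_of_restrict_ne h]

theorem mult_nonneg (r : Place K F' → Place k Fb) (v : Place K F) (Q : Place k Fb) :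
    0 ≤ mult r v Q := by
  classical
  refine mapDomain_nonneg_at r _ Q fun P _ => ?_
  rw [pullback_single_one_apply]
  split_ifs
  · exact Int.natCast_nonneg _
  · exact le_rfl

theorem mult_pos_of (r : Place K F' → Place k Fb) {v : Place K F} {Q : Place k Fb}
    (z : Place K F') (hz : z.restrict F = v) (hQ : r z = Q) : 0 < mult r v Q := by
  classical
  refine mapDomain_pos_at r _ Q (fun P _ => ?_) z hQ ?_
  · rw [pullback_single_one_apply]
    split_ifs
    · exact Int.natCast_nonneg _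
    · exact le_rfl
  · rw [pullback_single_one_apply, if_pos hz]
    exact_mod_cast z.ramificationIndex_pos (F := F)

theorem exists_of_mult_ne_zero (r : Place K F' → Place k Fb) {v : Place K F}
    {Q : Place k Fb} (h : mult r v Q ≠ 0) : ∃ z : Place K F', z.restrict F = v ∧ r z = Q := by
  classical
  by_contra hne
  apply h
  refine mapDomain_eq_zero_at r _ Q fun P hP => ?_
  rw [pullback_single_one_apply, if_neg]
  exact fun h' => hne ⟨P, h', hP⟩

/-- The master identity: `Σ_{P ↦ Q} e_P (ord_{P|F} f + wt(P|F)) = ord_Q g + l·m_x + m·m_∞ + n·m_0`. -/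
theorem fibre_sum (r : Place K F' → Place k Fb) (x Pinf P0 : Place K F) {f : F} (hf : f ≠ 0)
    {g : Fb} (hr : RedDiv r (algebraMap F F' f) g) (l m n : ℤ) (Q : Place k Fb) :
    ∃ D : Divisor K F',
      (∀ P : Place K F', D P = (P.ramificationIndex F : ℤ) *
        ((P.restrict F).ord f + wt x Pinf P0 l m n (P.restrict F))) ∧
      Finsupp.mapDomain r D Q
        = Q.ord g + l * mult r x Q + m * mult r Pinf Q + n * mult r P0 Q := by
  classical
  have hf' : algebraMap F F' f ≠ 0 := by simpa using hf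
  obtain ⟨D₀, hD₀, -⟩ := HasPrincipalDivisors.exists_divisor (K := K) (algebraMap F F' f) hf'
  refine ⟨D₀ + l • Divisor.pullback F' (Finsupp.single x (1 : ℤ))
      + m • Divisor.pullback F' (Finsupp.single Pinf (1 : ℤ))
      + n • Divisor.pullback F' (Finsupp.single P0 (1 : ℤ)), fun P => ?_, ?_⟩
  · rw [Finsupp.add_apply, Finsupp.add_apply, Finsupp.add_apply, Finsupp.smul_apply,
      Finsupp.smul_apply, Finsupp.smul_apply, hD₀ P, P.ord_restrict,
      pullback_single_one_apply, pullback_single_one_apply, pullback_single_one_apply, wt]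
    simp only [smul_eq_mul]
    split_ifs <;> ring
  · rw [Finsupp.mapDomain_add, Finsupp.mapDomain_add, Finsupp.mapDomain_add,
      Finsupp.mapDomain_smul, Finsupp.mapDomain_smul, Finsupp.mapDomain_smul,
      Finsupp.add_apply, Finsupp.add_apply, Finsupp.add_apply, Finsupp.smul_apply,
      Finsupp.smul_apply, Finsupp.smul_apply, hr D₀ hD₀ Q]
    rfl

theorem fibre_nonneg (r : Place K F' → Place k Fb) (x Pinf P0 : Place K F) {f : F} (hf : f ≠ 0)
    {g : Fb} (hr : RedDiv r (algebraMap F F' f) g) (l m n : ℤ) (Q : Place k Fb)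
    (hpt : ∀ P : Place K F', r P = Q →
      0 ≤ (P.restrict F).ord f + wt x Pinf P0 l m n (P.restrict F)) :
    0 ≤ Q.ord g + l * mult r x Q + m * mult r Pinf Q + n * mult r P0 Q := by
  obtain ⟨D, hD, hsum⟩ := fibre_sum r x Pinf P0 hf hr l m n Q
  rw [← hsum]
  refine mapDomain_nonneg_at r D Q fun P hP => ?_
  rw [hD P]
  exact mul_nonneg (Int.natCast_nonneg _) (hpt P hP)

theorem fibre_pos (r : Place K F' → Place k Fb) (x Pinf P0 : Place K F) {f : F} (hf : f ≠ 0)
    {g : Fb} (hr : RedDiv r (algebraMap F F' f) g) (l m n : ℤ) (Q : Place k Fb)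
    (hpt : ∀ P : Place K F', r P = Q →
      0 ≤ (P.restrict F).ord f + wt x Pinf P0 l m n (P.restrict F))
    (z : Place K F') (hz : r z = Q)
    (hzs : 0 < (z.restrict F).ord f + wt x Pinf P0 l m n (z.restrict F)) :
    0 < Q.ord g + l * mult r x Q + m * mult r Pinf Q + n * mult r P0 Q := by
  obtain ⟨D, hD, hsum⟩ := fibre_sum r x Pinf P0 hf hr l m n Q
  rw [← hsum]
  refine mapDomain_pos_at r D Q (fun P hP => ?_) z hz ?_
  · rw [hD P]
    exact mul_nonneg (Int.natCast_nonneg _) (hpt P hP)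
  · rw [hD z]
    exact mul_pos (by exact_mod_cast z.ramificationIndex_pos (F := F)) hzs

theorem fibre_zero (r : Place K F' → Place k Fb) (x Pinf P0 : Place K F) {f : F} (hf : f ≠ 0)
    {g : Fb} (hr : RedDiv r (algebraMap F F' f) g) (l m n : ℤ) (Q : Place k Fb)
    (hpt : ∀ P : Place K F', r P = Q →
      (P.restrict F).ord f + wt x Pinf P0 l m n (P.restrict F) = 0) :
    Q.ord g + l * mult r x Q + m * mult r Pinf Q + n * mult r P0 Q = 0 := by
  obtain ⟨D, hD, hsum⟩ := fibre_sum r x Pinf P0 hf hr l m n Q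
  rw [← hsum]
  refine mapDomain_eq_zero_at r D Q fun P hP => ?_
  rw [hD P, hpt P hP, mul_zero]

/-- The reduction data at the upper level for the pair `(J, J_p)`: the clause for `J`, `J_p`,
and (COLL): a zero of `J` or of `J_p` never has the same image as a pole of `J`. -/
structure RedData (r : Place K F' → Place k Fb) (J Jp : F) (gJ gJp : Fb) : Prop where
  redJ : RedDiv r (algebraMap F F' J) gJ
  redJp : RedDiv r (algebraMap F F' Jp) gJp
  coll : ∀ P c : Place K F',
    (0 < (P.restrict F).ord J ∨ 0 < (P.restrict F).ord Jp) → (c.restrict F).ord J < 0 →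
      r P ≠ r c

section Sep

variable {r : Place K F' → Place k Fb} {p : ℕ} {J Jp : F} {Pinf P0 : Place K F} {gJ gJp : Fb}

/-- On the `r`-fibre of the image of a cusp: `ord_Q ḡ_p = −p·m_∞ − m_0` and
`ord_Q ḡ = −m_∞ − p·m_0`. -/
theorem ord_at_cusp_image (hC : CuspData p J Jp Pinf P0) (hR : RedData r J Jp gJ gJp)
    (c : Place K F') (hc : (c.restrict F).ord J < 0) :
    (r c).ord gJp + p * mult r Pinf (r c) + mult r P0 (r c) = 0 ∧
    (r c).ord gJ + mult r Pinf (r c) + p * mult r P0 (r c) = 0 := by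
  have hinf0 := hC.inf_ne_zero
  constructor
  · have h := fibre_zero r Pinf Pinf P0 hC.Jp_ne_zero hR.redJp 0 p 1 (r c) (fun P hP => ?_)
    · linarith
    · by_cases h1 : P.restrict F = Pinf
      · rw [h1, hC.infJp, wt]
        simp [hinf0]
      · by_cases h2 : P.restrict F = P0
        · rw [h2, hC.zeroJp, wt]
          simp [Ne.symm hinf0]
        · rw [wt_other 0 p 1 h1 h1 h2, add_zero]
          have h3 := hC.ord_nonneg_Jp h1 h2
          by_contra h4
          exact hR.coll P c (Or.inr (lt_of_le_of_ne h3 (Ne.symm h4))) hc hP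
  · have h := fibre_zero r Pinf Pinf P0 hC.J_ne_zero hR.redJ 0 1 p (r c) (fun P hP => ?_)
    · linarith
    · by_cases h1 : P.restrict F = Pinf
      · rw [h1, hC.infJ, wt]
        simp [hinf0]
      · by_cases h2 : P.restrict F = P0
        · rw [h2, hC.zeroJ, wt]
          simp [Ne.symm hinf0]
        · rw [wt_other 0 1 p h1 h1 h2, add_zero]
          have h3 := hC.ord_nonneg_J h1 h2
          by_contra h4
          exact hR.coll P c (Or.inl (lt_of_le_of_ne h3 (Ne.symm h4))) hc hP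

/-- The pointwise nonnegativity of `J_p − c J^p` with weights `(p, p²)` at the cusps. -/
theorem y_weight_nonneg (hC : CuspData p J Jp Pinf P0) {c₀ : K} (hc₀ : c₀ ≠ 0) (v : Place K F) :
    0 ≤ v.ord (Jp - algebraMap K F c₀ * J ^ p) + wt Pinf Pinf P0 0 p ((p : ℤ) ^ 2) v := by
  have hinf0 := hC.inf_ne_zero
  by_cases h1 : v = Pinf
  · rw [h1, wt]
    simp only [if_true, if_neg hinf0]
    have := hC.ord_inf_y_ge c₀
    linarith
  · by_cases h2 : v = P0
    · rw [h2, hC.ord_zero_y hc₀, wt]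
      simp [Ne.symm hinf0]
    · rw [wt_other 0 p _ h1 h1 h2, add_zero]
      exact hC.ord_nonneg_y c₀ h1 h2

/-- **(SEP), type `0`.**  A place over `x` (values `(b, a)`, reduction of `J_p − (a/b^p) J^p`
equal to `ḡ_p`) and a cusp over `P∞` have different images. -/
theorem sep_zero (hC : CuspData p J Jp Pinf P0) (hR : RedData r J Jp gJ gJp)
    {x : Place K F} {a b : K} (ha : a ≠ 0) (hb : b ≠ 0)
    (hxJ : 0 < x.ord (J - algebraMap K F b)) (hxJp : 0 < x.ord (Jp - algebraMap K F a))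
    (h2 : RedDiv r (algebraMap F F' (Jp - algebraMap K F (a / b ^ p) * J ^ p)) gJp)
    (h5 : gJp - gJ ^ p ≠ 0 → RedDiv r (algebraMap F F' (Jp - J ^ p)) (gJp - gJ ^ p))
    (z c : Place K F') (hz : z.restrict F = x) (hc : c.restrict F = Pinf) : r z ≠ r c := by
  intro heq
  have hinf0 := hC.inf_ne_zero
  obtain ⟨hxinf, hx0⟩ := hC.ne_of_value ha hxJp
  have hc₀ : a / b ^ p ≠ 0 := div_ne_zero ha (pow_ne_zero _ hb)
  have hcpole : (c.restrict F).ord J < 0 := by rw [hc, hC.infJ]; norm_num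
  obtain ⟨hA, hB⟩ := ord_at_cusp_image hC hR c hcpole
  have hEinf : 0 < mult r Pinf (r c) := mult_pos_of r c hc rfl
  have hp2 : (2 : ℤ) ≤ (p : ℤ) := by exact_mod_cast hC.two_le
  -- the clause for `y₁ = J_p − c₀ J^p`
  have hC1 := fibre_pos r Pinf Pinf P0 (hC.y_ne_zero hc₀) h2 0 p ((p : ℤ) ^ 2) (r c)
    (fun P _ => y_weight_nonneg hC hc₀ _) z heq (by
      rw [hz, wt_other 0 p _ hxinf hxinf hx0, add_zero]
      exact hC.ord_pos_y_of_values hc₀ (by field_simp) hxJ hxJp)
  have hE0 : 0 < ((p : ℤ) ^ 2 - 1) * mult r P0 (r c) := by linarith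
  -- orders of the reductions at `Q = r c`
  have hgJp : (r c).ord gJp = -(p * mult r Pinf (r c)) - mult r P0 (r c) := by linarith
  have hgJpow : (r c).ord (gJ ^ p) = -(p * mult r Pinf (r c)) - (p : ℤ) ^ 2 * mult r P0 (r c) := by
    rw [ord_pow]
    have : (r c).ord gJ = -(mult r Pinf (r c)) - p * mult r P0 (r c) := by linarith
    rw [this]
    ring
  have hlt : (r c).ord (gJ ^ p) < (r c).ord gJp := by
    rw [hgJp, hgJpow]
    linarith
  have hE0' : 0 < mult r P0 (r c) := by
    have h1 : (0 : ℤ) < (p : ℤ) ^ 2 - 1 := by nlinarith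
    by_contra hn
    have h3 := mul_nonpos_of_nonneg_of_nonpos h1.le (not_lt.mp hn)
    linarith
  have hgJpow_neg : (r c).ord (gJ ^ p) < 0 := by
    rw [hgJpow]
    have h1 : (0 : ℤ) < (p : ℤ) ^ 2 * mult r P0 (r c) := by positivity
    have h2 : (0 : ℤ) < p * mult r Pinf (r c) := by positivity
    linarith
  have hgJp_neg : (r c).ord gJp < 0 := by
    rw [hgJp]
    have h2 : (0 : ℤ) < p * mult r Pinf (r c) := by positivity
    linarith
  have hgJpow0 : gJ ^ p ≠ 0 := by
    intro h0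
    rw [h0, Place.ord_zero] at hgJpow_neg
    exact lt_irrefl _ hgJpow_neg
  have hgJp0 : gJp ≠ 0 := by
    intro h0
    rw [h0, Place.ord_zero] at hgJp_neg
    exact lt_irrefl _ hgJp_neg
  have hdiff : gJp - gJ ^ p = -(gJ ^ p) + gJp := by ring
  have hlt' : (r c).ord (-(gJ ^ p)) < (r c).ord gJp := by rw [ord_neg]; exact hlt
  have hne : gJp - gJ ^ p ≠ 0 := by
    rw [hdiff]
    exact add_ne_zero_of_ord_lt (r c) hlt'
  have hord : (r c).ord (gJp - gJ ^ p)
      = -(p * mult r Pinf (r c)) - (p : ℤ) ^ 2 * mult r P0 (r c) := by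
    rw [hdiff, ord_add_eq_of_lt (r c) (neg_ne_zero.mpr hgJpow0) hgJp0 hlt', ord_neg, hgJpow]
  -- the clause for `y₂ = J_p − J^p`
  have hy2 : Jp - J ^ p = Jp - algebraMap K F 1 * J ^ p := by rw [map_one, one_mul]
  have hy2ne : Jp - J ^ p ≠ 0 := by rw [hy2]; exact hC.y_ne_zero one_ne_zero
  have hC2 := fibre_pos r Pinf Pinf P0 hy2ne (h5 hne) 0 p ((p : ℤ) ^ 2) (r c)
    (fun P _ => by rw [hy2]; exact y_weight_nonneg hC one_ne_zero _) c rfl (by
      rw [hc, wt]
      simp only [if_true, if_neg hinf0]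
      have := hC.infU
      linarith)
  rw [hord] at hC2
  linarith

/-- **(SEP), type `∞`.**  A place over `x` (values `(b, a)`, reduction of `J_p − (a/b^p) J^p`
equal to `ḡ_p − γ ḡ^p`, `γ ≠ 0`) and a cusp over `P0` have different images. -/
theorem sep_inf (hC : CuspData p J Jp Pinf P0) (hR : RedData r J Jp gJ gJp)
    {x : Place K F} {a b : K} (ha : a ≠ 0) (hb : b ≠ 0)
    (hxJ : 0 < x.ord (J - algebraMap K F b)) (hxJp : 0 < x.ord (Jp - algebraMap K F a))
    {γ : k} (hγ : γ ≠ 0)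
    (h2 : gJp - algebraMap k Fb γ * gJ ^ p ≠ 0 →
      RedDiv r (algebraMap F F' (Jp - algebraMap K F (a / b ^ p) * J ^ p))
        (gJp - algebraMap k Fb γ * gJ ^ p))
    (z c : Place K F') (hz : z.restrict F = x) (hc : c.restrict F = P0) : r z ≠ r c := by
  intro heq
  obtain ⟨hxinf, hx0⟩ := hC.ne_of_value ha hxJp
  have hc₀ : a / b ^ p ≠ 0 := div_ne_zero ha (pow_ne_zero _ hb)
  have hp2 : (2 : ℤ) ≤ (p : ℤ) := by exact_mod_cast hC.two_le
  have hcpole : (c.restrict F).ord J < 0 := by rw [hc, hC.zeroJ]; linarith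
  obtain ⟨hA, hB⟩ := ord_at_cusp_image hC hR c hcpole
  have hE0 : 0 < mult r P0 (r c) := mult_pos_of r c hc rfl
  have hEinf : 0 ≤ mult r Pinf (r c) := mult_nonneg r Pinf (r c)
  have hgJp : (r c).ord gJp = -(p * mult r Pinf (r c)) - mult r P0 (r c) := by linarith
  have hgJpow : (r c).ord (gJ ^ p) = -(p * mult r Pinf (r c)) - (p : ℤ) ^ 2 * mult r P0 (r c) := by
    rw [ord_pow]
    have : (r c).ord gJ = -(mult r Pinf (r c)) - p * mult r P0 (r c) := by linarith
    rw [this]
    ring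
  have hpE : (0 : ℤ) ≤ p * mult r Pinf (r c) := by positivity
  have hp4 : (4 : ℤ) ≤ (p : ℤ) ^ 2 := by nlinarith
  have h4E := mul_le_mul_of_nonneg_right hp4 hE0.le
  have hlt : (r c).ord (gJ ^ p) < (r c).ord gJp := by
    rw [hgJp, hgJpow]
    linarith
  have hgJpow_neg : (r c).ord (gJ ^ p) < 0 := by
    rw [hgJpow]
    have h1 : (0 : ℤ) < (p : ℤ) ^ 2 * mult r P0 (r c) := by positivity
    linarith
  have hgJp_neg : (r c).ord gJp < 0 := by
    rw [hgJp]
    linarith
  have hgJpow0 : gJ ^ p ≠ 0 := by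
    intro h0
    rw [h0, Place.ord_zero] at hgJpow_neg
    exact lt_irrefl _ hgJpow_neg
  have hgJp0 : gJp ≠ 0 := by
    intro h0
    rw [h0, Place.ord_zero] at hgJp_neg
    exact lt_irrefl _ hgJp_neg
  have hγ' : algebraMap k Fb γ ≠ 0 := by simpa using hγ
  have hmul : (r c).ord (-(algebraMap k Fb γ * gJ ^ p)) = (r c).ord (gJ ^ p) := by
    rw [ord_neg, (r c).ord_mul hγ' hgJpow0, ord_algebraMap, zero_add]
  have hdiff : gJp - algebraMap k Fb γ * gJ ^ p = -(algebraMap k Fb γ * gJ ^ p) + gJp := by ring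
  have hlt' : (r c).ord (-(algebraMap k Fb γ * gJ ^ p)) < (r c).ord gJp := by rw [hmul]; exact hlt
  have hne : gJp - algebraMap k Fb γ * gJ ^ p ≠ 0 := by
    rw [hdiff]
    exact add_ne_zero_of_ord_lt (r c) hlt'
  have hord : (r c).ord (gJp - algebraMap k Fb γ * gJ ^ p)
      = -(p * mult r Pinf (r c)) - (p : ℤ) ^ 2 * mult r P0 (r c) := by
    rw [hdiff, ord_add_eq_of_lt (r c) (neg_ne_zero.mpr (mul_ne_zero hγ' hgJpow0)) hgJp0 hlt',
      hmul, hgJpow]
  have hC1 := fibre_pos r Pinf Pinf P0 (hC.y_ne_zero hc₀) (h2 hne) 0 p ((p : ℤ) ^ 2) (r c)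
    (fun P _ => y_weight_nonneg hC hc₀ _) z heq (by
      rw [hz, wt_other 0 p _ hxinf hxinf hx0, add_zero]
      exact hC.ord_pos_y_of_values hc₀ (by field_simp) hxJ hxJp)
  rw [hord] at hC1
  linarith

end Sep

section Main

variable {r : Place K F' → Place k Fb} {p : ℕ} {J Jp : F} {Pinf P0 : Place K F} {gJ gJp : Fb}

/-- Two effective divisors `r_* π^*(v)`, `r_* π^*(v')` with `m_v ≤ m_{v'}` pointwise and
`deg v = deg v'` are equal. -/
theorem mapDomain_pullback_eq_of_le [FundamentalIdentity K F F']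
    (hdegb : ∀ Q : Place k Fb, 0 < Q.deg) (hrdeg : ∀ P, (r P).deg = P.deg)
    {v v' : Place K F} (hdeg : v.deg = v'.deg) (hle : ∀ Q, mult r v Q ≤ mult r v' Q) :
    Finsupp.mapDomain r (Divisor.pullback F' (Finsupp.single v (1 : ℤ)))
      = Finsupp.mapDomain r (Divisor.pullback F' (Finsupp.single v' (1 : ℤ))) := by
  have hE := eq_zero_of_nonneg_of_degree_eq_zero
    (Finsupp.mapDomain r (Divisor.pullback F' (Finsupp.single v' (1 : ℤ)))
      - Finsupp.mapDomain r (Divisor.pullback F' (Finsupp.single v (1 : ℤ)))) hdegb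
    (fun Q => by
      rw [Finsupp.sub_apply]
      exact sub_nonneg.mpr (hle Q))
    (by
      rw [map_sub, degree_mapDomain r hrdeg, degree_mapDomain r hrdeg, Divisor.degree_pullback,
        Divisor.degree_pullback, Divisor.degree_single, Divisor.degree_single, hdeg, sub_self])
  exact (sub_eq_zero.mp hE).symm

/-- **(G2) core, type `0`**: `r_* π^*(x) = r_* π^*(P0)`. -/
theorem mapDomain_pullback_eq_zero_type [FundamentalIdentity K F F']
    (hC : CuspData p J Jp Pinf P0) (hR : RedData r J Jp gJ gJp)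
    {x : Place K F} {a b : K} (ha : a ≠ 0) (hb : b ≠ 0)
    (hxJ : 0 < x.ord (J - algebraMap K F b)) (hxJp : 0 < x.ord (Jp - algebraMap K F a))
    (h1 : RedDiv r (algebraMap F F' (1 - algebraMap K F a⁻¹ * Jp)) 1)
    (h2 : RedDiv r (algebraMap F F' (Jp - algebraMap K F (a / b ^ p) * J ^ p)) gJp)
    (h5 : gJp - gJ ^ p ≠ 0 → RedDiv r (algebraMap F F' (Jp - J ^ p)) (gJp - gJ ^ p))
    (hdegb : ∀ Q : Place k Fb, 0 < Q.deg) (hrdeg : ∀ P, (r P).deg = P.deg)
    (hdeg : x.deg = P0.deg) :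
    Finsupp.mapDomain r (Divisor.pullback F' (Finsupp.single x (1 : ℤ)))
      = Finsupp.mapDomain r (Divisor.pullback F' (Finsupp.single P0 (1 : ℤ))) := by
  have hinf0 := hC.inf_ne_zero
  obtain ⟨hxinf, hx0⟩ := hC.ne_of_value ha hxJp
  have hainv : a⁻¹ ≠ 0 := inv_ne_zero ha
  have hp2 : (2 : ℤ) ≤ (p : ℤ) := by exact_mod_cast hC.two_le
  have hwinf : Pinf.ord (1 - algebraMap K F a⁻¹ * Jp) = -(p : ℤ) := by
    rw [ord_one_sub_mul_of_neg Pinf hainv (by rw [hC.infJp]; linarith), hC.infJp]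
  have hw0 : P0.ord (1 - algebraMap K F a⁻¹ * Jp) = -1 := by
    rw [ord_one_sub_mul_of_neg P0 hainv (by rw [hC.zeroJp]; norm_num), hC.zeroJp]
  have hwne : (1 - algebraMap K F a⁻¹ * Jp) ≠ 0 := by
    intro h0
    rw [h0, Place.ord_zero] at hw0
    norm_num at hw0
  refine mapDomain_pullback_eq_of_le hdegb hrdeg hdeg fun Q => ?_
  have hw := fibre_nonneg r x Pinf P0 hwne h1 (-1) p 1 Q (fun P _ => by
    by_cases h1' : P.restrict F = x
    · rw [h1', wt_x _ _ _ hxinf hx0]
      have := ord_one_sub_pos x ha hxJp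
      linarith
    · by_cases h2' : P.restrict F = Pinf
      · rw [h2', wt_inf _ _ _ hxinf hinf0, hwinf]
        linarith
      · by_cases h3' : P.restrict F = P0
        · rw [h3', wt_zero _ _ _ hx0 hinf0, hw0]
          norm_num
        · rw [wt_other _ _ _ h1' h2' h3', add_zero]
          exact ord_one_sub_mul_nonneg _ _ (hC.ord_nonneg_Jp h2' h3'))
  rw [Place.ord_one] at hw
  by_cases hx : mult r x Q = 0
  · rw [hx]
    exact mult_nonneg r P0 Q
  · obtain ⟨z, hz, hzQ⟩ := exists_of_mult_ne_zero r hx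
    have hinfQ : mult r Pinf Q = 0 := by
      by_contra hne
      obtain ⟨c, hc, hcQ⟩ := exists_of_mult_ne_zero r hne
      exact sep_zero hC hR ha hb hxJ hxJp h2 h5 z c hz hc (hzQ.trans hcQ.symm)
    rw [hinfQ] at hw
    linarith

/-- **(M3c) core, type `∞`**: `r_* π^*(x) = r_* π^*(P∞)`. -/
theorem mapDomain_pullback_eq_inf_type [FundamentalIdentity K F F']
    (hC : CuspData p J Jp Pinf P0) (hR : RedData r J Jp gJ gJp)
    {x : Place K F} {a b : K} (ha : a ≠ 0) (hb : b ≠ 0)
    (hxJ : 0 < x.ord (J - algebraMap K F b)) (hxJp : 0 < x.ord (Jp - algebraMap K F a))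
    (h1 : RedDiv r (algebraMap F F' (1 - algebraMap K F b⁻¹ * J)) 1)
    {γ : k} (hγ : γ ≠ 0)
    (h2 : gJp - algebraMap k Fb γ * gJ ^ p ≠ 0 →
      RedDiv r (algebraMap F F' (Jp - algebraMap K F (a / b ^ p) * J ^ p))
        (gJp - algebraMap k Fb γ * gJ ^ p))
    (hdegb : ∀ Q : Place k Fb, 0 < Q.deg) (hrdeg : ∀ P, (r P).deg = P.deg)
    (hdeg : x.deg = Pinf.deg) :
    Finsupp.mapDomain r (Divisor.pullback F' (Finsupp.single x (1 : ℤ)))
      = Finsupp.mapDomain r (Divisor.pullback F' (Finsupp.single Pinf (1 : ℤ))) := by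
  have hinf0 := hC.inf_ne_zero
  obtain ⟨hxinf, hx0⟩ := hC.ne_of_value ha hxJp
  have hbinv : b⁻¹ ≠ 0 := inv_ne_zero hb
  have hp2 : (2 : ℤ) ≤ (p : ℤ) := by exact_mod_cast hC.two_le
  have hwinf : Pinf.ord (1 - algebraMap K F b⁻¹ * J) = -1 := by
    rw [ord_one_sub_mul_of_neg Pinf hbinv (by rw [hC.infJ]; norm_num), hC.infJ]
  have hw0 : P0.ord (1 - algebraMap K F b⁻¹ * J) = -(p : ℤ) := by
    rw [ord_one_sub_mul_of_neg P0 hbinv (by rw [hC.zeroJ]; linarith), hC.zeroJ]
  have hwne : (1 - algebraMap K F b⁻¹ * J) ≠ 0 := by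
    intro h0
    rw [h0, Place.ord_zero] at hwinf
    norm_num at hwinf
  refine mapDomain_pullback_eq_of_le hdegb hrdeg hdeg fun Q => ?_
  have hw := fibre_nonneg r x Pinf P0 hwne h1 (-1) 1 p Q (fun P _ => by
    by_cases h1' : P.restrict F = x
    · rw [h1', wt_x _ _ _ hxinf hx0]
      have := ord_one_sub_pos x hb hxJ
      linarith
    · by_cases h2' : P.restrict F = Pinf
      · rw [h2', wt_inf _ _ _ hxinf hinf0, hwinf]
        norm_num
      · by_cases h3' : P.restrict F = P0
        · rw [h3', wt_zero _ _ _ hx0 hinf0, hw0]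
          linarith
        · rw [wt_other _ _ _ h1' h2' h3', add_zero]
          exact ord_one_sub_mul_nonneg _ _ (hC.ord_nonneg_J h2' h3'))
  rw [Place.ord_one] at hw
  by_cases hx : mult r x Q = 0
  · rw [hx]
    exact mult_nonneg r Pinf Q
  · obtain ⟨z, hz, hzQ⟩ := exists_of_mult_ne_zero r hx
    have h0Q : mult r P0 Q = 0 := by
      by_contra hne
      obtain ⟨c, hc, hcQ⟩ := exists_of_mult_ne_zero r hne
      exact sep_inf hC hR ha hb hxJ hxJp hγ h2 z c hz hc (hzQ.trans hcQ.symm)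
    rw [h0Q] at hw
    linarith

end Main

end Up

end

end Fermat.Agent.S15P.G2.Fibre41
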