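/-
S15 / (G2), route R-B (helper41): the cusp data of `X₀(p)` in the shape of `Fibre41.CuspData`.

`cuspData : CuspOrders → CuspUnique → p.Prime →
    Fibre41.CuspData p (jd p 1 _) (jd p p _) (cuspInf p) (cuspZero p)`

The two inputs are the Props of helper45's `Cusp45/Interface.lean`; the field `infU`
(`-p < ord_∞ (j_p - j^p)`) is main's `M3/CuspVal89.ord_sub_pow_gt`.
-/
import Mathlib
import Fermat.Agent.S15P.G2.Fibre41
import Fermat.Agent.S15P.Cusp45.Interface
import Fermat.Agent.S15P.M3.CuspVal89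

set_option autoImplicit false

namespace Fermat.Agent.S15P.G2.CuspInst41

open AlgebraicCurve ModularCurve Fermat.Agent.S24 Fermat.Agent.S15P.Cusp45

/-- The cusp data of `X₀(p)` for the pair `(j, j_p)`. -/
theorem cuspData (hO : CuspOrders) (hU : CuspUnique) {p : ℕ} [NeZero p] (hp : p.Prime) :
    Fibre41.CuspData p (jd p 1 (one_dvd p)) (jd p p dvd_rfl) (cuspInf p) (cuspZero p) := by
  obtain ⟨h1, h2, h3, h4⟩ := hO p hp
  refine ⟨hp.two_le, fun P hP => ((hU p hp P).2 hP).1,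
    fun P hP => ((hU p hp P).2 ((hU p hp P).1.mp hP)).1, h1, h2, h3, h4, ?_⟩
  have hv : (cuspInf p).ord (jBar p) < 0 := by
    have e : jBar p = jd p 1 (one_dvd p) := rfl
    rw [e, h1]
    norm_num
  have ht : (cuspInf p).ord (jFormal p ⟨p, dvd_rfl⟩) = p * (cuspInf p).ord (jBar p) := by
    have e : jBar p = jd p 1 (one_dvd p) := rfl
    have e' : jFormal p ⟨p, dvd_rfl⟩ = jd p p dvd_rfl := rfl
    rw [e, e', h1, h2]
    ring
  have h := Fermat.Agent.S15P.M3.CuspVal89.ord_sub_pow_gt hp dvd_rfl (cuspInf p) hv ht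
  have e : jBar p = jd p 1 (one_dvd p) := rfl
  have e' : jFormal p ⟨p, dvd_rfl⟩ = jd p p dvd_rfl := rfl
  rw [e, e', h1] at h
  linarith

end Fermat.Agent.S15P.G2.CuspInst41
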