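/-
S15 / (G2), route R-B (helper41): the frame around the abstract core `Fibre41`.

`g2_of_coll` is helper6's literal of (G2) (`M6/G2Stmt.g2`) with three explicit inputs left:

* `hO : CuspOrders`, `hU : CuspUnique` — helper45's interface Props (the two cusps of `X₀(p)`);
* `hcoll : Coll p _ (placeReductionModL h)` — (COLL) at level `p q`: a zero of `j` or of `j_p`
  and a pole of `j` never have the same reduction;
* `ha : a ∉ A` — the `j_p`-value of the point is non-integral as well.

Everything else is proved here: the five instances of the Prelude clause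
(`j`, `j_p`, `1 - j_p / a`, `j_p - (a / b^p) j^p`, `j_p - j^p`), the instance package for the
inclusion `F_p ⊆ F_{pq}`, the degrees, and the passage from the equality of push-forwards
`r_* π^*(x) = r_* π^*(0)` (`Fibre41.mapDomain_pullback_eq_zero_type`) to
`reductionModL A (p q) (π^* [x - (0)]) = 0`.
-/
import Mathlib
import Fermat.Agent.S15P.G2.Fibre41
import Fermat.Agent.S15P.G2.CuspInst41
import Fermat.Agent.CAR.Ell.FrickeRed
import Fermat.Agent.Lib.Red.Level
import Fermat.Agent.Lib.FF.CharP.ModLInst
import Fermat.Agent.ESJ.HeckeInputs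
import Fermat.Agent.ESJ.LevelDesc.Pic0Pull
import Fermat.Prelude.Def_ModularCurve_ReductionModL

set_option autoImplicit false
set_option linter.unusedSectionVars false
set_option linter.style.haveILetI false
set_option synthInstance.maxHeartbeats 400000

noncomputable section

namespace Fermat.Agent.S15P.G2.Frame41

open AlgebraicCurve ModularCurve Fermat.Agent.S24 Fermat.Agent.S28 Fermat.Agent.Lib.Red
open Fermat.Agent.S15P.Cusp45 Fermat.Agent.S15P.G2.Fibre41
open Fermat.Agent.ESJ.HeckeInputs Fermat.Agent.ESJ.LevelDesc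

local notation "Qb" => AlgebraicClosure ℚ

/-! ### The Prelude clause for one integral series -/

section Series

variable {N : ℕ} [NeZero N] {A : ValuationSubring KQ} {k : Type} [Field k] {π : A →+* k}
  {r : Place KQ (FN N) → Place k ↥(modularFunctionFieldFullC k N)}

/-- The Prelude clause of `IsPlaceReductionAlong` for one integral series, as a `RedDiv`. -/
theorem redDiv_of_series (hr : IsPlaceReductionAlong A π N r) (y : LaurentSeries A)
    (f : FN N) (g : ↥(modularFunctionFieldFullC k N))
    (hf : incl A y = (f : LaurentSeries KQ)) (hg : rbar A π y = (g : LaurentSeries k))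
    (hg0 : g ≠ 0) : RedDiv r f g := by
  intro D hD Q
  have hf' : coeffMap A.subtype y = (f : LaurentSeries KQ) := hf
  have hg' : coeffMap π y = (g : LaurentSeries k) := hg
  have hmemL : coeffMap A.subtype y ∈ laurentBaseChange KQ (modularFunctionFieldFull N) := by
    rw [hf']
    exact f.2
  have hmemk : coeffMap π y ∈ modularFunctionFieldFullC k N := by
    rw [hg']
    exact g.2
  have heL : (⟨coeffMap A.subtype y, hmemL⟩ : FN N) = f := Subtype.ext hf'
  have hek : (⟨coeffMap π y, hmemk⟩ : ↥(modularFunctionFieldFullC k N)) = g := Subtype.ext hg'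
  have hne : coeffMap π y ≠ 0 := by
    intro h0
    apply hg0
    apply Subtype.ext
    rw [← hg', h0]
    rfl
  have h := hr.2 y hmemL hmemk hne D (fun P => by rw [hD P, heL]) Q
  rw [h, hek]

theorem Jd_mem_fullC (k : Type) [Field k] (N : ℕ) [NeZero N] (d : ℕ) (hd : d ∣ N) :
    TD.Jd k d ∈ modularFunctionFieldFullC k N := by
  have hd0 : d ≠ 0 := fun h => NeZero.ne N (by rw [h] at hd; exact Nat.eq_zero_of_zero_dvd hd)
  haveI : NeZero d := ⟨hd0⟩
  rw [TD.Jd_eq k d]
  exact jqModCd_mem_full k N hd

/-- `j̄(q^d)` on the reduction of `X₀(N)`. -/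
def gd (k : Type) [Field k] (N : ℕ) [NeZero N] (d : ℕ) (hd : d ∣ N) :
    ↥(modularFunctionFieldFullC k N) :=
  ⟨TD.Jd k d, Jd_mem_fullC k N d hd⟩

theorem coe_gd (k : Type) [Field k] (N : ℕ) [NeZero N] (d : ℕ) (hd : d ∣ N) :
    ((gd k N d hd : ↥(modularFunctionFieldFullC k N)) : LaurentSeries k) = TD.Jd k d := rfl

theorem gd_ne_zero (k : Type) [Field k] (N : ℕ) [NeZero N] (d : ℕ) (hd : d ∣ N) :
    gd k N d hd ≠ 0 := by
  intro h0
  have hd0 : d ≠ 0 := fun h => NeZero.ne N (by rw [h] at hd; exact Nat.eq_zero_of_zero_dvd hd)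
  apply ValInd.Jd_ne_zero (K := k) d hd0
  have h1 : ((gd k N d hd : ↥(modularFunctionFieldFullC k N)) : LaurentSeries k) = 0 := by
    rw [h0]
    rfl
  exact h1

/-- The series of `j(q^d)`. -/
theorem coe_jd (A : ValuationSubring KQ) (N : ℕ) [NeZero N] (d : ℕ) (hd : d ∣ N) :
    ((jd N d hd : FN N) : LaurentSeries KQ) = incl A (TD.Jd A d) :=
  congrArg Subtype.val (Fermat.Agent.CAR.Ell.FrickeRed.jFormal_eq A N ⟨d, hd⟩)

end Series

/-! ### (COLL) -/

/-- **(COLL)** at level `N`, relative to the prime `p ∣ N`: a zero of `j` or of `j_p` and a pole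
of `j` never have the same image under `r`. -/
def Coll {N : ℕ} [NeZero N] (p : ℕ) (hpN : p ∣ N) {k : Type} [Field k]
    (r : Place Qb (FN N) → Place k ↥(modularFunctionFieldFullC k N)) : Prop :=
  ∀ P c : Place Qb (FN N),
    (0 < P.ord (jd N 1 (one_dvd N)) ∨ 0 < P.ord (jd N p hpN)) →
      c.ord (jd N 1 (one_dvd N)) < 0 → r P ≠ r c

/-! ### The frame -/

section Frame

variable {p q : ℕ} [NeZero p] [NeZero q] [NeZero (p * q)]

/-- The inclusion `F_p ⊆ F_{pq}` does not change the series. -/
theorem coe_alpha (f : FN p) :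
    ((heckeAlphaBar Qb p q f : FN (p * q)) : LaurentSeries Qb) = (f : LaurentSeries Qb) :=
  coe_heckeAlphaBar p q f

/-- The inclusion maps `j(q^d)` to `j(q^d)`. -/
theorem alpha_jd (d : ℕ) (hd : d ∣ p) :
    heckeAlphaBar Qb p q (jd p d hd) = jd (p * q) d (hd.trans (dvd_mul_right p q)) := by
  apply Subtype.ext
  rw [coe_alpha]
  rfl

set_option maxHeartbeats 1000000 in
/-- **(G2) from (COLL)**: helper6's literal, with the cusp Props, (COLL) at level `p q` and
`a ∉ A` as hypotheses. -/
theorem g2_of_coll (hp : p.Prime) (hO : CuspOrders) (hU : CuspUnique)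
    (A : ValuationSubring Qb) (h : ReductionInputsModL A (p * q))
    (hcoll : Coll p (dvd_mul_right p q) (placeReductionModL h))
    (x : Place Qb (FN p)) (b a : Qb) (hb : b ∉ A) (ha : a ∉ A)
    (hu : A.valuation (a / b ^ p) < 1)
    (hxb : 0 < x.ord (jd p 1 (one_dvd p) - algebraMap Qb (FN p) b))
    (hxa : 0 < x.ord (jd p p dvd_rfl - algebraMap Qb (FN p) a))
    (D : Divisor.degZero (K := Qb) (F := FN p))
    (hD : (D : Divisor Qb (FN p)) = Finsupp.single x 1 - Finsupp.single (cuspZero p) 1) :
    haveI := hasPrincipalDivisors_bar (p * q)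
    reductionModL A (p * q)
      (pic0Pull (heckeAlphaBar Qb p q) (heckeAlphaBarIntegral p q)
        (fundamentalIdentityAlong_heckeAlphaBar p q) (Pic0.mk D)) = 0 := by
  classical
  haveI hP := hasPrincipalDivisors_bar (p * q)
  haveI : IsAlgClosed (IsLocalRing.ResidueField A) :=
    Fermat.Agent.Lib.FF.CharP.isAlgClosed_residueField A
  have hφ := heckeAlphaBarIntegral p q
  have hFI := fundamentalIdentityAlong_heckeAlphaBar p q
  have hr : IsPlaceReductionAlong A (IsLocalRing.residue A) (p * q) (placeReductionModL h) :=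
    isPlaceReductionModL_placeReductionModL h
  have hπ := Fermat.Agent.ESJ.residue_eq_zero_of_not_isUnit' A
  -- the constants
  have hb0 : b ≠ 0 := fun h0 => hb (h0 ▸ A.zero_mem)
  have ha0 : a ≠ 0 := fun h0 => ha (h0 ▸ A.zero_mem)
  have hva : 1 < A.valuation a := by
    rw [← not_le, A.valuation_le_one_iff]
    exact ha
  have hvz : A.valuation a⁻¹ < 1 := by
    rw [map_inv₀]
    exact inv_lt_one_of_one_lt₀ hva
  let c : A := ⟨a / b ^ p, (A.valuation_le_one_iff _).mp hu.le⟩
  let z : A := ⟨a⁻¹, (A.valuation_le_one_iff _).mp hvz.le⟩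
  have hc : IsLocalRing.residue A c = 0 := hπ c (fun hunit =>
    (ne_of_lt hu) ((A.valuation_eq_one_iff c).mp hunit))
  have hz : IsLocalRing.residue A z = 0 := hπ z (fun hunit =>
    (ne_of_lt hvz) ((A.valuation_eq_one_iff z).mp hunit))
  -- the key equality of push-forwards
  have key : Finsupp.mapDomain (placeReductionModL h)
      (Divisor.pullbackAlong (heckeAlphaBar Qb p q) hφ (D : Divisor Qb (FN p))) = 0 := by
    letI := algebraAlong (heckeAlphaBar Qb p q)
    haveI := isScalarTower_along (heckeAlphaBar Qb p q)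
    haveI := isIntegral_along (heckeAlphaBar Qb p q) hφ
    haveI : FundamentalIdentity Qb (FN p) (FN (p * q)) := hFI
    have hC := CuspInst41.cuspData hO hU hp
    have hJ1 : algebraMap (FN p) (FN (p * q)) (jd p 1 (one_dvd p))
        = jd (p * q) 1 (one_dvd (p * q)) := alpha_jd 1 (one_dvd p)
    have hJp : algebraMap (FN p) (FN (p * q)) (jd p p dvd_rfl)
        = jd (p * q) p (dvd_mul_right p q) := alpha_jd p dvd_rfl
    have hR : RedData (placeReductionModL h) (jd p 1 (one_dvd p)) (jd p p dvd_rfl)
        (gd (IsLocalRing.ResidueField A) (p * q) 1 (one_dvd (p * q)))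
        (gd (IsLocalRing.ResidueField A) (p * q) p (dvd_mul_right p q)) := by
      refine ⟨?_, ?_, ?_⟩
      · rw [hJ1]
        exact redDiv_of_series hr (TD.Jd A 1) _ _ (coe_jd A (p * q) 1 _).symm
          (rbar_Jd A _ 1) (gd_ne_zero _ _ _ _)
      · rw [hJp]
        exact redDiv_of_series hr (TD.Jd A p) _ _ (coe_jd A (p * q) p _).symm
          (rbar_Jd A _ p) (gd_ne_zero _ _ _ _)
      · intro P c' hP hc'
        have eP1 := P.ord_restrict (F := FN p) (jd p 1 (one_dvd p))
        have ePp := P.ord_restrict (F := FN p) (jd p p dvd_rfl)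
        have ec1 := c'.ord_restrict (F := FN p) (jd p 1 (one_dvd p))
        rw [hJ1] at eP1 ec1
        rw [hJp] at ePp
        have heP : 0 < Place.ramificationIndex (F := FN p) P := P.ramificationIndex_pos
        have hec : 0 < Place.ramificationIndex (F := FN p) c' := c'.ramificationIndex_pos
        refine hcoll P c' ?_ ?_
        · rcases hP with hP | hP
          · left
            rw [eP1]
            positivity
          · right
            rw [ePp]
            positivity
        · rw [ec1]
          exact mul_neg_of_pos_of_neg (by exact_mod_cast hec) hc'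
    -- the three extra clauses
    have h1 : RedDiv (placeReductionModL h)
        (algebraMap (FN p) (FN (p * q)) (1 - algebraMap Qb (FN p) a⁻¹ * jd p p dvd_rfl)) 1 := by
      refine redDiv_of_series hr (1 - HahnSeries.C z * TD.Jd A p) _ 1 ?_ ?_ one_ne_zero
      · show _ = ((heckeAlphaBar Qb p q (1 - algebraMap Qb (FN p) a⁻¹ * jd p p dvd_rfl) :
          FN (p * q)) : LaurentSeries Qb)
        rw [coe_alpha]
        show incl A (1 - HahnSeries.C z * TD.Jd A p) =
          (1 : LaurentSeries Qb) - ((algebraMap Qb (FN p) a⁻¹ : FN p) : LaurentSeries Qb) *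
            ((jd p p dvd_rfl : FN p) : LaurentSeries Qb)
        rw [map_sub, map_one, map_mul, incl_C, coe_jd A p p dvd_rfl,
          Fermat.Agent.CAR.Ell.coe_algebraMap_laurentBaseChange]
      · show rbar A (IsLocalRing.residue A) (1 - HahnSeries.C z * TD.Jd A p) = (1 : LaurentSeries _)
        rw [map_sub, map_one, map_mul, rbar_C, hz, map_zero, zero_mul, sub_zero]
    have h2 : RedDiv (placeReductionModL h)
        (algebraMap (FN p) (FN (p * q))
          (jd p p dvd_rfl - algebraMap Qb (FN p) (a / b ^ p) * jd p 1 (one_dvd p) ^ p))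
        (gd (IsLocalRing.ResidueField A) (p * q) p (dvd_mul_right p q)) := by
      refine redDiv_of_series hr (TD.Jd A p - HahnSeries.C c * TD.Jd A 1 ^ p) _ _ ?_ ?_
        (gd_ne_zero _ _ _ _)
      · show _ = ((heckeAlphaBar Qb p q
          (jd p p dvd_rfl - algebraMap Qb (FN p) (a / b ^ p) * jd p 1 (one_dvd p) ^ p) :
          FN (p * q)) : LaurentSeries Qb)
        rw [coe_alpha]
        show incl A (TD.Jd A p - HahnSeries.C c * TD.Jd A 1 ^ p) =
          ((jd p p dvd_rfl : FN p) : LaurentSeries Qb) -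
            ((algebraMap Qb (FN p) (a / b ^ p) : FN p) : LaurentSeries Qb) *
              ((jd p 1 (one_dvd p) : FN p) : LaurentSeries Qb) ^ p
        rw [map_sub, map_mul, map_pow, incl_C, coe_jd A p p dvd_rfl, coe_jd A p 1 (one_dvd p),
          Fermat.Agent.CAR.Ell.coe_algebraMap_laurentBaseChange]
      · show rbar A (IsLocalRing.residue A) (TD.Jd A p - HahnSeries.C c * TD.Jd A 1 ^ p) = TD.Jd _ p
        rw [map_sub, map_mul, rbar_C, hc, map_zero, zero_mul, sub_zero, rbar_Jd]
    have h5 : gd (IsLocalRing.ResidueField A) (p * q) p (dvd_mul_right p q)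
          - gd (IsLocalRing.ResidueField A) (p * q) 1 (one_dvd (p * q)) ^ p ≠ 0 →
        RedDiv (placeReductionModL h)
          (algebraMap (FN p) (FN (p * q)) (jd p p dvd_rfl - jd p 1 (one_dvd p) ^ p))
          (gd (IsLocalRing.ResidueField A) (p * q) p (dvd_mul_right p q)
            - gd (IsLocalRing.ResidueField A) (p * q) 1 (one_dvd (p * q)) ^ p) := by
      intro hne
      refine redDiv_of_series hr (TD.Jd A p - TD.Jd A 1 ^ p) _ _ ?_ ?_ hne
      · show _ = ((heckeAlphaBar Qb p q (jd p p dvd_rfl - jd p 1 (one_dvd p) ^ p) :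
          FN (p * q)) : LaurentSeries Qb)
        rw [coe_alpha]
        show incl A (TD.Jd A p - TD.Jd A 1 ^ p) =
          ((jd p p dvd_rfl : FN p) : LaurentSeries Qb) -
            ((jd p 1 (one_dvd p) : FN p) : LaurentSeries Qb) ^ p
        rw [map_sub, map_pow, coe_jd A p p dvd_rfl, coe_jd A p 1 (one_dvd p)]
      · show rbar A (IsLocalRing.residue A) (TD.Jd A p - TD.Jd A 1 ^ p) =
          TD.Jd _ p - TD.Jd _ 1 ^ p
        rw [map_sub, map_pow, rbar_Jd, rbar_Jd]
    have e := mapDomain_pullback_eq_zero_type hC hR ha0 hb0 hxb hxa h1 h2 h5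
      (fun Q => by rw [Fermat.Agent.Lib.FF.CharP.deg_eq_one_fullC]; exact one_pos) hr.1
      (by rw [deg_eq_one_bar, deg_eq_one_bar])
    show Finsupp.mapDomain.addMonoidHom (placeReductionModL h)
      (Divisor.pullback (FN (p * q)) (D : Divisor Qb (FN p))) = 0
    rw [hD, map_sub, map_sub]
    exact sub_eq_zero.mpr e
  -- conclusion
  rw [pic0Pull_mk, reductionModL_mk h]
  have h0 : reductionDegZeroAlong (placeReductionModL h) hr.1
      (pullDegZero (heckeAlphaBar Qb p q) hφ hFI D) = 0 := Subtype.ext key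
  rw [h0]
  exact Pic0.mk_zero

end Frame

end Fermat.Agent.S15P.G2.Frame41
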