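/-
S15 / (G2), route R-B (helper41): **(G2) closed.**

`g2_good` is helper6's literal of (G2) (`M6/G2Stmt.g2`) at every good pair
`(M, ℓ) = (p q, ℓ)`, `ℓ ∤ p q`, `5 ≤ ℓ ∨ (ℓ = 3 ∧ 2 ∣ p q) ∨ (ℓ = 2 ∧ 3 ∣ p q)`
(the pairs at which main's cusp ↦ cusp statement `InstJ.cusp_of_cusp` holds; (G2) is used at
`(3p, 2)` and `(2p, 3)`): for a place `x` of `X₀(p)` over `(b, a)` with `b ∉ A` and
`|a / b^p|_A < 1`, the pull-back of `[x − (0)]` to level `p q` dies under the reduction at `A`.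

Assembly of
* `Frame41.g2_of_coll` (the abstract core `Fibre41` instantiated at `F_p ⊆ F_{pq}`),
* (COLL) = main's `Coll85.red_ne_of_integral` (helper85),
* `a ∉ A` from `b ∉ A` = main's `Coll85.exists_value_jBar` (the modular equations),
* the cusp Props = main's `Cusp45.cuspOrders`, `Cusp45.cuspUnique` (helper45).
-/
import Mathlib
import Fermat.Agent.S15P.G2.Frame41
import Fermat.Agent.S15P.G2.Coll85
import Fermat.Agent.S15P.Cusp45.Level

set_option autoImplicit false
set_option linter.unusedSectionVars false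
set_option linter.style.haveILetI false
set_option synthInstance.maxHeartbeats 400000

noncomputable section

namespace Fermat.Agent.S15P.G2.Top41

open AlgebraicCurve ModularCurve Fermat.Agent.S24 Fermat.Agent.S15P.Cusp45
open Fermat.Agent.ESJ.HeckeInputs Fermat.Agent.ESJ.LevelDesc

local notation "Qb" => AlgebraicClosure ℚ

/-- **(COLL)** at a good pair `(M, ℓ)`, for the place reduction of the Prelude. -/
theorem coll_good {M ℓ : ℕ} [NeZero M] (p : ℕ) (hpM : p ∣ M) (hℓ : ℓ.Prime) (hℓM : ¬ ℓ ∣ M)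
    (hgood : 5 ≤ ℓ ∨ (ℓ = 3 ∧ 2 ∣ M) ∨ (ℓ = 2 ∧ 3 ∣ M))
    (A : ValuationSubring Qb) (hA : A.LiesOverPrime ℓ) (h : ReductionInputsModL A M) :
    Frame41.Coll p hpM (placeReductionModL h) := by
  intro P c hP hc
  have hr : IsPlaceReductionAlong A (IsLocalRing.residue A) M (placeReductionModL h) :=
    isPlaceReductionModL_placeReductionModL h
  rcases hP with hP | hP
  · exact Coll85.red_ne_of_integral A M ℓ hℓ hℓM hgood hA hr ⟨1, one_dvd M⟩ 0 A.zero_mem P
      (by rw [map_zero, sub_zero]; exact hP) c hc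
  · exact Coll85.red_ne_of_integral A M ℓ hℓ hℓM hgood hA hr ⟨p, hpM⟩ 0 A.zero_mem P
      (by rw [map_zero, sub_zero]; exact hP) c hc

/-- At a place over `(b, a)`: if the `j`-value `b` is not in `A`, neither is the `j_d`-value. -/
theorem notMem_of_notMem {M : ℕ} [NeZero M] (d : ℕ) (hd : d ∣ M) (A : ValuationSubring Qb)
    (x : Place Qb (FN M)) (b a : Qb) (hb : b ∉ A)
    (hxb : 0 < x.ord (jd M 1 (one_dvd M) - algebraMap Qb (FN M) b))
    (hxa : 0 < x.ord (jd M d hd - algebraMap Qb (FN M) a)) : a ∉ A := by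
  intro ha
  obtain ⟨c', hc', h⟩ := Coll85.exists_value_jBar M ⟨d, hd⟩ A x a ha hxa
  have hbc : b = c' := by
    by_contra hne
    have h' : 0 < x.ord (jd M 1 (one_dvd M) - algebraMap Qb (FN M) c') := h
    have e : jd M 1 (one_dvd M) - algebraMap Qb (FN M) c' - algebraMap Qb (FN M) (b - c')
        = jd M 1 (one_dvd M) - algebraMap Qb (FN M) b := by
      rw [map_sub]
      ring
    have h0 := Fibre41.ord_eq_zero_of_sub_pos x (sub_ne_zero.mpr hne)
      (f := jd M 1 (one_dvd M) - algebraMap Qb (FN M) c') (by rw [e]; exact hxb)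
    rw [h0] at h'
    exact lt_irrefl _ h'
  exact hb (hbc ▸ hc')

/-- **(G2)** at a good pair: the pull-back to level `p q` of the class `[x − (0)]` of a place
`x` of type `0` dies under the reduction at `A`. -/
theorem g2_good {p q ℓ : ℕ} [NeZero p] [NeZero q] [NeZero (p * q)] (hp : p.Prime)
    (hℓ : ℓ.Prime) (hℓM : ¬ ℓ ∣ p * q)
    (hgood : 5 ≤ ℓ ∨ (ℓ = 3 ∧ 2 ∣ p * q) ∨ (ℓ = 2 ∧ 3 ∣ p * q))
    (A : ValuationSubring Qb) (hA : A.LiesOverPrime ℓ) (h : ReductionInputsModL A (p * q))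
    (x : Place Qb (FN p)) (b a : Qb) (hb : b ∉ A) (hu : A.valuation (a / b ^ p) < 1)
    (hxb : 0 < x.ord (jd p 1 (one_dvd p) - algebraMap Qb (FN p) b))
    (hxa : 0 < x.ord (jd p p dvd_rfl - algebraMap Qb (FN p) a))
    (D : Divisor.degZero (K := Qb) (F := FN p))
    (hD : (D : Divisor Qb (FN p)) = Finsupp.single x 1 - Finsupp.single (cuspZero p) 1) :
    haveI := hasPrincipalDivisors_bar (p * q)
    reductionModL A (p * q)
      (pic0Pull (heckeAlphaBar Qb p q) (heckeAlphaBarIntegral p q)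
        (fundamentalIdentityAlong_heckeAlphaBar p q) (Pic0.mk D)) = 0 :=
  Frame41.g2_of_coll hp cuspOrders cuspUnique A h
    (coll_good p (dvd_mul_right p q) hℓ hℓM hgood A hA h) x b a hb
    (notMem_of_notMem p dvd_rfl A x b a hb hxb hxa) hu hxb hxa D hD

/-- **(G2) at level `3p`, primes over `2`.** -/
theorem g2_three {p : ℕ} [NeZero p] (hp : p.Prime) (hp5 : 5 ≤ p)
    (A : ValuationSubring Qb) (hA : A.LiesOverPrime 2) (h : ReductionInputsModL A (p * 3))
    (x : Place Qb (FN p)) (b a : Qb) (hb : b ∉ A) (hu : A.valuation (a / b ^ p) < 1)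
    (hxb : 0 < x.ord (jd p 1 (one_dvd p) - algebraMap Qb (FN p) b))
    (hxa : 0 < x.ord (jd p p dvd_rfl - algebraMap Qb (FN p) a))
    (D : Divisor.degZero (K := Qb) (F := FN p))
    (hD : (D : Divisor Qb (FN p)) = Finsupp.single x 1 - Finsupp.single (cuspZero p) 1) :
    haveI := hasPrincipalDivisors_bar (p * 3)
    reductionModL A (p * 3)
      (pic0Pull (heckeAlphaBar Qb p 3) (heckeAlphaBarIntegral p 3)
        (fundamentalIdentityAlong_heckeAlphaBar p 3) (Pic0.mk D)) = 0 := by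
  have h2p3 : ¬ 2 ∣ p * 3 := by
    intro hd
    rcases (Nat.Prime.dvd_mul Nat.prime_two).mp hd with h' | h'
    · have := (Nat.prime_dvd_prime_iff_eq Nat.prime_two hp).mp h'
      omega
    · omega
  exact g2_good hp Nat.prime_two h2p3 (Or.inr (Or.inr ⟨rfl, Dvd.intro_left p rfl⟩)) A hA h x b a
    hb hu hxb hxa D hD

/-- **(G2) at level `2p`, primes over `3`.** -/
theorem g2_two {p : ℕ} [NeZero p] (hp : p.Prime) (hp5 : 5 ≤ p)
    (A : ValuationSubring Qb) (hA : A.LiesOverPrime 3) (h : ReductionInputsModL A (p * 2))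
    (x : Place Qb (FN p)) (b a : Qb) (hb : b ∉ A) (hu : A.valuation (a / b ^ p) < 1)
    (hxb : 0 < x.ord (jd p 1 (one_dvd p) - algebraMap Qb (FN p) b))
    (hxa : 0 < x.ord (jd p p dvd_rfl - algebraMap Qb (FN p) a))
    (D : Divisor.degZero (K := Qb) (F := FN p))
    (hD : (D : Divisor Qb (FN p)) = Finsupp.single x 1 - Finsupp.single (cuspZero p) 1) :
    haveI := hasPrincipalDivisors_bar (p * 2)
    reductionModL A (p * 2)
      (pic0Pull (heckeAlphaBar Qb p 2) (heckeAlphaBarIntegral p 2)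
        (fundamentalIdentityAlong_heckeAlphaBar p 2) (Pic0.mk D)) = 0 := by
  have h3p2 : ¬ 3 ∣ p * 2 := by
    intro hd
    rcases (Nat.Prime.dvd_mul Nat.prime_three).mp hd with h' | h'
    · have := (Nat.prime_dvd_prime_iff_eq Nat.prime_three hp).mp h'
      omega
    · omega
  exact g2_good hp Nat.prime_three h3p2 (Or.inr (Or.inl ⟨rfl, Dvd.intro_left p rfl⟩)) A hA h x b a
    hb hu hxb hxa D hD

end Fermat.Agent.S15P.G2.Top41
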