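/-
S15 / (G2) (helper41): the (G2) input of (M*) in the exact shape consumed by the seam of record
(`TopSeam3_5.MStar3`, helper42's `Star3_42.G2At3`): for `p ≥ 5` prime, `A₃` over `3`, a place `x`
of `X₀(p)` over `(b, a)` with `b ∉ A₃`, `|a / b^p| < 1`, the class `[x − (0)]` dies under
`reductionModL A₃ (2p) ∘ levelPull p 2`.  (`g2At2`: the same at level `3p`, `A₂` over `2`.)

The reduction inputs come from main's `ESJ.reductionInputsModL_good`; the statement is
`Top41.g2_two` / `Top41.g2_three`.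
-/
import Mathlib
import Fermat.Agent.S15P.G2.Top41
import Fermat.Agent.S15P.LevelPullOne5
import Fermat.Agent.ESJ.Red.R2Good

set_option autoImplicit false
set_option linter.style.haveILetI false
set_option synthInstance.maxHeartbeats 400000

noncomputable section

namespace Fermat.Agent.S15P.G2.At3_41

open AlgebraicCurve ModularCurve Fermat.Agent.S24 Fermat.Agent.S15P.Cusp45

local notation "Qb" => AlgebraicClosure ℚ

/-- **(G2) at `(q, ℓ) = (2, 3)`**, for the concrete level pull-back `levelPull p 2`. -/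
theorem g2At3 (p : ℕ) [NeZero p] (hp : p.Prime) (hp5 : 5 ≤ p) (A₃ : ValuationSubring Qb)
    (hA : A₃.LiesOverPrime 3) (b a : Qb) (hb : b ∉ A₃) (hu : A₃.valuation (a / b ^ p) < 1)
    (x : Place Qb (FN p))
    (hxb : 0 < x.ord (jFormal p ⟨1, one_dvd p⟩ - algebraMap Qb (FN p) b))
    (hxa : 0 < x.ord (jFormal p ⟨p, dvd_rfl⟩ - algebraMap Qb (FN p) a))
    (D : Divisor.degZero (K := Qb) (F := FN p))
    (hD : (D : Divisor Qb (FN p)) = Finsupp.single x 1 - Finsupp.single (cuspZero p) 1) :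
    reductionModL A₃ (p * 2) (Fermat.Agent.S15P.LevelPullOne5.levelPull p 2 (Pic0.mk D)) = 0 := by
  have h3p2 : ¬ 3 ∣ p * 2 := by
    intro hd
    rcases (Nat.Prime.dvd_mul Nat.prime_three).mp hd with h' | h'
    · have := (Nat.prime_dvd_prime_iff_eq Nat.prime_three hp).mp h'
      omega
    · omega
  have hR : ReductionInputsModL A₃ (p * 2) :=
    Fermat.Agent.ESJ.reductionInputsModL_good (p * 2) 3 Nat.prime_three h3p2
      (Or.inr (Or.inl ⟨rfl, Dvd.intro_left p rfl⟩)) A₃ hA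
  exact Top41.g2_two hp hp5 A₃ hA hR x b a hb hu hxb hxa D hD

/-- **(G2) at `(q, ℓ) = (3, 2)`**, for the concrete level pull-back `levelPull p 3`. -/
theorem g2At2 (p : ℕ) [NeZero p] (hp : p.Prime) (hp5 : 5 ≤ p) (A₂ : ValuationSubring Qb)
    (hA : A₂.LiesOverPrime 2) (b a : Qb) (hb : b ∉ A₂) (hu : A₂.valuation (a / b ^ p) < 1)
    (x : Place Qb (FN p))
    (hxb : 0 < x.ord (jFormal p ⟨1, one_dvd p⟩ - algebraMap Qb (FN p) b))
    (hxa : 0 < x.ord (jFormal p ⟨p, dvd_rfl⟩ - algebraMap Qb (FN p) a))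
    (D : Divisor.degZero (K := Qb) (F := FN p))
    (hD : (D : Divisor Qb (FN p)) = Finsupp.single x 1 - Finsupp.single (cuspZero p) 1) :
    reductionModL A₂ (p * 3) (Fermat.Agent.S15P.LevelPullOne5.levelPull p 3 (Pic0.mk D)) = 0 := by
  have h2p3 : ¬ 2 ∣ p * 3 := by
    intro hd
    rcases (Nat.Prime.dvd_mul Nat.prime_two).mp hd with h' | h'
    · have := (Nat.prime_dvd_prime_iff_eq Nat.prime_two hp).mp h'
      omega
    · omega
  have hR : ReductionInputsModL A₂ (p * 3) :=
    Fermat.Agent.ESJ.reductionInputsModL_good (p * 3) 2 Nat.prime_two h2p3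
      (Or.inr (Or.inr ⟨rfl, Dvd.intro_left p rfl⟩)) A₂ hA
  exact Top41.g2_three hp hp5 A₂ hA hR x b a hb hu hxb hxa D hD

end Fermat.Agent.S15P.G2.At3_41
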