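import Mathlib
import Fermat.Prelude.Def_AlgebraicCurve_DivisorClassGroup
import Fermat.Agent.S24.Counting

/-!
# S15 / (G2), (M3b), (M3c): the abstract separation + count argument

`F/K`, `Fb/k` fields with places, `r : Pl(F) → Pl(Fb)` a map of places ("reduction") and
`Clause r y ȳ` the Prelude clause `r_* div(y) = div(ȳ)` for ONE pair `(y, ȳ)`.

Data: a function `g` with polar divisor `Z + m • W` (`Z, W ≥ 0`), an effective divisor
`X ≤ zeros(g⁻¹ - c)` where `g⁻¹` and `g⁻¹ - c` have the same reduction `gb` (`c` in the maximal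
ideal), and a separating function `u` with "value `γ`" along `X`, "value `δ`" along `W`, the
reductions of the two values being different, such that no pole of `u` reduces to the image of a
place of `W`.  Then `r_* X ≤ r_* Z`, hence `r_* X = r_* Z` if `deg X = deg Z`.

Instances (level `N = p·m'`, `α : F_p → F_N`): type `0`: `g = j_p`, `Z = α^*(0)`, `W = α^*(∞)`,
`m = p`, `X = α^*(x)`; type `∞`: `g = j`, `Z = α^*(∞)`, `W = α^*(0)`, `m = p`; `u = j_p / j^p`.
-/

set_option autoImplicit false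

namespace Fermat.Agent.S15P.G2.SepCount85

open AlgebraicCurve Fermat.Agent.S24.Counting

variable {K k F Fb : Type*} [Field K] [Field k] [Field F] [Field Fb] [Algebra K F] [Algebra k Fb]

/-! ### Orders -/

theorem ord_sub_const_of_neg (v : Place K F) {y : F} (hy : v.ord y < 0) (c : K) :
    v.ord (y - algebraMap K F c) = v.ord y := by
  have hy0 : y ≠ 0 := fun h => by rw [h, Place.ord_zero] at hy; exact lt_irrefl _ hy
  rcases eq_or_ne c 0 with rfl | hc
  · rw [map_zero, sub_zero]
  · have hc' : algebraMap K F c ≠ 0 := (map_ne_zero _).mpr hc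
    rw [sub_eq_add_neg]
    refine (isRawVal_ord v).map_add_of_lt hy0 (neg_ne_zero.mpr hc') ?_
    rw [(isRawVal_ord v).map_neg hc', (isRawVal_ord v).map_algebraMap c hc]
    exact hy

theorem ord_sub_const_nonneg (v : Place K F) {y : F} (hy : 0 ≤ v.ord y) (c : K) :
    0 ≤ v.ord (y - algebraMap K F c) := by
  rcases eq_or_ne (y - algebraMap K F c) 0 with h | hne
  · rw [h, Place.ord_zero]
  · rw [ord_nonneg_iff v hne]
    refine sub_mem ?_ (v.algebraMap_mem' c)
    rcases eq_or_ne y 0 with rfl | hy0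
    · exact zero_mem _
    · exact (ord_nonneg_iff v hy0).mp hy

theorem min_ord_sub_const (v : Place K F) (y : F) (c : K) :
    min (v.ord (y - algebraMap K F c)) 0 = min (v.ord y) 0 := by
  rcases lt_or_ge (v.ord y) 0 with h | h
  · rw [ord_sub_const_of_neg v h]
  · rw [min_eq_right h, min_eq_right (ord_sub_const_nonneg v h c)]

/-- Two functions of positive order at a place do not differ by a nonzero constant. -/
theorem false_of_ord_pos (Q : Place K F) {f : F} {c : K} (hc : c ≠ 0) (h1 : 0 < Q.ord f)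
    (h2 : 0 < Q.ord (f - algebraMap K F c)) : False := by
  have hf0 : f ≠ 0 := fun h => by rw [h, Place.ord_zero] at h1; exact lt_irrefl _ h1
  have hc' : algebraMap K F c ≠ 0 := (map_ne_zero _).mpr hc
  have h := (isRawVal_ord Q).map_add_of_lt (neg_ne_zero.mpr hc') hf0
    (by rw [(isRawVal_ord Q).map_neg hc', (isRawVal_ord Q).map_algebraMap c hc]; exact h1)
  rw [(isRawVal_ord Q).map_neg hc', (isRawVal_ord Q).map_algebraMap c hc, neg_add_eq_sub] at h
  omega

/-- `ord_P (g⁻¹ - a⁻¹) = ord_P (g - a)` at a zero of `g - a`, `a ≠ 0`. -/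
theorem ord_inv_sub_inv (v : Place K F) {g : F} {a : K} (ha : a ≠ 0)
    (h : 0 < v.ord (g - algebraMap K F a)) :
    v.ord (g⁻¹ - algebraMap K F a⁻¹) = v.ord (g - algebraMap K F a) := by
  have ha' : algebraMap K F a ≠ 0 := (map_ne_zero _).mpr ha
  have hga : g - algebraMap K F a ≠ 0 := fun h0 => by
    rw [h0, Place.ord_zero] at h; exact lt_irrefl _ h
  have hg0 : g ≠ 0 := by
    rintro rfl
    rw [zero_sub, (isRawVal_ord v).map_neg ha', (isRawVal_ord v).map_algebraMap a ha] at h
    exact lt_irrefl _ h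
  have hgord : v.ord g = 0 := by
    have h3 := (isRawVal_ord v).map_add_of_lt ha' hga
      (by rw [(isRawVal_ord v).map_algebraMap a ha]; exact h)
    rw [add_sub_cancel, (isRawVal_ord v).map_algebraMap a ha] at h3
    exact h3
  have hEq : g⁻¹ - algebraMap K F a⁻¹ = -(g - algebraMap K F a) * (g⁻¹ * algebraMap K F a⁻¹) := by
    rw [map_inv₀]
    field_simp
    ring
  rw [hEq, (isRawVal_ord v).map_mul _ _ (neg_ne_zero.mpr hga)
    (mul_ne_zero (inv_ne_zero hg0) ((map_ne_zero _).mpr (inv_ne_zero ha))),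
    (isRawVal_ord v).map_neg hga,
    (isRawVal_ord v).map_mul _ _ (inv_ne_zero hg0) ((map_ne_zero _).mpr (inv_ne_zero ha)),
    (isRawVal_ord v).map_inv hg0, hgord, (isRawVal_ord v).map_algebraMap _ (inv_ne_zero ha)]
  ring

/-! ### Push-forward of divisors along a map of places -/

section MapDomain

variable {α β : Type*}

theorem mapDomain_apply_eq_sum [DecidableEq β] (r : α → β) (D : α →₀ ℤ) (Q : β) :
    Finsupp.mapDomain r D Q = ∑ P ∈ D.support, if r P = Q then D P else 0 := by
  rw [Finsupp.mapDomain, Finsupp.sum_apply]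
  simp only [Finsupp.sum, Finsupp.single_apply]

theorem mapDomain_nonneg_of (r : α → β) (D : α →₀ ℤ) (Q : β) (hD : ∀ P, r P = Q → 0 ≤ D P) :
    0 ≤ Finsupp.mapDomain r D Q := by
  classical
  rw [mapDomain_apply_eq_sum]
  refine Finset.sum_nonneg fun P _ => ?_
  split_ifs with h
  · exact hD P h
  · exact le_rfl

theorem mapDomain_mono (r : α → β) {D D' : α →₀ ℤ} (h : ∀ P, D P ≤ D' P) (Q : β) :
    Finsupp.mapDomain r D Q ≤ Finsupp.mapDomain r D' Q := by
  have h1 := mapDomain_nonneg_of r (D' - D) Q (fun P _ => by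
    rw [Finsupp.sub_apply]; exact sub_nonneg.mpr (h P))
  rw [Finsupp.mapDomain_sub, Finsupp.sub_apply] at h1
  exact sub_nonneg.mp h1

theorem mapDomain_eq_zero_of (r : α → β) (D : α →₀ ℤ) (Q : β) (h : ∀ P, r P = Q → D P = 0) :
    Finsupp.mapDomain r D Q = 0 := by
  classical
  rw [mapDomain_apply_eq_sum]
  refine Finset.sum_eq_zero fun P _ => ?_
  split_ifs with hP
  · exact h P hP
  · rfl

theorem mapDomain_pos_of (r : α → β) (D : α →₀ ℤ) (Q : β) (hD : ∀ P, r P = Q → 0 ≤ D P)
    (P : α) (hP : r P = Q) (hpos : 0 < D P) : 0 < Finsupp.mapDomain r D Q := by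
  classical
  rw [mapDomain_apply_eq_sum]
  have hmem : P ∈ D.support := Finsupp.mem_support_iff.mpr (ne_of_gt hpos)
  refine lt_of_lt_of_le ?_ (Finset.single_le_sum (f := fun P => if r P = Q then D P else 0)
    (fun P' _ => ?_) hmem)
  · show 0 < if r P = Q then D P else 0
    rw [if_pos hP]; exact hpos
  · show 0 ≤ if r P' = Q then D P' else 0
    split_ifs with h
    · exact hD P' h
    · exact le_rfl

theorem exists_of_mapDomain_ne_zero (r : α → β) (D : α →₀ ℤ) (Q : β)
    (h : Finsupp.mapDomain r D Q ≠ 0) : ∃ P, r P = Q ∧ D P ≠ 0 := by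
  by_contra hcon
  push Not at hcon
  exact h (mapDomain_eq_zero_of r D Q hcon)

end MapDomain

/-! ### Degrees -/

theorem degree_mapDomain (r : Place K F → Place k Fb) (hdeg : ∀ P, (r P).deg = P.deg)
    (D : Divisor K F) : Divisor.degree (Finsupp.mapDomain r D) = Divisor.degree D := by
  induction D using Finsupp.induction with
  | zero => simp
  | single_add P n D _ _ ih =>
    rw [Finsupp.mapDomain_add, map_add, map_add, ih, Finsupp.mapDomain_single,
      Divisor.degree_single, Divisor.degree_single, hdeg]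

theorem eq_zero_of_degree_eq_zero (hone : ∀ Q : Place K F, Q.deg = 1) (E : Divisor K F)
    (hE : ∀ Q, 0 ≤ E Q) (h0 : Divisor.degree E = 0) : E = 0 := by
  have hdeg : Divisor.degree E = ∑ Q ∈ E.support, E Q := by
    rw [Divisor.degree, Finsupp.liftAddHom_apply, Finsupp.sum]
    refine Finset.sum_congr rfl fun Q _ => ?_
    rw [AddMonoidHom.mulRight_apply, hone Q, Nat.cast_one, mul_one]
  rw [hdeg] at h0
  have h1 := (Finset.sum_eq_zero_iff_of_nonneg (fun Q _ => hE Q)).mp h0
  ext Q
  rw [Finsupp.zero_apply]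
  by_contra hQ
  exact hQ (h1 Q (Finsupp.mem_support_iff.mpr hQ))

/-! ### The clause and the main theorem -/

/-- The Prelude clause `r_* div(y) = div(ȳ)` for one pair. -/
def Clause (r : Place K F → Place k Fb) (y : F) (yb : Fb) : Prop :=
  ∀ D : Divisor K F, (∀ P, D P = P.ord y) → ∀ Q, Finsupp.mapDomain r D Q = Q.ord yb

/-- Two functions with the same reduction have divisors with the same push-forward. -/
theorem mapDomain_eq_of_clause (hfin : ∀ y : F, {P : Place K F | P.ord y ≠ 0}.Finite)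
    (r : Place K F → Place k Fb) {y₁ y₂ : F} {yb : Fb} (h1 : Clause r y₁ yb) (h2 : Clause r y₂ yb) :
    Finsupp.mapDomain r (Finsupp.ofSupportFinite (fun P => P.ord y₁) (hfin y₁)) =
      Finsupp.mapDomain r (Finsupp.ofSupportFinite (fun P => P.ord y₂) (hfin y₂)) := by
  ext Q
  rw [h1 _ (fun P => rfl) Q, h2 _ (fun P => rfl) Q]

/-- **Separation**: a place with `u ≡ γ` and a place with `u ≡ δ` (`γ̄ ≠ δ̄`) have the same
reduction only if a pole of `u` reduces to the same place. -/
theorem exists_pole_of_eq (hfin : ∀ y : F, {P : Place K F | P.ord y ≠ 0}.Finite)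
    (r : Place K F → Place k Fb) (u : F) (γ δ : K) (ub : Fb) (γb δb : k) (hγδ : γb ≠ δb)
    (h3 : Clause r (u - algebraMap K F γ) (ub - algebraMap k Fb γb))
    (h4 : Clause r (u - algebraMap K F δ) (ub - algebraMap k Fb δb))
    (P P' : Place K F) (hP : 0 < P.ord (u - algebraMap K F γ))
    (hP' : 0 < P'.ord (u - algebraMap K F δ)) (hPP' : r P = r P') :
    ∃ P'' : Place K F, r P'' = r P ∧ P''.ord u < 0 := by
  by_contra hcon
  push Not at hcon
  have hA : 0 < (r P).ord (ub - algebraMap k Fb γb) := by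
    rw [← h3 (Finsupp.ofSupportFinite (fun P => P.ord (u - algebraMap K F γ)) (hfin _))
      (fun P => rfl) (r P)]
    exact mapDomain_pos_of r _ (r P) (fun P'' h'' => ord_sub_const_nonneg P'' (hcon P'' h'') γ)
      P rfl hP
  have hB : 0 < (r P).ord (ub - algebraMap k Fb δb) := by
    rw [← h4 (Finsupp.ofSupportFinite (fun P => P.ord (u - algebraMap K F δ)) (hfin _))
      (fun P => rfl) (r P)]
    exact mapDomain_pos_of r _ (r P) (fun P'' h'' => ord_sub_const_nonneg P'' (hcon P'' h'') δ)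
      P' hPP'.symm hP'
  have hc : δb - γb ≠ 0 := sub_ne_zero.mpr (Ne.symm hγδ)
  refine false_of_ord_pos (r P) hc hA ?_
  have : ub - algebraMap k Fb γb - algebraMap k Fb (δb - γb) = ub - algebraMap k Fb δb := by
    rw [map_sub]; ring
  rw [this]
  exact hB

/-- **Separation + count.** -/
theorem mapDomain_eq_of_sep (hfin : ∀ y : F, {P : Place K F | P.ord y ≠ 0}.Finite)
    (r : Place K F → Place k Fb) (hdeg : ∀ P, (r P).deg = P.deg)
    (hone : ∀ Q : Place k Fb, Q.deg = 1)
    (g : F) (c : K) (gb : Fb)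
    (h1 : Clause r g⁻¹ gb) (h2 : Clause r (g⁻¹ - algebraMap K F c) gb)
    (u : F) (γ δ : K) (ub : Fb) (γb δb : k) (hγδ : γb ≠ δb)
    (h3 : Clause r (u - algebraMap K F γ) (ub - algebraMap k Fb γb))
    (h4 : Clause r (u - algebraMap K F δ) (ub - algebraMap k Fb δb))
    (X Z W : Divisor K F) (m : ℕ) (hX : ∀ P, 0 ≤ X P) (hZ : ∀ P, 0 ≤ Z P) (hW : ∀ P, 0 ≤ W P)
    (hpole : ∀ P, max (-(P.ord g)) 0 = Z P + m * W P)
    (hXg : ∀ P, X P ≤ max (P.ord (g⁻¹ - algebraMap K F c)) 0)
    (hXu : ∀ P, 0 < X P → 0 < P.ord (u - algebraMap K F γ))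
    (hWu : ∀ P, 0 < W P → 0 < P.ord (u - algebraMap K F δ))
    (hsep : ∀ P P', P.ord u < 0 → 0 < W P' → r P ≠ r P')
    (hdegXZ : Divisor.degree X = Divisor.degree Z) :
    Finsupp.mapDomain r X = Finsupp.mapDomain r Z := by
  classical
  -- the two divisors with the same push-forward
  set D₁ : Divisor K F := Finsupp.ofSupportFinite (fun P => P.ord g⁻¹) (hfin _) with hD₁
  set D₂ : Divisor K F :=
    Finsupp.ofSupportFinite (fun P => P.ord (g⁻¹ - algebraMap K F c)) (hfin _) with hD₂
  have h12 : Finsupp.mapDomain r D₁ = Finsupp.mapDomain r D₂ := mapDomain_eq_of_clause hfin r h1 h2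
  have hD₁a : ∀ P, D₁ P = P.ord g⁻¹ := fun P => rfl
  have hD₂a : ∀ P, D₂ P = P.ord (g⁻¹ - algebraMap K F c) := fun P => rfl
  -- the positive part of `D₂`
  have hfinE : {P : Place K F | max (P.ord (g⁻¹ - algebraMap K F c)) 0 ≠ 0}.Finite := by
    refine (hfin (g⁻¹ - algebraMap K F c)).subset fun P hP => ?_
    simp only [Set.mem_ofPred_eq] at hP ⊢
    intro h0
    rw [h0] at hP
    exact hP (max_self 0)
  set E : Divisor K F :=
    Finsupp.ofSupportFinite (fun P => max (P.ord (g⁻¹ - algebraMap K F c)) 0) hfinE with hE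
  have hEa : ∀ P, E P = max (P.ord (g⁻¹ - algebraMap K F c)) 0 := fun P => rfl
  have hkey : D₁ - D₂ = (Z + m • W) - E := by
    ext P
    rw [Finsupp.sub_apply, Finsupp.sub_apply, Finsupp.add_apply, Finsupp.smul_apply, hD₁a, hD₂a,
      hEa, nsmul_eq_mul, ← hpole P, ← Place.ord_inv]
    have hmin := min_ord_sub_const P g⁻¹ c
    rcases le_total (P.ord g⁻¹) 0 with h | h <;>
      rcases le_total (P.ord (g⁻¹ - algebraMap K F c)) 0 with h' | h' <;>
      simp only [max_eq_left, max_eq_right, min_eq_left, min_eq_right, h, h'] at hmin ⊢ <;> omega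
  have hpush : Finsupp.mapDomain r (Z + m • W) = Finsupp.mapDomain r E := by
    have h0 : Finsupp.mapDomain r (D₁ - D₂) = 0 := by
      rw [Finsupp.mapDomain_sub, h12, sub_self]
    rw [hkey, Finsupp.mapDomain_sub, sub_eq_zero] at h0
    exact h0
  -- the inequality
  have hle : ∀ Q, Finsupp.mapDomain r X Q ≤ Finsupp.mapDomain r Z Q := by
    intro Q
    rcases eq_or_ne (Finsupp.mapDomain r X Q) 0 with h0 | hne
    · rw [h0]
      exact mapDomain_nonneg_of r Z Q fun P _ => hZ P
    · obtain ⟨P, hPQ, hXP⟩ := exists_of_mapDomain_ne_zero r X Q hne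
      have hXP' : 0 < X P := lt_of_le_of_ne (hX P) (Ne.symm hXP)
      have hW0 : Finsupp.mapDomain r W Q = 0 := by
        refine mapDomain_eq_zero_of r W Q fun P' hP'Q => ?_
        by_contra hWP'
        have hWP'' : 0 < W P' := lt_of_le_of_ne (hW P') (Ne.symm hWP')
        obtain ⟨P'', hP''1, hP''2⟩ := exists_pole_of_eq hfin r u γ δ ub γb δb hγδ h3 h4 P P'
          (hXu P hXP') (hWu P' hWP'') (hPQ.trans hP'Q.symm)
        exact hsep P'' P' hP''2 hWP'' (hP''1.trans (hPQ.trans hP'Q.symm))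
      have h1' : Finsupp.mapDomain r X Q ≤ Finsupp.mapDomain r E Q :=
        mapDomain_mono r (fun P => by rw [hEa]; exact hXg P) Q
      rw [← hpush, Finsupp.mapDomain_add, Finsupp.add_apply, Finsupp.mapDomain_smul,
        Finsupp.smul_apply, hW0, smul_zero, add_zero] at h1'
      exact h1'
  -- the count
  have hzero : Finsupp.mapDomain r Z - Finsupp.mapDomain r X = 0 := by
    refine eq_zero_of_degree_eq_zero hone _ (fun Q => ?_) ?_
    · rw [Finsupp.sub_apply]; exact sub_nonneg.mpr (hle Q)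
    · rw [map_sub, degree_mapDomain r hdeg, degree_mapDomain r hdeg, hdegXZ, sub_self]
  exact (sub_eq_zero.mp hzero).symm

end Fermat.Agent.S15P.G2.SepCount85
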