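import Mathlib
import Fermat.Agent.S15P.G2.Coll85
import Fermat.Agent.S15P.G2.SepCount85
import Fermat.Agent.S15P.Cusp45.Level
import Fermat.Agent.Lib.Red.SpecUnit
import Fermat.Agent.Lib.FF.CharP.ModLInst

/-!
# S15 / (M*) at `ℓ`: a place of type `∞` has the same reduction as the cusp `∞`

Level `p` prime, `ℓ ≠ p` (good pair), `A` over `ℓ`, ANY place reduction `r`.  If `x` is a place
of `X₀(p)` over the pair `(b, a)` (`j(x) = b`, `j_p(x) = a`) with `b ∉ A` and `|a / b^p|_A = 1`,
then `r x = r (cuspInf p)`  (`red_eq_cuspInf`; `redInf` is the literal `RedInf` of the (M*)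
assembly).

Proof = `SepCount85.mapDomain_eq_of_sep` with `g = j`, `c = 1/b`, `u = j_p / j^p`, `γ = a / b^p`,
`δ = 0`, `X = (x)`, `Z = (∞)`, `W = (0)`, `m = p`; the four clauses are main's
`SpecUnit.mapDomain_eq_ord_redF` (the Prelude clause on the Gauss valuation ring), the
separation input is `ZeroJ85.ord_Jbar_pos` + main's `cusp_of_cusp`, the cusp data are
`Cusp45.cuspOrders`, `Cusp45.cuspUnique`.
-/

set_option autoImplicit false
set_option linter.unusedSectionVars false
set_option linter.style.haveILetI false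

namespace Fermat.Agent.S15P.G2.RedInf85

open ModularCurve AlgebraicCurve Fermat.Agent.S28 Fermat.Agent.S24 Fermat.Agent.Lib.Red
open Fermat.Agent.ESJ Fermat.Agent.Lib.FF.ModL Fermat.Agent.CAR.Ell
open Fermat.Agent.CAR.Ell.FrickeRed Fermat.Agent.S24.Counting
open Fermat.Agent.S15P.G2.SepCount85 Fermat.Agent.S15P.G2.Coll85 Fermat.Agent.S15P.Cusp45
open scoped IntermediateField

noncomputable section

/-! ### Values of quotients -/

section Val

variable {K F : Type*} [Field K] [Field F] [Algebra K F]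

/-- If `f ≡ a` and `g ≡ b ≠ 0` at `P`, then `f / g^n ≡ a / b^n`. -/
theorem val_div_sub_lt_one (P : Place K F) {f g : F} {a b : K} (hb : b ≠ 0)
    (hf : P.toValuationSubring.valuation (f - algebraMap K F a) < 1)
    (hg : P.toValuationSubring.valuation (g - algebraMap K F b) < 1) (n : ℕ) :
    P.toValuationSubring.valuation (f / g ^ n - algebraMap K F (a / b ^ n)) < 1 := by
  have hgv : P.toValuationSubring.valuation g = 1 := by
    have h1 : g = (g - algebraMap K F b) + algebraMap K F b := by ring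
    rw [h1, Valuation.map_add_eq_of_lt_right _ (by rw [val_const_eq_one P hb]; exact hg),
      val_const_eq_one P hb]
  have hpow : ∀ m : ℕ, P.toValuationSubring.valuation (g ^ m - algebraMap K F (b ^ m)) < 1 := by
    intro m
    induction m with
    | zero => simp
    | succ m ih =>
      have hEq : g ^ (m + 1) - algebraMap K F (b ^ (m + 1)) =
          (g ^ m - algebraMap K F (b ^ m)) * g + algebraMap K F (b ^ m) * (g - algebraMap K F b) := by
        rw [pow_succ, pow_succ, map_mul]; ring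
      rw [hEq]
      refine Valuation.map_add_lt _ ?_ ?_
      · rw [map_mul, hgv, mul_one]; exact ih
      · rw [map_mul, mul_comm]
        exact lt_of_le_of_lt (by simpa using mul_le_mul' (le_refl
          (P.toValuationSubring.valuation (g - algebraMap K F b))) (val_const_le_one P (b ^ m))) hg
  have hg0 : g ≠ 0 := by
    rintro rfl
    rw [map_zero] at hgv
    exact zero_ne_one hgv
  have hbn : algebraMap K F (b ^ n) ≠ 0 := (map_ne_zero _).mpr (pow_ne_zero n hb)
  have hEq : f / g ^ n - algebraMap K F (a / b ^ n) =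
      ((f - algebraMap K F a) * algebraMap K F (b ^ n) -
        algebraMap K F a * (g ^ n - algebraMap K F (b ^ n))) * (g ^ n * algebraMap K F (b ^ n))⁻¹ := by
    have hgn : g ^ n ≠ 0 := pow_ne_zero n hg0
    rw [map_div₀]
    field_simp
    ring
  have hden : P.toValuationSubring.valuation (g ^ n * algebraMap K F (b ^ n)) = 1 := by
    rw [Valuation.map_mul, Valuation.map_pow, hgv, one_pow, one_mul,
      val_const_eq_one P (pow_ne_zero n hb)]
  rw [hEq, Valuation.map_mul, map_inv₀, hden, inv_one, mul_one]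
  refine Valuation.map_sub_lt _ ?_ ?_
  · rw [Valuation.map_mul, val_const_eq_one P (pow_ne_zero n hb), mul_one]; exact hf
  · rw [Valuation.map_mul, mul_comm]
    exact lt_of_le_of_lt (by simpa using mul_le_mul' (le_refl
      (P.toValuationSubring.valuation (g ^ n - algebraMap K F (b ^ n)))) (val_const_le_one P a))
      (hpow n)

end Val

/-! ### Integral functions and their reductions -/

section Red

set_option synthInstance.maxHeartbeats 400000
set_option maxHeartbeats 1000000

variable {A : ValuationSubring KQ} {k : Type} [Field k] {π : A →+* k} {N : ℕ} [NeZero N]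

/-- `f` lies in the Gauss valuation ring and reduces to `fb`. -/
def Red (hπ : ∀ a : A, ¬ IsUnit a → π a = 0) (hNk : (N : k) ≠ 0)
    (f : ↥(laurentBaseChange KQ (modularFunctionFieldFull N)))
    (fb : ↥(modularFunctionFieldFullC k N)) : Prop :=
  ∃ y : Ow A π N hNk, (y : ↥(laurentBaseChange KQ (modularFunctionFieldFull N))) = f ∧
    redF A π N hπ hNk y = fb

variable {hπ : ∀ a : A, ¬ IsUnit a → π a = 0} {hNk : (N : k) ≠ 0}
  {f g : ↥(laurentBaseChange KQ (modularFunctionFieldFull N))}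
  {fb gb : ↥(modularFunctionFieldFullC k N)}

theorem Red.mul (h₁ : Red hπ hNk f fb) (h₂ : Red hπ hNk g gb) : Red hπ hNk (f * g) (fb * gb) := by
  obtain ⟨y₁, rfl, rfl⟩ := h₁
  obtain ⟨y₂, rfl, rfl⟩ := h₂
  exact ⟨y₁ * y₂, MulMemClass.coe_mul _ y₁ y₂, map_mul (redF A π N hπ hNk) y₁ y₂⟩

theorem Red.sub (h₁ : Red hπ hNk f fb) (h₂ : Red hπ hNk g gb) : Red hπ hNk (f - g) (fb - gb) := by
  obtain ⟨y₁, rfl, rfl⟩ := h₁
  obtain ⟨y₂, rfl, rfl⟩ := h₂
  exact ⟨y₁ - y₂, AddSubgroupClass.coe_sub y₁ y₂, map_sub (redF A π N hπ hNk) y₁ y₂⟩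

theorem Red.one : Red hπ hNk (1 : ↥(laurentBaseChange KQ (modularFunctionFieldFull N))) 1 :=
  ⟨1, OneMemClass.coe_one _, map_one (redF A π N hπ hNk)⟩

theorem Red.pow (h : Red hπ hNk f fb) (n : ℕ) : Red hπ hNk (f ^ n) (fb ^ n) := by
  induction n with
  | zero => rw [pow_zero, pow_zero]; exact Red.one
  | succ n ih => rw [pow_succ, pow_succ]; exact ih.mul h

theorem Red.inv (h : Red hπ hNk f fb) (hfb : fb ≠ 0) : Red hπ hNk f⁻¹ fb⁻¹ := by
  obtain ⟨y, rfl, rfl⟩ := h
  have hu : IsUnit y := by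
    by_contra hnu
    exact hfb ((redF_eq_zero_iff hπ hNk _).mpr hnu)
  obtain ⟨w, hw⟩ := hu.exists_right_inv
  have hw' : (y : ↥(laurentBaseChange KQ (modularFunctionFieldFull N))) *
      (w : ↥(laurentBaseChange KQ (modularFunctionFieldFull N))) = 1 := by
    rw [← MulMemClass.coe_mul _ y w, hw]
    exact OneMemClass.coe_one _
  refine ⟨w, (eq_inv_of_mul_eq_one_right hw'), ?_⟩
  have h1 := congrArg (redF A π N hπ hNk) hw
  rw [map_mul, map_one] at h1
  exact eq_inv_of_mul_eq_one_right h1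

theorem Red.const (c : A) :
    Red hπ hNk (algebraMap KQ ↥(laurentBaseChange KQ (modularFunctionFieldFull N)) (c : KQ))
      (algebraMap k ↥(modularFunctionFieldFullC k N) (π c)) :=
  ⟨⟨_, (algebraMap_mem_Ow_iff hπ hNk (c : KQ)).mpr c.2⟩, rfl, redF_algebraMap hπ hNk c⟩

theorem Red.jd (d : Dv N) : Red hπ hNk (jFormal N d) (Jdk k N d.2) :=
  ⟨⟨⟨incl A (TD.Jd A d.1), incl_Jd_mem A N d.2⟩, incl_mem_gaussRing A π _⟩,
    (jFormal_eq A N d).symm, redF_Jd hπ hNk d.2⟩

/-- The Prelude clause for an integral function with nonzero reduction. -/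
theorem Red.clause
    {r : Place KQ ↥(laurentBaseChange KQ (modularFunctionFieldFull N)) →
      Place k ↥(modularFunctionFieldFullC k N)}
    (hr : IsPlaceReductionAlong A π N r) (h : Red hπ hNk f fb) (hfb : fb ≠ 0) :
    Clause r f fb := by
  obtain ⟨y, rfl, rfl⟩ := h
  haveI := Fermat.Agent.S24.finiteDimensional_jBar N
  intro D hD Q
  refine Fermat.Agent.Lib.Red.SpecUnit.mapDomain_eq_ord_redF hπ hNk (fun z _ => ?_) r hr
    y hfb D hD Q
  exact ⟨Finsupp.ofSupportFinite (fun P => P.ord z)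
    (Fermat.Agent.Lib.FF.CharP.finite_ord_ne_zero (jBar N) z), fun P => rfl⟩

end Red

/-! ### Type `∞` at prime level -/

variable (A : ValuationSubring (AlgebraicClosure ℚ))

set_option synthInstance.maxHeartbeats 400000 in
set_option maxHeartbeats 1600000 in
/-- **A place of type `∞` reduces to the reduction of the cusp `∞`.** -/
theorem red_eq_cuspInf {p ℓ : ℕ} [NeZero p] (hp : p.Prime) (hℓ : ℓ.Prime) (hℓp : ℓ ≠ p)
    (hgood : 5 ≤ ℓ ∨ (ℓ = 3 ∧ 2 ∣ p) ∨ (ℓ = 2 ∧ 3 ∣ p)) (hA : A.LiesOverPrime ℓ)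
    {r : Place KQ (FN p) → Place (IsLocalRing.ResidueField A)
      ↥(modularFunctionFieldFullC (IsLocalRing.ResidueField A) p)}
    (hr : IsPlaceReductionAlong A (IsLocalRing.residue A) p r)
    (b a : KQ) (hb : b ∉ A) (hu : A.valuation (a / b ^ p) = 1) (x : Place KQ (FN p))
    (hxb : 0 < x.ord (jFormal p ⟨1, one_dvd p⟩ - algebraMap KQ (FN p) b))
    (hxa : 0 < x.ord (jFormal p ⟨p, dvd_rfl⟩ - algebraMap KQ (FN p) a)) :
    r x = r (cuspInf p) := by
  classical
  haveI : IsAlgClosed (IsLocalRing.ResidueField A) :=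
    Fermat.Agent.Lib.FF.CharP.isAlgClosed_residueField A
  have hℓnp : ¬ ℓ ∣ p := fun hd => hℓp ((Nat.prime_dvd_prime_iff_eq hℓ hp).mp hd)
  have hNk : (p : IsLocalRing.ResidueField A) ≠ 0 := natCast_residue_ne_zero' A hℓ hA p hℓnp
  have hπ := residue_eq_zero_of_not_isUnit' A
  haveI := Fermat.Agent.S24.finiteDimensional_jBar p
  have hfin : ∀ y : FN p, {P : Place KQ (FN p) | P.ord y ≠ 0}.Finite := fun y =>
    Fermat.Agent.Lib.FF.CharP.finite_ord_ne_zero (jBar p) y
  have hp2 : (2 : ℤ) ≤ p := by exact_mod_cast hp.two_le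
  -- the functions
  have hJ0 : jFormal p ⟨1, one_dvd p⟩ ≠ 0 := Fermat.Agent.S15P.Cusp45.jFormal_ne_zero p _
  have hJp0 : jFormal p ⟨p, dvd_rfl⟩ ≠ 0 := Fermat.Agent.S15P.Cusp45.jFormal_ne_zero p _
  have RJ : Red hπ hNk (jFormal p ⟨1, one_dvd p⟩) (Jdk (IsLocalRing.ResidueField A) p (one_dvd p)) :=
    Red.jd ⟨1, one_dvd p⟩
  have RJp : Red hπ hNk (jFormal p ⟨p, dvd_rfl⟩)
      (Jdk (IsLocalRing.ResidueField A) p (dvd_refl p)) := Red.jd ⟨p, dvd_rfl⟩
  have hJb0 : Jdk (IsLocalRing.ResidueField A) p (one_dvd p) ≠ 0 := fun h0 =>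
    Fermat.Agent.S28.ValInd.Jd_ne_zero (K := IsLocalRing.ResidueField A) 1 one_ne_zero
      (congrArg Subtype.val h0)
  have hJpb0 : Jdk (IsLocalRing.ResidueField A) p (dvd_refl p) ≠ 0 := fun h0 =>
    Fermat.Agent.S28.ValInd.Jd_ne_zero (K := IsLocalRing.ResidueField A) p hp.ne_zero
      (congrArg Subtype.val h0)
  -- the constants
  have hb0 : b ≠ 0 := fun h => hb (h ▸ A.zero_mem)
  have hbinv : b⁻¹ ∈ A := (A.mem_or_inv_mem b).resolve_left hb
  have hbnu : ¬ IsUnit (⟨b⁻¹, hbinv⟩ : A) := by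
    intro hunit
    obtain ⟨w, hw⟩ := hunit.exists_right_inv
    have hw' : b⁻¹ * (w : KQ) = 1 := congrArg Subtype.val hw
    have : (w : KQ) = b := by
      field_simp at hw'
      exact hw'
    exact hb (this ▸ w.2)
  have hγA : a / b ^ p ∈ A := (A.valuation_le_one_iff _).mp hu.le
  have hγu : IsUnit (⟨a / b ^ p, hγA⟩ : A) := (A.valuation_eq_one_iff ⟨_, hγA⟩).mpr hu
  have hγb : IsLocalRing.residue A ⟨a / b ^ p, hγA⟩ ≠ 0 := fun h0 =>
    (IsLocalRing.residue_eq_zero_iff _).mp h0 |> fun hm =>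
      (IsLocalRing.mem_maximalIdeal _).mp hm hγu
  have hγ0 : a / b ^ p ≠ 0 := by
    intro h0
    rw [h0, map_zero] at hu
    exact zero_ne_one hu
  -- reductions
  have RJinv := RJ.inv hJb0
  have Rc : Red hπ hNk (algebraMap KQ ↥(laurentBaseChange KQ (modularFunctionFieldFull p)) b⁻¹)
      (0 : ↥(modularFunctionFieldFullC (IsLocalRing.ResidueField A) p)) := by
    have h := Red.const (hπ := hπ) (hNk := hNk) (⟨b⁻¹, hbinv⟩ : A)
    rwa [hπ _ hbnu, map_zero] at h
  have R2 : Red hπ hNk ((jFormal p ⟨1, one_dvd p⟩)⁻¹ -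
      algebraMap KQ ↥(laurentBaseChange KQ (modularFunctionFieldFull p)) b⁻¹)
      (Jdk (IsLocalRing.ResidueField A) p (one_dvd p))⁻¹ := by
    have h := RJinv.sub Rc
    rwa [sub_zero] at h
  have Ru : Red hπ hNk (jFormal p ⟨p, dvd_rfl⟩ / jFormal p ⟨1, one_dvd p⟩ ^ p)
      (Jdk (IsLocalRing.ResidueField A) p (dvd_refl p) /
        Jdk (IsLocalRing.ResidueField A) p (one_dvd p) ^ p) := by
    have h := RJp.mul (RJinv.pow p)
    rwa [inv_pow, ← div_eq_mul_inv, inv_pow, ← div_eq_mul_inv] at h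
  have hub0 : Jdk (IsLocalRing.ResidueField A) p (dvd_refl p) /
      Jdk (IsLocalRing.ResidueField A) p (one_dvd p) ^ p ≠ 0 :=
    div_ne_zero hJpb0 (pow_ne_zero p hJb0)
  -- the cusps
  obtain ⟨hIJ, hIJp, hZJ, hZJp⟩ := cuspOrders p hp
  have hU := cuspUnique p hp
  have hne : cuspInf p ≠ cuspZero p := cuspInf_ne_cuspZero p hp
  have hordu : ∀ P : Place KQ (FN p),
      P.ord (jFormal p ⟨p, dvd_rfl⟩ / jFormal p ⟨1, one_dvd p⟩ ^ p) =
        P.ord (jFormal p ⟨p, dvd_rfl⟩) - p * P.ord (jFormal p ⟨1, one_dvd p⟩) := fun P => by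
    rw [(isRawVal_ord P).map_div hJp0 (pow_ne_zero p hJ0), (isRawVal_ord P).map_pow hJ0]
  have hordu0 : 0 < (cuspZero p).ord (jFormal p ⟨p, dvd_rfl⟩ / jFormal p ⟨1, one_dvd p⟩ ^ p) := by
    rw [hordu]
    show 0 < (cuspZero p).ord (jd p p dvd_rfl) - p * (cuspZero p).ord (jd p 1 (one_dvd p))
    rw [hZJ, hZJp]
    nlinarith
  -- separation input
  have hsep0 : ∀ P : Place KQ (FN p),
      P.ord (jFormal p ⟨p, dvd_rfl⟩ / jFormal p ⟨1, one_dvd p⟩ ^ p) < 0 →
        r P ≠ r (cuspZero p) := by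
    intro P hPu
    have hPJ : 0 < P.ord (jFormal p ⟨1, one_dvd p⟩) := by
      by_contra hcon
      push Not at hcon
      rcases lt_or_eq_of_le hcon with hneg | hzero
      · rcases ((hU P).2 hneg).1 with rfl | rfl
        · rw [hordu] at hPu
          have e1 : (cuspInf p).ord (jFormal p ⟨p, dvd_rfl⟩) = -(p : ℤ) := hIJp
          have e2 : (cuspInf p).ord (jFormal p ⟨1, one_dvd p⟩) = -1 := hIJ
          rw [e1, e2] at hPu
          nlinarith
        · exact absurd hordu0 (not_lt.mpr hPu.le)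
      · have hnp : ¬ P.ord (jFormal p ⟨p, dvd_rfl⟩) < 0 := fun h => by
          have := ((hU P).1).mp h
          have e : P.ord (jd p 1 (one_dvd p)) = 0 := hzero
          omega
        rw [hordu, hzero, mul_zero, sub_zero] at hPu
        exact hnp hPu
    have h1 := Fermat.Agent.S15P.G2.ZeroJ85.ord_Jbar_pos A p ℓ hℓ hℓnp hA hr P hPJ
    have h2 := cusp_of_cusp A p ℓ hℓ hℓnp hgood hA hr (cuspZero p) (by
      show (cuspZero p).ord (jd p 1 (one_dvd p)) < 0
      rw [hZJ]; omega)
    intro heq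
    rw [heq] at h1
    exact absurd h2 (not_lt.mpr h1.le)
  -- the reduction of `u` is not constant
  have hub : ∀ κ : IsLocalRing.ResidueField A,
      Jdk (IsLocalRing.ResidueField A) p (dvd_refl p) /
        Jdk (IsLocalRing.ResidueField A) p (one_dvd p) ^ p -
        algebraMap (IsLocalRing.ResidueField A) _ κ ≠ 0 := by
    intro κ hκ
    have hκ' := sub_eq_zero.mp hκ
    have hκ0 : κ ≠ 0 := by
      rintro rfl
      rw [map_zero] at hκ'
      exact hub0 hκ'
    have hcl := Ru.clause hr hub0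
    have h0 := hcl (Finsupp.ofSupportFinite (fun P => P.ord
      (jFormal p ⟨p, dvd_rfl⟩ / jFormal p ⟨1, one_dvd p⟩ ^ p)) (hfin _)) (fun P => rfl)
      (r (cuspZero p))
    rw [hκ', (isRawVal_ord (r (cuspZero p))).map_algebraMap κ hκ0] at h0
    have hpos := mapDomain_pos_of r (Finsupp.ofSupportFinite (fun P => P.ord
      (jFormal p ⟨p, dvd_rfl⟩ / jFormal p ⟨1, one_dvd p⟩ ^ p)) (hfin _)) (r (cuspZero p))
      (fun P hP => by
        by_contra hneg
        push Not at hneg
        exact hsep0 P hneg hP) (cuspZero p) rfl hordu0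
    rw [h0] at hpos
    exact lt_irrefl _ hpos
  -- the main count
  have hmain := mapDomain_eq_of_sep hfin r hr.1
    (Fermat.Agent.Lib.FF.CharP.deg_eq_one_fullC _ p)
    (jFormal p ⟨1, one_dvd p⟩) b⁻¹ (Jdk (IsLocalRing.ResidueField A) p (one_dvd p))⁻¹
    (RJinv.clause hr (inv_ne_zero hJb0)) (R2.clause hr (inv_ne_zero hJb0))
    (jFormal p ⟨p, dvd_rfl⟩ / jFormal p ⟨1, one_dvd p⟩ ^ p) (a / b ^ p) 0
    (Jdk (IsLocalRing.ResidueField A) p (dvd_refl p) /
      Jdk (IsLocalRing.ResidueField A) p (one_dvd p) ^ p)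
    (IsLocalRing.residue A ⟨a / b ^ p, hγA⟩) 0 hγb
    ((Ru.sub (Red.const ⟨a / b ^ p, hγA⟩)).clause hr (hub _))
    ((Ru.sub (by
      have h := Red.const (hπ := hπ) (hNk := hNk) (0 : A)
      rwa [map_zero] at h)).clause hr (hub _))
    (Finsupp.single x 1) (Finsupp.single (cuspInf p) 1) (Finsupp.single (cuspZero p) 1) p
    (fun P => by rw [Finsupp.single_apply]; split_ifs <;> norm_num)
    (fun P => by rw [Finsupp.single_apply]; split_ifs <;> norm_num)
    (fun P => by rw [Finsupp.single_apply]; split_ifs <;> norm_num)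
    (fun P => by
      rw [Finsupp.single_apply, Finsupp.single_apply]
      by_cases h1 : cuspInf p = P
      · subst h1
        rw [if_pos rfl, if_neg (Ne.symm hne)]
        have e2 : (cuspInf p).ord (jFormal p ⟨1, one_dvd p⟩) = -1 := hIJ
        rw [e2]
        norm_num
      · by_cases h2 : cuspZero p = P
        · subst h2
          rw [if_neg h1, if_pos rfl]
          have e2 : (cuspZero p).ord (jFormal p ⟨1, one_dvd p⟩) = -(p : ℤ) := hZJ
          rw [e2, neg_neg, mul_one, zero_add]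
          exact max_eq_left (by omega)
        · rw [if_neg h1, if_neg h2, mul_zero, add_zero]
          refine max_eq_right ?_
          by_contra hcon
          push Not at hcon
          have hneg : P.ord (jd p 1 (one_dvd p)) < 0 := by
            have : P.ord (jFormal p ⟨1, one_dvd p⟩) = P.ord (jd p 1 (one_dvd p)) := rfl
            omega
          rcases ((hU P).2 hneg).1 with h | h
          · exact h1 h.symm
          · exact h2 h.symm)
    (fun P => by
      rw [Finsupp.single_apply]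
      by_cases h1 : x = P
      · subst h1
        rw [if_pos rfl, ord_inv_sub_inv x hb0 hxb]
        exact le_max_of_le_left hxb
      · rw [if_neg h1]
        exact le_max_right _ _)
    (fun P hP => by
      have h1 : x = P := by
        by_contra hne'
        rw [Finsupp.single_apply, if_neg hne'] at hP
        exact lt_irrefl _ hP
      subst h1
      have hv := val_div_sub_lt_one x hb0 ((val_lt_one_iff x _).mpr (Or.inr hxa))
        ((val_lt_one_iff x _).mpr (Or.inr hxb)) p
      rcases (val_lt_one_iff x _).mp hv with h0 | h0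
      · exfalso
        have hc := hordu0
        rw [sub_eq_zero.mp h0, (isRawVal_ord (cuspZero p)).map_algebraMap _ hγ0] at hc
        exact lt_irrefl _ hc
      · exact h0)
    (fun P hP => by
      have h1 : cuspZero p = P := by
        by_contra hne'
        rw [Finsupp.single_apply, if_neg hne'] at hP
        exact lt_irrefl _ hP
      subst h1
      rw [map_zero, sub_zero]
      exact hordu0)
    (fun P P' hPu hP' => by
      have h1 : cuspZero p = P' := by
        by_contra hne'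
        rw [Finsupp.single_apply, if_neg hne'] at hP'
        exact lt_irrefl _ hP'
      subst h1
      exact hsep0 P hPu)
    (by
      rw [Divisor.degree_single, Divisor.degree_single, PlaceDict.deg_eq_one,
        PlaceDict.deg_eq_one])
  rw [Finsupp.mapDomain_single, Finsupp.mapDomain_single] at hmain
  exact Finsupp.single_left_injective one_ne_zero hmain

/-- **`RedInf`** (the literal of the (M\*) assembly): a place over a pair of type `∞` at `A`
(over `ℓ ≥ 5`, `ℓ ≠ p`) has the same reduction at `A` as the cusp `∞`. -/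
theorem redInf (p : ℕ) [NeZero p] (hp : p.Prime) (ℓ : ℕ) (hℓ : ℓ.Prime) (h5 : 5 ≤ ℓ) (hℓp : ℓ ≠ p)
    (A : ValuationSubring (AlgebraicClosure ℚ)) (hA : A.LiesOverPrime ℓ)
    (h : ReductionInputsModL A p) (b a : AlgebraicClosure ℚ) (hb : b ∉ A)
    (hu : A.valuation (a / b ^ p) = 1) (x : Place (AlgebraicClosure ℚ) (FN p))
    (hx : 0 < x.ord (jFormal p ⟨1, one_dvd p⟩ - algebraMap (AlgebraicClosure ℚ) (FN p) b) ∧
      0 < x.ord (jFormal p ⟨p, dvd_rfl⟩ - algebraMap (AlgebraicClosure ℚ) (FN p) a)) :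
    placeReductionModL h x = placeReductionModL h (cuspInf p) :=
  red_eq_cuspInf A hp hℓ hℓp (Or.inl h5) hA (isPlaceReductionModL_placeReductionModL h) b a hb hu
    x hx.1 hx.2

end

end Fermat.Agent.S15P.G2.RedInf85
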