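import Mathlib
import Fermat.Agent.ESJ.Cong.LevelPull
import Fermat.Agent.S24.PlaceDict
import Fermat.Agent.ESJ.LevelDesc.Pic0Push

/-!
# S15 (G2), brick (BC): base change of divisors in the square `F_1 ⊆ F_p`, `F_q ⊆ F_{pq}`

For a place `x` of `ℚ̄(X₀(p))` the push-forward to level `q` of its pull-back to level `p q` is
the fibre of `j` (at level `q`) over the `j`-value of `x`:

* `pushforward_pullback_point` : `x` over `j = b`  ⟹ coefficient at `y` = `max (ord_y (j - b)) 0`;
* `pushforward_pullback_cusp`  : `x` a pole of `j` ⟹ coefficient at `y` = `max (- ord_y j) 0`.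

Source: main's `ESJ.LevelDesc.pullbackAlong_pushforwardAlong` (base change `a^* α_* = α'_* a'^*`)
with the norm compatibility `ESJ.Cong.LevelPull.norm_incl 1 q p`, and `[F_1 : ℚ̄(j)] = 1`.
-/

set_option autoImplicit false
set_option linter.style.haveILetI false
set_option synthInstance.maxHeartbeats 400000

noncomputable section

namespace Fermat.Agent.S15P.G2.BaseChange6

open AlgebraicCurve ModularCurve IntermediateField
open Fermat.Agent.S24 Fermat.Agent.ESJ.HeckeInputs Fermat.Agent.ESJ.LevelDesc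
open Fermat.Agent.ESJ.Cong Fermat.Agent.ESJ.Cong.LevelPull
open scoped MatrixGroups

local notation "Qb" => AlgebraicClosure ℚ

/-! ### Level one: `F_1 = ℚ̄(j)` -/

theorem card_XN_one : Nat.card (XN 1) = 1 := by
  have h : (CongruenceSubgroup.Gamma0 1 : Subgroup SL(2, ℤ)) = ⊤ := by
    ext g
    simp only [CongruenceSubgroup.Gamma0_mem, Subgroup.mem_top, iff_true]
    exact Subsingleton.elim _ _
  show Nat.card (SL(2, ℤ) ⧸ CongruenceSubgroup.Gamma0 1) = 1
  rw [h]
  exact Nat.card_eq_one_iff_unique.mpr ⟨QuotientGroup.subsingleton_quotient_top, ⟨1⟩⟩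

theorem finrank_one : Module.finrank KQ⟮jBar 1⟯ (FN 1) = 1 := by
  rw [PlaceDict.finrank_eq_card, card_XN_one]

/-- At level one a place over `j = c` is unique and `j - c` is a uniformizer. -/
theorem level_one_point (c : KQ) (v : Place KQ (FN 1))
    (hv : 0 < v.ord (jBar 1 - algebraMap KQ (FN 1) c)) :
    v.ord (jBar 1 - algebraMap KQ (FN 1) c) = 1 ∧
      ∀ w : Place KQ (FN 1), 0 < w.ord (jBar 1 - algebraMap KQ (FN 1) c) → w = v := by
  classical
  haveI := finiteDimensional_jBar 1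
  obtain ⟨hfin, hsum⟩ := Transfer.placesOver_finite_sum (jBar 1) (transcendental_jBar 1) c
  rw [finrank_one] at hsum
  have hvmem : v ∈ hfin.toFinset := by
    rw [Set.Finite.mem_toFinset]; exact hv
  have hpos : ∀ w ∈ hfin.toFinset, 0 < w.ord (jBar 1 - algebraMap KQ (FN 1) c) := by
    intro w hw
    rw [Set.Finite.mem_toFinset] at hw; exact hw
  rw [← Finset.add_sum_erase _ _ hvmem] at hsum
  have hrest : 0 ≤ ∑ w ∈ hfin.toFinset.erase v, w.ord (jBar 1 - algebraMap KQ (FN 1) c) :=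
    Finset.sum_nonneg fun w hw => (hpos w (Finset.mem_of_mem_erase hw)).le
  refine ⟨by push_cast at hsum; omega, fun w hw => ?_⟩
  by_contra hne
  have hwmem : w ∈ hfin.toFinset.erase v := by
    rw [Finset.mem_erase, Set.Finite.mem_toFinset]; exact ⟨hne, hw⟩
  have h1 : w.ord (jBar 1 - algebraMap KQ (FN 1) c)
      ≤ ∑ w ∈ hfin.toFinset.erase v, w.ord (jBar 1 - algebraMap KQ (FN 1) c) :=
    Finset.single_le_sum (fun u hu => (hpos u (Finset.mem_of_mem_erase hu)).le) hwmem
  push_cast at hsum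
  omega

/-- At level one the pole of `j` is unique and simple. -/
theorem level_one_pole (v : Place KQ (FN 1)) (hv : v.ord (jBar 1) < 0) :
    v.ord (jBar 1) = -1 ∧ ∀ w : Place KQ (FN 1), w.ord (jBar 1) < 0 → w = v := by
  classical
  haveI := finiteDimensional_jBar 1
  obtain ⟨hfin, hsum⟩ := Transfer.polesOf_finite_sum (jBar 1) (transcendental_jBar 1)
  rw [finrank_one] at hsum
  have hvmem : v ∈ hfin.toFinset := by
    rw [Set.Finite.mem_toFinset]; exact hv
  have hpos : ∀ w ∈ hfin.toFinset, 0 < -w.ord (jBar 1) := by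
    intro w hw
    rw [Set.Finite.mem_toFinset] at hw
    have : w.ord (jBar 1) < 0 := hw
    omega
  rw [← Finset.add_sum_erase _ _ hvmem] at hsum
  have hrest : 0 ≤ ∑ w ∈ hfin.toFinset.erase v, (-w.ord (jBar 1)) :=
    Finset.sum_nonneg fun w hw => (hpos w (Finset.mem_of_mem_erase hw)).le
  refine ⟨by push_cast at hsum; omega, fun w hw => ?_⟩
  by_contra hne
  have hwmem : w ∈ hfin.toFinset.erase v := by
    rw [Finset.mem_erase, Set.Finite.mem_toFinset]; exact ⟨hne, hw⟩
  have h1 : -w.ord (jBar 1) ≤ ∑ w ∈ hfin.toFinset.erase v, (-w.ord (jBar 1)) :=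
    Finset.single_le_sum (fun u hu => (hpos u (Finset.mem_of_mem_erase hu)).le) hwmem
  push_cast at hsum
  omega

/-! ### Base change at main's levels `1`, `1 * q`, `1 * p`, `1 * q * p` -/

section Main

variable (p q : ℕ) [NeZero p] [NeZero q]

/-- **Base change** for the square `F_1 ⊆ F_{1·p}`, `F_{1·q} ⊆ F_{1·q·p}`. -/
theorem baseChange_main (hp : p.Prime) (hpq : ¬ p ∣ 1 * q) (D : Divisor Qb (FN (1 * p))) :
    haveI := hasPrincipalDivisors_bar (1 * q)
    haveI := hasPrincipalDivisors_bar (1 * q * p)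
    Divisor.pullbackAlong (heckeAlphaBar Qb 1 q) (heckeAlphaBarIntegral 1 q)
        (Divisor.pushforwardAlong (heckeAlphaBar Qb 1 p) (heckeAlphaBarIntegral 1 p) D)
      = Divisor.pushforwardAlong (heckeAlphaBar Qb (1 * q) p) (heckeAlphaBarIntegral (1 * q) p)
          (Divisor.pullbackAlong (incl 1 q p) (isIntegral_incl 1 q p) D) := by
  haveI := hasPrincipalDivisors_bar (1 * q)
  haveI := hasPrincipalDivisors_bar (1 * p)
  haveI := hasPrincipalDivisors_bar (1 * q * p)
  have hN : NormFormulaAlong Qb (heckeAlphaBar Qb 1 p) (finiteAlong_heckeAlphaBar 1 p) := by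
    haveI := isAlgebraic_bar 1
    haveI := isAlgebraic_bar (1 * p)
    exact normFormulaAlong _ _ (jBar 1) (jBar (1 * p))
  have hN' : NormFormulaAlong Qb (heckeAlphaBar Qb (1 * q) p)
      (finiteAlong_heckeAlphaBar (1 * q) p) := by
    haveI := isAlgebraic_bar (1 * q)
    haveI := isAlgebraic_bar (1 * q * p)
    exact normFormulaAlong _ _ (jBar (1 * q)) (jBar (1 * q * p))
  exact pullbackAlong_pushforwardAlong (heckeAlphaBar Qb 1 q) (heckeAlphaBar Qb 1 p)
    (heckeAlphaBar Qb (1 * q) p) (incl 1 q p) (heckeAlphaBarIntegral 1 q)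
    (heckeAlphaBarIntegral 1 p) (heckeAlphaBarIntegral (1 * q) p) (isIntegral_incl 1 q p)
    (alpha_comp_alpha 1 q p) (finiteAlong_heckeAlphaBar 1 p) hN
    (finiteAlong_heckeAlphaBar (1 * q) p) hN' (fun f => norm_incl 1 q p hp hpq f)
    (exists_ord_eq_one (1 * p)) D

end Main

section Eval

variable (p q : ℕ) [NeZero p] [NeZero q]

open Classical in
/-- The push-pull of a single place, evaluated. -/
theorem baseChange_single (hp : p.Prime) (hpq : ¬ p ∣ 1 * q) (x : Place Qb (FN (1 * p)))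
    (y : Place Qb (FN (1 * q))) :
    haveI := hasPrincipalDivisors_bar (1 * q * p)
    Divisor.pushforwardAlong (heckeAlphaBar Qb (1 * q) p) (heckeAlphaBarIntegral (1 * q) p)
        (Divisor.pullbackAlong (incl 1 q p) (isIntegral_incl 1 q p) (Finsupp.single x 1)) y
      = if y.restrictAlong (heckeAlphaBar Qb 1 q) (heckeAlphaBarIntegral 1 q)
            = x.restrictAlong (heckeAlphaBar Qb 1 p) (heckeAlphaBarIntegral 1 p)
        then (Place.ramificationIndexAlong (heckeAlphaBar Qb 1 q) y : ℤ) else 0 := by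
  classical
  haveI := hasPrincipalDivisors_bar (1 * q)
  haveI := hasPrincipalDivisors_bar (1 * q * p)
  rw [← baseChange_main p q hp hpq,
    pushforwardAlong_single_of_deg (heckeAlphaBar Qb 1 p) (heckeAlphaBarIntegral 1 p)
      (deg_eq_one_bar (1 * p)) x 1]
  refine (Divisor.pullbackAlong_apply (heckeAlphaBar Qb 1 q) (heckeAlphaBarIntegral 1 q) _
    y).trans ?_
  rw [Finsupp.single_apply]
  split_ifs with h1 h2 h2
  · rw [mul_one]
  · exact absurd h1.symm h2
  · exact absurd h2.symm h1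
  · rw [mul_zero]

theorem alpha_sub (N ℓ : ℕ) [NeZero N] [NeZero ℓ] (b : Qb) :
    heckeAlphaBar Qb N ℓ (jBar N - algebraMap Qb (FN N) b)
      = jBar (N * ℓ) - algebraMap Qb (FN (N * ℓ)) b := by
  rw [map_sub, ConjAnalytic.alpha_jBar, AlgHom.commutes]

/-- (BC-pt), main's levels. -/
theorem point_main (hp : p.Prime) (hpq : ¬ p ∣ 1 * q) (x : Place Qb (FN (1 * p))) (b : Qb)
    (hx : 0 < x.ord (jBar (1 * p) - algebraMap Qb (FN (1 * p)) b))
    (y : Place Qb (FN (1 * q))) :
    haveI := hasPrincipalDivisors_bar (1 * q * p)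
    Divisor.pushforwardAlong (heckeAlphaBar Qb (1 * q) p) (heckeAlphaBarIntegral (1 * q) p)
        (Divisor.pullbackAlong (incl 1 q p) (isIntegral_incl 1 q p) (Finsupp.single x 1)) y
      = max (y.ord (jBar (1 * q) - algebraMap Qb (FN (1 * q)) b)) 0 := by
  rw [baseChange_single p q hp hpq x y]
  have hx1 := Place.ord_restrictAlong (heckeAlphaBar Qb 1 p) (heckeAlphaBarIntegral 1 p) x
    (jBar 1 - algebraMap Qb (FN 1) b)
  rw [alpha_sub 1 p b] at hx1
  have hy1 := Place.ord_restrictAlong (heckeAlphaBar Qb 1 q) (heckeAlphaBarIntegral 1 q) y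
    (jBar 1 - algebraMap Qb (FN 1) b)
  rw [alpha_sub 1 q b] at hy1
  have hex : (0 : ℤ) ≤ (Place.ramificationIndexAlong (heckeAlphaBar Qb 1 p) x : ℤ) :=
    Int.natCast_nonneg _
  have hey : (0 : ℤ) ≤ (Place.ramificationIndexAlong (heckeAlphaBar Qb 1 q) y : ℤ) :=
    Int.natCast_nonneg _
  have hb0 : 0 < (x.restrictAlong (heckeAlphaBar Qb 1 p) (heckeAlphaBarIntegral 1 p)).ord
      (jBar 1 - algebraMap Qb (FN 1) b) := by
    by_contra hcon
    have := mul_nonpos_of_nonneg_of_nonpos hex (not_lt.mp hcon)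
    omega
  obtain ⟨h1, huniq⟩ := level_one_point b _ hb0
  split_ifs with h
  · rw [hy1, h, h1, mul_one, max_eq_left hey]
  · have hle : (y.restrictAlong (heckeAlphaBar Qb 1 q) (heckeAlphaBarIntegral 1 q)).ord
        (jBar 1 - algebraMap Qb (FN 1) b) ≤ 0 := by
      by_contra hcon
      exact h (huniq _ (not_le.mp hcon))
    rw [hy1, max_eq_right (mul_nonpos_of_nonneg_of_nonpos hey hle)]

/-- (BC-cusp), main's levels. -/
theorem cusp_main (hp : p.Prime) (hpq : ¬ p ∣ 1 * q) (x : Place Qb (FN (1 * p)))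
    (hx : x.ord (jBar (1 * p)) < 0) (y : Place Qb (FN (1 * q))) :
    haveI := hasPrincipalDivisors_bar (1 * q * p)
    Divisor.pushforwardAlong (heckeAlphaBar Qb (1 * q) p) (heckeAlphaBarIntegral (1 * q) p)
        (Divisor.pullbackAlong (incl 1 q p) (isIntegral_incl 1 q p) (Finsupp.single x 1)) y
      = max (-(y.ord (jBar (1 * q)))) 0 := by
  rw [baseChange_single p q hp hpq x y]
  have hx1 := Place.ord_restrictAlong (heckeAlphaBar Qb 1 p) (heckeAlphaBarIntegral 1 p) x
    (jBar 1)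
  rw [ConjAnalytic.alpha_jBar 1 p] at hx1
  have hy1 := Place.ord_restrictAlong (heckeAlphaBar Qb 1 q) (heckeAlphaBarIntegral 1 q) y
    (jBar 1)
  rw [ConjAnalytic.alpha_jBar 1 q] at hy1
  have hex : (0 : ℤ) ≤ (Place.ramificationIndexAlong (heckeAlphaBar Qb 1 p) x : ℤ) :=
    Int.natCast_nonneg _
  have hey : (0 : ℤ) ≤ (Place.ramificationIndexAlong (heckeAlphaBar Qb 1 q) y : ℤ) :=
    Int.natCast_nonneg _
  have hb0 : (x.restrictAlong (heckeAlphaBar Qb 1 p) (heckeAlphaBarIntegral 1 p)).ord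
      (jBar 1) < 0 := by
    by_contra hcon
    have := mul_nonneg hex (not_lt.mp hcon)
    omega
  obtain ⟨h1, huniq⟩ := level_one_pole _ hb0
  split_ifs with h
  · rw [hy1, h, h1, mul_neg, mul_one, neg_neg, max_eq_left hey]
  · have hge : 0 ≤ (y.restrictAlong (heckeAlphaBar Qb 1 q) (heckeAlphaBarIntegral 1 q)).ord
        (jBar 1) := by
      by_contra hcon
      exact h (huniq _ (not_le.mp hcon))
    rw [hy1, max_eq_right (by have := mul_nonneg hey hge; omega)]

end Eval

/-! ### Transport to the levels `p`, `q`, `p * q` -/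

section Transport

theorem bar_le {N M : ℕ} [NeZero N] [NeZero M] (h : N ∣ M) :
    modularFunctionFieldBar N ≤ modularFunctionFieldBar M := by
  have h0 := full_degeneracy_le h
  show laurentBaseChange Qb (modularFunctionFieldFull N)
    ≤ laurentBaseChange Qb (modularFunctionFieldFull M)
  rw [laurentBaseChange, IntermediateField.adjoin_le_iff]
  rintro _ ⟨y, hy, rfl⟩
  exact coeffEmb_mem_laurentBaseChange Qb (h0 hy)

theorem isIntegral_inclusion {N M : ℕ} [NeZero N] [NeZero M]
    (h : modularFunctionFieldBar N ≤ modularFunctionFieldBar M) :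
    (IntermediateField.inclusion h : FN N →ₐ[Qb] FN M).toRingHom.IsIntegral :=
  haveI := finiteDimensional_jBar M
  isIntegral_of_finiteAlong _ (finiteAlong _ (transcendental_jBar N) (jBar M))

theorem point_gen (p q : ℕ) [NeZero p] [NeZero q] (hp : p.Prime) (hpq : ¬ p ∣ 1 * q)
    (N₁ N₂ N₃ : ℕ) [NeZero N₁] [NeZero N₂] [NeZero N₃]
    (e₁ : N₁ = 1 * p) (e₂ : N₂ = 1 * q) (e₃ : N₃ = 1 * q * p)
    (h₁₃ : modularFunctionFieldBar N₁ ≤ modularFunctionFieldBar N₃)
    (h₂₃ : modularFunctionFieldBar N₂ ≤ modularFunctionFieldBar N₃)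
    (hi₁ : (IntermediateField.inclusion h₁₃ : FN N₁ →ₐ[Qb] FN N₃).toRingHom.IsIntegral)
    (hi₂ : (IntermediateField.inclusion h₂₃ : FN N₂ →ₐ[Qb] FN N₃).toRingHom.IsIntegral)
    (x : Place Qb (FN N₁)) (b : Qb)
    (hx : 0 < x.ord (jBar N₁ - algebraMap Qb (FN N₁) b)) (y : Place Qb (FN N₂)) :
    haveI := hasPrincipalDivisors_bar N₃
    Divisor.pushforwardAlong (IntermediateField.inclusion h₂₃ : FN N₂ →ₐ[Qb] FN N₃) hi₂
        (Divisor.pullbackAlong (IntermediateField.inclusion h₁₃ : FN N₁ →ₐ[Qb] FN N₃) hi₁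
          (Finsupp.single x 1)) y
      = max (y.ord (jBar N₂ - algebraMap Qb (FN N₂) b)) 0 := by
  subst e₁ e₂ e₃
  exact point_main p q hp hpq x b hx y

theorem cusp_gen (p q : ℕ) [NeZero p] [NeZero q] (hp : p.Prime) (hpq : ¬ p ∣ 1 * q)
    (N₁ N₂ N₃ : ℕ) [NeZero N₁] [NeZero N₂] [NeZero N₃]
    (e₁ : N₁ = 1 * p) (e₂ : N₂ = 1 * q) (e₃ : N₃ = 1 * q * p)
    (h₁₃ : modularFunctionFieldBar N₁ ≤ modularFunctionFieldBar N₃)
    (h₂₃ : modularFunctionFieldBar N₂ ≤ modularFunctionFieldBar N₃)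
    (hi₁ : (IntermediateField.inclusion h₁₃ : FN N₁ →ₐ[Qb] FN N₃).toRingHom.IsIntegral)
    (hi₂ : (IntermediateField.inclusion h₂₃ : FN N₂ →ₐ[Qb] FN N₃).toRingHom.IsIntegral)
    (x : Place Qb (FN N₁)) (hx : x.ord (jBar N₁) < 0) (y : Place Qb (FN N₂)) :
    haveI := hasPrincipalDivisors_bar N₃
    Divisor.pushforwardAlong (IntermediateField.inclusion h₂₃ : FN N₂ →ₐ[Qb] FN N₃) hi₂
        (Divisor.pullbackAlong (IntermediateField.inclusion h₁₃ : FN N₁ →ₐ[Qb] FN N₃) hi₁
          (Finsupp.single x 1)) y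
      = max (-(y.ord (jBar N₂))) 0 := by
  subst e₁ e₂ e₃
  exact cusp_main p q hp hpq x hx y

variable (p q : ℕ) [NeZero q] [NeZero (p * q)]

/-- The inclusion `F_q ⊆ F_{pq}`. -/
def inclQ : FN q →ₐ[Qb] FN (p * q) :=
  IntermediateField.inclusion (bar_le (dvd_mul_left q p))

@[simp]
theorem coe_inclQ (f : FN q) : ((inclQ p q f : FN (p * q)) : LaurentSeries Qb) = f :=
  IntermediateField.coe_inclusion _ f

theorem inclQ_integral : (inclQ p q).toRingHom.IsIntegral :=
  isIntegral_inclusion _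

/-- **(BC-pt)**: `x` a place of `X₀(p)` over `j = b`; the push-forward to level `q` of the
pull-back of `(x)` to level `p q` is the fibre of `j` over `b` at level `q`. -/
theorem pushforward_pullback_point [NeZero p] (hp : p.Prime) (hq : q.Prime) (hpq : p ≠ q)
    (x : Place Qb (FN p)) (b : Qb) (hx : 0 < x.ord (jBar p - algebraMap Qb (FN p) b))
    (y : Place Qb (FN q)) :
    haveI := hasPrincipalDivisors_bar (p * q)
    Divisor.pushforwardAlong (inclQ p q) (inclQ_integral p q)
        (Divisor.pullbackAlong (heckeAlphaBar Qb p q) (heckeAlphaBarIntegral p q)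
          (Finsupp.single x 1)) y
      = max (y.ord (jBar q - algebraMap Qb (FN q) b)) 0 :=
  point_gen p q hp (by rw [one_mul]; exact fun h => hpq ((Nat.prime_dvd_prime_iff_eq hp hq).mp h))
    p q (p * q) (one_mul p).symm (one_mul q).symm (by rw [one_mul, mul_comm])
    (bar_le (dvd_mul_right p q)) (bar_le (dvd_mul_left q p))
    (heckeAlphaBarIntegral p q) (inclQ_integral p q) x b hx y

/-- **(BC-cusp)**: `x` a pole of `j` on `X₀(p)`; the push-forward to level `q` of the pull-back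
of `(x)` to level `p q` is the polar divisor of `j` at level `q`. -/
theorem pushforward_pullback_cusp [NeZero p] (hp : p.Prime) (hq : q.Prime) (hpq : p ≠ q)
    (x : Place Qb (FN p)) (hx : x.ord (jBar p) < 0) (y : Place Qb (FN q)) :
    haveI := hasPrincipalDivisors_bar (p * q)
    Divisor.pushforwardAlong (inclQ p q) (inclQ_integral p q)
        (Divisor.pullbackAlong (heckeAlphaBar Qb p q) (heckeAlphaBarIntegral p q)
          (Finsupp.single x 1)) y
      = max (-(y.ord (jBar q))) 0 :=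
  cusp_gen p q hp (by rw [one_mul]; exact fun h => hpq ((Nat.prime_dvd_prime_iff_eq hp hq).mp h))
    p q (p * q) (one_mul p).symm (one_mul q).symm (by rw [one_mul, mul_comm])
    (bar_le (dvd_mul_right p q)) (bar_le (dvd_mul_left q p))
    (heckeAlphaBarIntegral p q) (inclQ_integral p q) x hx y

end Transport

end Fermat.Agent.S15P.G2.BaseChange6
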