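import Mathlib
import Fermat.Agent.S24.ModDefs
import Fermat.Agent.S24.Transfer
import Fermat.Agent.S24.DegTop

/-!
# S15 (G2), leaf brick (B1): level `1` in characteristic `0` is the `j`-line

`FN 1 = ℚ̄(j)` has degree `Nat.card (XN 1) = 1` over `ℚ̄(j)` (`S24.finrank_jBar`), so by the
fundamental identity (`S24.Transfer.polesOf_finite_sum`, `placesOver_finite_sum`) the function `j`
has exactly one pole, of order `1`, and for every `b` exactly one zero of `j - b`, of order `1`.
-/

set_option autoImplicit false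

open AlgebraicCurve CongruenceSubgroup
open scoped MatrixGroups IntermediateField

noncomputable section

namespace Fermat.Agent.S15P.G2.Level1_61

open Fermat.Agent.S24

/-- A sum of positive integers equal to `1` has exactly one term, equal to `1`. -/
theorem eq_one_and_unique_of_sum_eq_one {ι : Type*} (s : Finset ι) (f : ι → ℤ)
    (hpos : ∀ i ∈ s, 0 < f i) (hsum : ∑ i ∈ s, f i = 1) :
    (∀ i ∈ s, f i = 1) ∧ ∀ i ∈ s, ∀ j ∈ s, i = j := by
  classical
  have hle : ∀ i ∈ s, f i ≤ 1 := by
    intro i hi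
    have := Finset.single_le_sum (f := f) (fun j hj => (hpos j hj).le) hi
    omega
  refine ⟨fun i hi => le_antisymm (hle i hi) (hpos i hi), fun i hi j hj => ?_⟩
  by_contra hij
  have hsub : ({i, j} : Finset ι) ⊆ s := by
    intro x hx
    rcases Finset.mem_insert.1 hx with rfl | hx
    · exact hi
    · rw [Finset.mem_singleton.1 hx]; exact hj
  have h2 := Finset.sum_le_sum_of_subset_of_nonneg (f := f) hsub
    (fun x hx _ => (hpos x hx).le)
  rw [Finset.sum_pair hij, hsum] at h2
  have := hpos i hi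
  have := hpos j hj
  omega

/-- `Γ₀(1)` is the full modular group: `X(1)` is a point. -/
theorem card_XN_one : Nat.card (XN 1) = 1 := by
  have h : (Gamma0 1 : Subgroup SL(2, ℤ)) = ⊤ := by
    ext g
    simp only [Gamma0_mem, Subgroup.mem_top, iff_true]
    exact Subsingleton.elim _ _
  show Nat.card (SL(2, ℤ) ⧸ Gamma0 1) = 1
  rw [h]
  exact Subgroup.index_top

/-- `[F_1 : ℚ̄(j)] = 1`. -/
theorem finrank_jBar_one : Module.finrank KQ⟮jBar 1⟯ (FN 1) = 1 := by
  rw [finrank_jBar 1, card_XN_one]

/-- The poles of `j` at level `1`: all of order `1`, and only one of them. -/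
theorem poles_jBar_one :
    (∀ v : Place KQ (FN 1), v.ord (jBar 1) < 0 → v.ord (jBar 1) = -1) ∧
      ∀ v w : Place KQ (FN 1), v.ord (jBar 1) < 0 → w.ord (jBar 1) < 0 → v = w := by
  have := finiteDimensional_jBar 1
  obtain ⟨hfin, hsum⟩ := Transfer.polesOf_finite_sum (jBar 1) (transcendental_jBar 1)
  rw [finrank_jBar_one] at hsum
  have key := eq_one_and_unique_of_sum_eq_one hfin.toFinset
    (fun v : Place KQ (FN 1) => -v.ord (jBar 1))
    (fun v hv => by
      have : v.ord (jBar 1) < 0 := (Set.Finite.mem_toFinset hfin).1 hv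
      show 0 < -v.ord (jBar 1)
      omega)
    (by exact_mod_cast hsum)
  refine ⟨fun v hv => ?_, fun v w hv hw => ?_⟩
  · have := key.1 v ((Set.Finite.mem_toFinset hfin).2 hv)
    omega
  · exact key.2 v ((Set.Finite.mem_toFinset hfin).2 hv) w ((Set.Finite.mem_toFinset hfin).2 hw)

/-- The zeros of `j - b` at level `1`: all of order `1`, and only one of them. -/
theorem zeros_jBar_one_sub (b : KQ) :
    (∀ v : Place KQ (FN 1), 0 < v.ord (jBar 1 - algebraMap KQ (FN 1) b) →
        v.ord (jBar 1 - algebraMap KQ (FN 1) b) = 1) ∧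
      ∀ v w : Place KQ (FN 1), 0 < v.ord (jBar 1 - algebraMap KQ (FN 1) b) →
        0 < w.ord (jBar 1 - algebraMap KQ (FN 1) b) → v = w := by
  have := finiteDimensional_jBar 1
  obtain ⟨hfin, hsum⟩ := Transfer.placesOver_finite_sum (jBar 1) (transcendental_jBar 1) b
  rw [finrank_jBar_one] at hsum
  have key := eq_one_and_unique_of_sum_eq_one hfin.toFinset
    (fun v : Place KQ (FN 1) => v.ord (jBar 1 - algebraMap KQ (FN 1) b))
    (fun v hv => (Set.Finite.mem_toFinset hfin).1 hv)
    (by exact_mod_cast hsum)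
  exact ⟨fun v hv => key.1 v ((Set.Finite.mem_toFinset hfin).2 hv),
    fun v w hv hw => key.2 v ((Set.Finite.mem_toFinset hfin).2 hv) w
      ((Set.Finite.mem_toFinset hfin).2 hw)⟩

/-- **(B1.1)** a pole of `j` at level `1` is simple. -/
theorem ord_jBar_one_eq (v : Place KQ (FN 1)) (hv : v.ord (jBar 1) < 0) : v.ord (jBar 1) = -1 :=
  poles_jBar_one.1 v hv

/-- **(B1.2)** `j` has only one pole at level `1`. -/
theorem eq_of_ord_jBar_one_neg (v w : Place KQ (FN 1)) (hv : v.ord (jBar 1) < 0)
    (hw : w.ord (jBar 1) < 0) : v = w :=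
  poles_jBar_one.2 v w hv hw

/-- **(B1.3)** a zero of `j - b` at level `1` is simple. -/
theorem ord_jBar_one_sub_eq (b : KQ) (v : Place KQ (FN 1))
    (hv : 0 < v.ord (jBar 1 - algebraMap KQ (FN 1) b)) :
    v.ord (jBar 1 - algebraMap KQ (FN 1) b) = 1 :=
  (zeros_jBar_one_sub b).1 v hv

/-- **(B1.4)** `j - b` has only one zero at level `1`. -/
theorem eq_of_ord_jBar_one_sub_pos (b : KQ) (v w : Place KQ (FN 1))
    (hv : 0 < v.ord (jBar 1 - algebraMap KQ (FN 1) b))
    (hw : 0 < w.ord (jBar 1 - algebraMap KQ (FN 1) b)) : v = w :=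
  (zeros_jBar_one_sub b).2 v w hv hw

end Fermat.Agent.S15P.G2.Level1_61
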