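import Mathlib
import Fermat.Agent.Lib.Red.SpecCharL
import Fermat.Agent.Lib.FF.CharP.ModLInst

/-!
# S15 (G2), leaf brick (B2): pole orders of `J̄` on the reduction of `X₀(q)`, `q` prime

Over any field `k` the mod-`ℓ` function field of prime level `q` is `k(J̄)(J̄(q^q))`, and `J̄(q^q)`
is a root of the modular equation of level `q`, monic of degree `q + 1` over `k(J̄)`.  Hence
`[F̄_q : k(J̄)] ≤ q + 1`, and (for `k` algebraically closed) every pole order of `J̄` is at most
`q + 1` (`SpecInst.poles_Jbar`: the pole orders add up to the degree).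
-/

set_option autoImplicit false
set_option synthInstance.maxHeartbeats 400000

open AlgebraicCurve ModularCurve IntermediateField Polynomial

noncomputable section

namespace Fermat.Agent.S15P.G2.PoleBound61

open Fermat.Agent.S28 Fermat.Agent.Lib.FF

section Degree

variable (k : Type*) [Field k] (q : ℕ) [NeZero q]

/-- The element `J̄(q^q)` of the function field of level `q`. -/
def Jq : modularFunctionFieldFullC k q := ModL.Jdbar k q q dvd_rfl

/-- For a prime level `q`, `F̄_q = k(J̄, J̄(q^q))`. -/
theorem adjoin_pair_eq_top (hq : q.Prime) :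
    IntermediateField.adjoin k ({ModL.Jbar k q, Jq k q} : Set (modularFunctionFieldFullC k q))
      = ⊤ := by
  rw [eq_top_iff]
  intro c _
  rw [← IntermediateField.mem_lift, IntermediateField.lift_adjoin]
  have hle : modularFunctionFieldFullC k q ≤
      IntermediateField.adjoin k (Subtype.val ''
        ({ModL.Jbar k q, Jq k q} : Set (modularFunctionFieldFullC k q))) := by
    unfold modularFunctionFieldFullC
    rw [IntermediateField.adjoin_le_iff]
    rintro x ⟨d, hd, hdq, rfl⟩
    apply IntermediateField.subset_adjoin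
    rcases (Nat.dvd_prime hq).1 hdq with rfl | rfl
    · exact ⟨ModL.Jbar k q, Or.inl rfl, by rw [ModL.coe_Jbar, qExpand_one_apply]⟩
    · exact ⟨Jq k _, Or.inr rfl, rfl⟩
  exact hle c.2

/-- The modular equation: `J̄(q^q)` is a root of a monic polynomial of degree `q + 1` over
`k(J̄)`. -/
theorem exists_monic_root (hq : q.Prime) :
    ∃ P : Polynomial k⟮ModL.Jbar k q⟯, P.Monic ∧ P.natDegree = q + 1 ∧
      Polynomial.aeval (Jq k q) P = 0 := by
  obtain ⟨D⟩ := ModL.modEq_all_aux q hq
  refine ⟨TD.polyAt D.Φ (IntermediateField.AdjoinSimple.gen k (ModL.Jbar k q)),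
    TD.polyAt_monic D.monic _, ?_, ?_⟩
  · rw [TD.polyAt, Polynomial.Monic.natDegree_map D.monic, D.natDegree_eq]
  · rw [Polynomial.aeval_def, ← Polynomial.eval_map, TD.polyAt_map,
      IntermediateField.AdjoinSimple.algebraMap_gen]
    apply Subtype.val_injective
    have h := TD.map_eval_polyAt
      ((modularFunctionFieldFullC k q).val : modularFunctionFieldFullC k q →+* LaurentSeries k)
      D.Φ (Jq k q) (ModL.Jbar k q)
    have h2 := D.rel₂' hq.ne_zero k 1 one_ne_zero
    rw [TD.Jd_one, one_mul] at h2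
    have e1 : ((modularFunctionFieldFullC k q).val : modularFunctionFieldFullC k q →+*
        LaurentSeries k) (ModL.Jbar k q) = jqModC k := rfl
    have e2 : ((modularFunctionFieldFullC k q).val : modularFunctionFieldFullC k q →+*
        LaurentSeries k) (Jq k q) = TD.Jd k q := ModL.coe_Jdbar_eq_Jd k q q dvd_rfl
    rw [e1, e2, h2] at h
    exact h

/-- **`[F̄_q : k(J̄)] ≤ q + 1`** for a prime `q`, over every field `k`. -/
theorem finrank_Jbar_le (hq : q.Prime) :
    Module.finrank k⟮ModL.Jbar k q⟯ (modularFunctionFieldFullC k q) ≤ q + 1 := by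
  obtain ⟨P, hmon, hdeg, hroot⟩ := exists_monic_root k q hq
  have hint : IsIntegral k⟮ModL.Jbar k q⟯ (Jq k q) := ⟨P, hmon, hroot⟩
  have htop : IntermediateField.adjoin k⟮ModL.Jbar k q⟯
      ({Jq k q} : Set (modularFunctionFieldFullC k q)) = ⊤ := by
    apply IntermediateField.restrictScalars_injective k
    rw [IntermediateField.adjoin_adjoin_left, IntermediateField.restrictScalars_top,
      Set.singleton_union]
    exact adjoin_pair_eq_top k q hq
  have h1 : Module.finrank k⟮ModL.Jbar k q⟯ (modularFunctionFieldFullC k q)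
      = (minpoly k⟮ModL.Jbar k q⟯ (Jq k q)).natDegree := by
    rw [← IntermediateField.adjoin.finrank hint, htop, IntermediateField.finrank_top']
  rw [h1, ← hdeg]
  exact Polynomial.natDegree_le_natDegree (minpoly.min _ _ hmon hroot)

end Degree

section Poles

variable (k : Type*) [Field k] [IsAlgClosed k] (q : ℕ) [NeZero q]

/-- Every pole order of `J̄` on the reduction of `X₀(q)` (`q` prime) is at most `q + 1`. -/
theorem neg_ord_Jbar_le' (hq : q.Prime) (s : Place k (modularFunctionFieldFullC k q)) :
    -(s.ord (ModL.Jbar k q)) ≤ q + 1 := by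
  by_cases hs : s.ord (ModL.Jbar k q) < 0
  · obtain ⟨hfin, hsum⟩ := Fermat.Agent.Lib.Red.SpecInst.poles_Jbar k q
    have hmem : s ∈ hfin.toFinset := (Set.Finite.mem_toFinset hfin).2 hs
    have hle := Finset.single_le_sum
      (f := fun Q : Place k (modularFunctionFieldFullC k q) => -Q.ord (ModL.Jbar k q))
      (fun Q hQ => by
        have : Q.ord (ModL.Jbar k q) < 0 := (Set.Finite.mem_toFinset hfin).1 hQ
        show 0 ≤ -Q.ord (ModL.Jbar k q)
        omega) hmem
    have hb : (Module.finrank k⟮ModL.Jbar k q⟯ (modularFunctionFieldFullC k q) : ℤ)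
        ≤ (q : ℤ) + 1 := by
      exact_mod_cast finrank_Jbar_le k q hq
    have hle' : -s.ord (ModL.Jbar k q)
        ≤ ∑ Q ∈ hfin.toFinset, -Q.ord (ModL.Jbar k q) := hle
    omega
  · have : (0 : ℤ) ≤ (q : ℤ) := Int.natCast_nonneg q
    omega

end Poles

local notation "Qb" => AlgebraicClosure ℚ

/-- **(B2)** of helper78's #5118: pole orders of `j̄` on `X̄₀(q)` are `≤ q + 1`
(`kA = IsLocalRing.ResidueField A`). -/
theorem neg_ord_Jbar_le (A : ValuationSubring Qb) (q : ℕ) [NeZero q] (hq : q.Prime)
    (_hqk : ((q : ℕ) : IsLocalRing.ResidueField A) ≠ 0)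
    (s : Place (IsLocalRing.ResidueField A)
      (modularFunctionFieldFullC (IsLocalRing.ResidueField A) q)) :
    -(s.ord (Lib.FF.ModL.Jbar (IsLocalRing.ResidueField A) q)) ≤ q + 1 :=
  haveI := Fermat.Agent.Lib.FF.CharP.isAlgClosed_residueField A
  neg_ord_Jbar_le' (IsLocalRing.ResidueField A) q hq s

end Fermat.Agent.S15P.G2.PoleBound61
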